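/-
S25 / block D (Dictionary): shared definitions of the general sheaf layer.
Owner: helper249.  FROZEN INTERFACE: do not edit without telling helper249.

Everything here is stated intrinsically on a scheme `X`, in terms of sections `Γ(M, U)` of a sheaf
of modules over opens; `Spec`, `tilde` only occur inside proofs.
-/
import Mathlib
import Fermat.Agent.S25.Triple.BCMod

set_option autoImplicit false

universe u

open CategoryTheory CategoryTheory.Limits AlgebraicGeometry TopologicalSpace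

namespace Fermat.Agent.S25.Mod

variable {X : Scheme.{u}}

/-- The restriction ring homomorphism `Γ(X, U) → Γ(X, V)`. -/
noncomputable abbrev rres (X : Scheme.{u}) {U V : X.Opens} (h : V ≤ U) : Γ(X, U) →+* Γ(X, V) :=
  (X.presheaf.map (homOfLE h).op).hom

/-- Restriction of sections `Γ(M, U) → Γ(M, V)`, as a semilinear map. -/
noncomputable def mres (M : X.Modules) {U V : X.Opens} (h : V ≤ U) :
    Γ(M, U) →ₛₗ[rres X h] Γ(M, V) where
  toFun := M.presheaf.map (homOfLE h).op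
  map_add' := map_add _
  map_smul' r x := M.map_smul (homOfLE h) r x

@[simp] lemma mres_apply (M : X.Modules) {U V : X.Opens} (h : V ≤ U) (s : Γ(M, U)) :
    mres M h s = M.presheaf.map (homOfLE h).op s := rfl

/-- The action of a morphism of sheaves of modules on sections, as a linear map. -/
noncomputable def appₗ {M N : X.Modules} (φ : M ⟶ N) (U : X.Opens) :
    Γ(M, U) →ₗ[Γ(X, U)] Γ(N, U) where
  toFun := φ.app U
  map_add' := map_add _
  map_smul' r x := φ.app_smul r x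

@[simp] lemma appₗ_apply {M N : X.Modules} (φ : M ⟶ N) (U : X.Opens) (s : Γ(M, U)) :
    appₗ φ U s = φ.app U s := rfl

/-- `M` is quasi-coherent on the open `U`. -/
def QCOn (M : X.Modules) (U : X.Opens) : Prop := (M.restrict U.ι).IsQuasicoherent

/-- `G` is extended from the open `U` (i.e. `G = j_* j^* G`): sections over `V` are sections over
`V ⊓ U`. -/
def ExtFrom (G : X.Modules) (U : X.Opens) : Prop :=
  ∀ V : X.Opens, Function.Bijective (G.presheaf.map (homOfLE (inf_le_left : V ⊓ U ≤ V)).op)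

/-- `ρ : N → N'`, semilinear along `φ : R → R'`, is a localization of `N` at `f`
(elementary form; the same shape as `Triple.IsQC`). -/
structure IsLocAt {R R' : Type u} [CommRing R] [CommRing R'] (φ : R →+* R') (f : R)
    {N N' : Type u} [AddCommGroup N] [Module R N] [AddCommGroup N'] [Module R' N']
    (ρ : N →ₛₗ[φ] N') : Prop where
  surj : ∀ n : N', ∃ (m : ℕ) (n₁ : N), ρ n₁ = (φ f) ^ m • n
  inj : ∀ n₁ : N, ρ n₁ = 0 → ∃ m : ℕ, f ^ m • n₁ = 0

/-- A scheme covered by two affine opens whose intersection is a basic open of both. -/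
structure Cov2 (X : Scheme.{u}) where
  U₁ : X.Opens
  U₂ : X.Opens
  aff₁ : IsAffineOpen U₁
  aff₂ : IsAffineOpen U₂
  x : Γ(X, U₁)
  y : Γ(X, U₂)
  inter₁ : U₁ ⊓ U₂ = X.basicOpen x
  inter₂ : U₁ ⊓ U₂ = X.basicOpen y
  cover : U₁ ⊔ U₂ = ⊤

namespace Cov2

variable (𝒰 : Cov2 X)

/-- The intersection. -/
abbrev U₁₂ : X.Opens := 𝒰.U₁ ⊓ 𝒰.U₂

lemma le₁ : 𝒰.U₁₂ ≤ 𝒰.U₁ := inf_le_left
lemma le₂ : 𝒰.U₁₂ ≤ 𝒰.U₂ := inf_le_right

lemma aff₁₂ : IsAffineOpen 𝒰.U₁₂ := by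
  have := 𝒰.aff₁.basicOpen 𝒰.x
  rwa [← 𝒰.inter₁] at this

end Cov2

/-- Sections of a would-be quasi-coherent sheaf over the three affine opens of a `Cov2`. -/
structure GTriple (𝒰 : Cov2 X) where
  N₁ : Type u
  N₂ : Type u
  N₁₂ : Type u
  [ag₁ : AddCommGroup N₁]
  [ag₂ : AddCommGroup N₂]
  [ag₁₂ : AddCommGroup N₁₂]
  [mod₁ : Module Γ(X, 𝒰.U₁) N₁]
  [mod₂ : Module Γ(X, 𝒰.U₂) N₂]
  [mod₁₂ : Module Γ(X, 𝒰.U₁₂) N₁₂]
  ρ₁ : N₁ →ₛₗ[rres X 𝒰.le₁] N₁₂
  ρ₂ : N₂ →ₛₗ[rres X 𝒰.le₂] N₁₂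

namespace GTriple

attribute [instance] ag₁ ag₂ ag₁₂ mod₁ mod₂ mod₁₂

variable {𝒰 : Cov2 X}

/-- Quasi-coherence. -/
structure IsQC (T : GTriple 𝒰) : Prop where
  loc₁ : IsLocAt (rres X 𝒰.le₁) 𝒰.x T.ρ₁
  loc₂ : IsLocAt (rres X 𝒰.le₂) 𝒰.y T.ρ₂

/-- Isomorphisms of triples. -/
structure Iso (T T' : GTriple 𝒰) where
  e₁ : T.N₁ ≃ₗ[Γ(X, 𝒰.U₁)] T'.N₁
  e₂ : T.N₂ ≃ₗ[Γ(X, 𝒰.U₂)] T'.N₂
  e₁₂ : T.N₁₂ ≃ₗ[Γ(X, 𝒰.U₁₂)] T'.N₁₂
  comm₁ : ∀ n, e₁₂ (T.ρ₁ n) = T'.ρ₁ (e₁ n)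
  comm₂ : ∀ n, e₁₂ (T.ρ₂ n) = T'.ρ₂ (e₂ n)

end GTriple

/-- The triple of sections of a sheaf of modules. -/
noncomputable def gsec (𝒰 : Cov2 X) (M : X.Modules) : GTriple 𝒰 where
  N₁ := Γ(M, 𝒰.U₁)
  N₂ := Γ(M, 𝒰.U₂)
  N₁₂ := Γ(M, 𝒰.U₁₂)
  ρ₁ := mres M 𝒰.le₁
  ρ₂ := mres M 𝒰.le₂

/-- The unit `M → f_* f^* M` of the pullback-pushforward adjunction. -/
noncomputable abbrev pbUnit {X' : Scheme.{u}} (f : X' ⟶ X) (M : X.Modules) :
    M ⟶ (Scheme.Modules.pushforward f).obj ((Scheme.Modules.pullback f).obj M) :=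
  (Scheme.Modules.pullbackPushforwardAdjunction f).unit.app M

lemma pushforward_smul {X' : Scheme.{u}} (f : X' ⟶ X) (N : X'.Modules) (U : X.Opens) (r : Γ(X, U))
    (s : Γ((Scheme.Modules.pushforward f).obj N, U)) :
    r • s = (show Γ(N, f ⁻¹ᵁ U) from (f.app U r • (show Γ(N, f ⁻¹ᵁ U) from s))) := rfl

/-- The canonical map `Γ(M, U) → Γ(f^* M, U')` for `U' ≤ f⁻¹ U`, semilinear along
`Γ(X, U) → Γ(X', U')`: the unit `M → f_* f^* M` followed by restriction. -/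
noncomputable def pbMap {X' : Scheme.{u}} (f : X' ⟶ X) (M : X.Modules) (U : X.Opens)
    (U' : X'.Opens) (h : U' ≤ f ⁻¹ᵁ U) :
    Γ(M, U) →ₛₗ[(f.appLE U U' h).hom] Γ((Scheme.Modules.pullback f).obj M, U') where
  toFun s := ((Scheme.Modules.pullback f).obj M).presheaf.map (homOfLE h).op
    (show Γ((Scheme.Modules.pullback f).obj M, f ⁻¹ᵁ U) from (pbUnit f M).app U s)
  map_add' a b := by
    rw [map_add]; exact map_add _ _ _
  map_smul' r s := by
    rw [Scheme.Modules.Hom.app_smul, pushforward_smul]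
    refine (((Scheme.Modules.pullback f).obj M).map_smul (homOfLE h) _ _).trans ?_
    rfl

lemma pbMap_apply {X' : Scheme.{u}} (f : X' ⟶ X) (M : X.Modules) (U : X.Opens)
    (U' : X'.Opens) (h : U' ≤ f ⁻¹ᵁ U) (s : Γ(M, U)) :
    pbMap f M U U' h s = ((Scheme.Modules.pullback f).obj M).presheaf.map (homOfLE h).op
      (show Γ((Scheme.Modules.pullback f).obj M, f ⁻¹ᵁ U) from (pbUnit f M).app U s) := rfl

end Fermat.Agent.S25.Mod
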