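/-
S25 / block D, section ALG (task S25-D-ALG1): for a module over a commutative ring,
"Zariski-locally free of rank one" is the same as `Module.Invertible`.
-/
import Fermat.Agent.S25.Mod.DictDefs

set_option autoImplicit false

universe u

open TensorProduct

namespace Fermat.Agent.S25.Mod

namespace AlgInv

/-- Over a localization `A` of `R`, for an `A`-module `M` which is free of rank one, the
`R`-linear contraction `Hom_R(M, A) ⊗[R] M → A` is bijective. -/
theorem bijective_contract {R A : Type*} [CommRing R] [CommRing A] [Algebra R A]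
    (S : Submonoid R) [IsLocalization S A] {M : Type*} [AddCommGroup M] [Module R M]
    [Module A M] [IsScalarTower R A M] (e : M ≃ₗ[A] A) :
    Function.Bijective
      (TensorProduct.lift (LinearMap.id : (M →ₗ[R] A) →ₗ[R] (M →ₗ[R] A))) := by
  have hc : TensorProduct.CompatibleSMul R A (M →ₗ[R] A) M :=
    IsLocalization.tensorProduct_compatibleSMul S A _ _
  have hl : LinearMap.CompatibleSMul M A A R := IsLocalization.linearMap_compatibleSMul S A M A
  set n₀ : M := e.symm 1 with hn₀
  set l₀ : M →ₗ[R] A := e.toLinearMap.restrictScalars R with hl₀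
  have hgen : ∀ m : M, m = e m • n₀ := by
    intro m
    apply e.injective
    rw [map_smul, hn₀, e.apply_symm_apply, smul_eq_mul, mul_one]
  have hl₀n₀ : l₀ n₀ = 1 := by
    simp [hl₀, hn₀]
  constructor
  · -- injective, through a left inverse
    have key : ∀ x : (M →ₗ[R] A) ⊗[R] M,
        x = (TensorProduct.lift (LinearMap.id : (M →ₗ[R] A) →ₗ[R] (M →ₗ[R] A)) x • l₀) ⊗ₜ[R] n₀ := by
      intro x
      induction x using TensorProduct.induction_on with
      | zero => simp
      | tmul μ m =>
        rw [TensorProduct.lift.tmul, LinearMap.id_apply]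
        conv_lhs => rw [hgen m, ← TensorProduct.smul_tmul]
        congr 1
        ext y
        rw [LinearMap.smul_apply, LinearMap.smul_apply, smul_eq_mul, smul_eq_mul]
        have h1 : μ y = e y * μ n₀ := by
          conv_lhs => rw [hgen y, LinearMap.map_smul_of_tower, smul_eq_mul]
        have h2 : μ m = e m * μ n₀ := by
          conv_lhs => rw [hgen m, LinearMap.map_smul_of_tower, smul_eq_mul]
        have h3 : l₀ y = e y := rfl
        rw [h1, h2, h3]
        ring
      | add x y hx hy =>
        rw [map_add, add_smul, TensorProduct.add_tmul, ← hx, ← hy]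
    intro x y hxy
    rw [key x, key y, hxy]
  · intro a
    refine ⟨(a • l₀) ⊗ₜ[R] n₀, ?_⟩
    rw [TensorProduct.lift.tmul, LinearMap.id_apply, LinearMap.smul_apply, hl₀n₀, smul_eq_mul,
      mul_one]

/-- Clean form: a module which becomes free of rank one on a Zariski cover is invertible. -/
theorem invertible_of_isLocalizedModule {R : Type u} [CommRing R] {N : Type u} [AddCommGroup N]
    [Module R N] (s : Set R) (hs : Ideal.span s = ⊤)
    (Rf : s → Type u) [∀ f, CommRing (Rf f)] [∀ f, Algebra R (Rf f)]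
    [∀ f : s, IsLocalization.Away f.1 (Rf f)]
    (Nf : s → Type u) [∀ f, AddCommGroup (Nf f)] [∀ f, Module R (Nf f)]
    [∀ f, Module (Rf f) (Nf f)] [∀ f, IsScalarTower R (Rf f) (Nf f)]
    (ρ : ∀ f, N →ₗ[R] Nf f) [∀ f : s, IsLocalizedModule (Submonoid.powers f.1) (ρ f)]
    (free : ∀ f, Nonempty (Nf f ≃ₗ[Rf f] Rf f)) : Module.Invertible R N := by
  have hfp : Module.FinitePresentation R N :=
    Module.FinitePresentation.of_localizationSpan' s hs (Rₚ := Rf) ρ (fun g => by
      obtain ⟨e⟩ := free g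
      exact Module.FinitePresentation.of_equiv e.symm)
  constructor
  refine bijective_of_isLocalized_span s hs
    (fun g => (Nf g →ₗ[R] Rf g) ⊗[R] Nf g)
    (fun g => TensorProduct.map
      (IsLocalizedModule.map (Submonoid.powers g.1) (ρ g) (Algebra.linearMap R (Rf g))) (ρ g))
    (fun g => Rf g) (fun g => Algebra.linearMap R (Rf g)) (contractLeft R N) (fun g => ?_)
  obtain ⟨e⟩ := free g
  have hmap : IsLocalizedModule.map (Submonoid.powers g.1)
      (TensorProduct.map
        (IsLocalizedModule.map (Submonoid.powers g.1) (ρ g) (Algebra.linearMap R (Rf g))) (ρ g))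
      (Algebra.linearMap R (Rf g)) (contractLeft R N) =
      TensorProduct.lift (LinearMap.id : (Nf g →ₗ[R] Rf g) →ₗ[R] (Nf g →ₗ[R] Rf g)) := by
    apply IsLocalizedModule.linearMap_ext (Submonoid.powers g.1)
      (TensorProduct.map
        (IsLocalizedModule.map (Submonoid.powers g.1) (ρ g) (Algebra.linearMap R (Rf g))) (ρ g))
      (Algebra.linearMap R (Rf g))
    rw [IsLocalizedModule.map_comp]
    apply TensorProduct.ext'
    intro l n
    simp only [LinearMap.comp_apply, TensorProduct.map_tmul, TensorProduct.lift.tmul,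
      LinearMap.id_apply, contractLeft_apply, IsLocalizedModule.map_apply]
  rw [hmap]
  exact bijective_contract (Submonoid.powers g.1) e

/-- `IsLocAt` gives `IsLocalizedModule`, once the semilinear data are turned into instances. -/
theorem isLocalizedModule_of_isLocAt {R Rf : Type u} [CommRing R] [CommRing Rf] [Algebra R Rf]
    (f : R) [IsLocalization.Away f Rf] {N Nf : Type u} [AddCommGroup N] [Module R N]
    [AddCommGroup Nf] [Module Rf Nf] [Module R Nf] [IsScalarTower R Rf Nf]
    (ρ : N →ₛₗ[algebraMap R Rf] Nf) (hρ : IsLocAt (algebraMap R Rf) f ρ)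
    (ρ' : N →ₗ[R] Nf) (h : ∀ n, ρ' n = ρ n) : IsLocalizedModule (Submonoid.powers f) ρ' where
  map_units := by
    rintro ⟨x, hx⟩
    have hu : IsUnit (algebraMap R Rf x) := IsLocalization.map_units Rf (⟨x, hx⟩ : Submonoid.powers f)
    rw [Module.End.isUnit_iff]
    obtain ⟨u, hu⟩ := hu
    constructor
    · intro a b hab
      simp only [Module.algebraMap_end_apply] at hab
      rw [← algebraMap_smul Rf x a, ← algebraMap_smul Rf x b, ← hu] at hab
      exact (u.isUnit.smul_left_cancel).mp hab
    · intro b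
      refine ⟨(↑u⁻¹ : Rf) • b, ?_⟩
      simp only [Module.algebraMap_end_apply]
      rw [← algebraMap_smul Rf x, ← hu, smul_smul, Units.mul_inv, one_smul]
  surj := by
    intro y
    obtain ⟨m, n₁, hn⟩ := hρ.surj y
    refine ⟨⟨n₁, ⟨f ^ m, m, rfl⟩⟩, ?_⟩
    rw [h, hn, Submonoid.smul_def, ← algebraMap_smul Rf (f ^ m) y, map_pow]
  exists_of_eq := by
    intro x₁ x₂ hx
    rw [h, h, ← sub_eq_zero, ← map_sub] at hx
    obtain ⟨m, hm⟩ := hρ.inj _ hx
    refine ⟨⟨f ^ m, m, rfl⟩, ?_⟩
    rw [Submonoid.smul_def, Submonoid.smul_def, ← sub_eq_zero, ← smul_sub]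
    exact hm

end AlgInv

/-- locally free of rank one => invertible -/
theorem invertible_of_locally_free {R : Type u} [CommRing R] {N : Type u} [AddCommGroup N]
    [Module R N] (s : Set R) (hs : Ideal.span s = ⊤)
    (Rf : s → Type u) [∀ f, CommRing (Rf f)] (φ : ∀ f, R →+* Rf f)
    (hφ : ∀ f : s, @IsLocalization.Away R _ f.1 (Rf f) _ (φ f).toAlgebra)
    (Nf : s → Type u) [∀ f, AddCommGroup (Nf f)] [∀ f, Module (Rf f) (Nf f)]
    (ρ : ∀ f, N →ₛₗ[φ f] Nf f) (hρ : ∀ f : s, IsLocAt (φ f) f.1 (ρ f))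
    (free : ∀ f, Nonempty (Nf f ≃ₗ[Rf f] Rf f)) : Module.Invertible R N := by
  let _ : ∀ f, Algebra R (Rf f) := fun f => (φ f).toAlgebra
  let _ : ∀ f, Module R (Nf f) := fun f => Module.compHom (Nf f) (φ f)
  have : ∀ f, IsScalarTower R (Rf f) (Nf f) := fun f => ⟨fun r a n => by
    change (φ f r * a) • n = φ f r • (a • n)
    rw [mul_smul]⟩
  have : ∀ f : s, IsLocalization.Away f.1 (Rf f) := hφ
  let ρ' : ∀ f, N →ₗ[R] Nf f := fun f =>
    { toFun := ρ f, map_add' := map_add _, map_smul' := fun r n => (ρ f).map_smulₛₗ r n }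
  have : ∀ f : s, IsLocalizedModule (Submonoid.powers f.1) (ρ' f) := fun f =>
    AlgInv.isLocalizedModule_of_isLocAt f.1 (ρ f) (hρ f) (ρ' f) (fun _ => rfl)
  exact AlgInv.invertible_of_isLocalizedModule s hs Rf Nf ρ' free

/-- invertible => locally free of rank one -/
theorem exists_free_of_invertible {R : Type u} [CommRing R] {N : Type u} [AddCommGroup N]
    [Module R N] [Module.Invertible R N] (p : Ideal R) [p.IsPrime] :
    ∃ f : R, f ∉ p ∧ ∀ (Rf : Type u) [CommRing Rf] (φ : R →+* Rf)
      (_ : @IsLocalization.Away R _ f Rf _ φ.toAlgebra)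
      (Nf : Type u) [AddCommGroup Nf] [Module Rf Nf] (ρ : N →ₛₗ[φ] Nf) (_ : IsLocAt φ f ρ),
      Nonempty (Nf ≃ₗ[Rf] Rf) := by
  obtain ⟨t, ht, hfree⟩ := Module.Invertible.exists_finset_free_localization R N
  have hex : ∃ f ∈ t, f ∉ p := by
    by_contra hcon
    push Not at hcon
    have hle : Ideal.span (t : Set R) ≤ p := Ideal.span_le.mpr (fun x hx => hcon x hx)
    rw [ht] at hle
    exact (Ideal.IsPrime.ne_top ‹_›) (top_le_iff.mp hle)
  obtain ⟨f, hft, hfp⟩ := hex
  refine ⟨f, hfp, ?_⟩
  intro Rf _ φ hφ Nf _ _ ρ hρ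
  let _ : Algebra R Rf := φ.toAlgebra
  let _ : Module R Nf := Module.compHom Nf φ
  have : IsScalarTower R Rf Nf := ⟨fun r a n => by
    change (φ r * a) • n = φ r • (a • n)
    rw [mul_smul]⟩
  have : IsLocalization.Away f Rf := hφ
  let ρ' : N →ₗ[R] Nf :=
    { toFun := ρ, map_add' := map_add _, map_smul' := fun r n => ρ.map_smulₛₗ r n }
  have : IsLocalizedModule (Submonoid.powers f) ρ' :=
    AlgInv.isLocalizedModule_of_isLocAt f ρ hρ ρ' (fun _ => rfl)
  have := hfree f hft
  obtain ⟨e₀⟩ := (Module.Invertible.free_iff_linearEquiv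
    (R := Localization.Away f) (M := LocalizedModule.Away f N)).mp inferInstance
  let e₁ : Nf ≃ₗ[R] LocalizedModule.Away f N := (IsLocalizedModule.iso (Submonoid.powers f) ρ').symm
  let e₂ : Localization.Away f ≃ₗ[R] Rf :=
    (IsLocalization.algEquiv (Submonoid.powers f) (Localization.Away f) Rf).toLinearEquiv
  exact ⟨LinearEquiv.extendScalarsOfIsLocalization (Submonoid.powers f) Rf
    (e₁ ≪≫ₗ e₀.restrictScalars R ≪≫ₗ e₂)⟩

end Fermat.Agent.S25.Mod
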