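/-
S25 / block D (Dictionary) / TRIV : trivialisations of a sheaf of modules versus free rank one
section modules.   Owner: helper234.
-/
import Fermat.Agent.S25.Mod.DictDefs

set_option autoImplicit false

universe u

open CategoryTheory CategoryTheory.Limits AlgebraicGeometry TopologicalSpace

namespace Fermat.Agent.S25.Mod

variable {X : Scheme.{u}}

namespace Triv

/-- an isomorphism of sheaves of modules gives linear equivalences on sections -/
noncomputable def appEquiv {M N : X.Modules} (e : M ≅ N) (U : X.Opens) :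
    Γ(M, U) ≃ₗ[Γ(X, U)] Γ(N, U) :=
  LinearEquiv.ofLinearMap (appₗ e.hom U) (appₗ e.inv U)
    (by
      ext s
      have : (e.inv ≫ e.hom).app U s = s := by rw [e.inv_hom_id]; rfl
      exact this)
    (by
      ext s
      have : (e.hom ≫ e.inv).app U s = s := by rw [e.hom_inv_id]; rfl
      exact this)

/-- the structure sheaf as a module -/
noncomputable abbrev 𝒪 (X : Scheme.{u}) : X.Modules := SheafOfModules.unit X.ringCatSheaf

/-- sections of the unit sheaf -/
noncomputable def unitEquiv (X : Scheme.{u}) (U : X.Opens) :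
    Γ(𝒪 X, U) ≃ₗ[Γ(X, U)] Γ(X, U) :=
  LinearEquiv.refl _ _

lemma restrict_smul (M : X.Modules) (W : X.Opens) (V' : W.toScheme.Opens) (r : Γ(W.toScheme, V'))
    (x : Γ(M.restrict W.ι, V')) :
    r • x = (show Γ(M, W.ι ''ᵁ V') from
      ((show Γ(X, W.ι ''ᵁ V') from r) • (show Γ(M, W.ι ''ᵁ V') from x))) := by
  have h := Scheme.Modules.smul_restrictAppIso_hom_apply W.ι M V' r x
  rw [Scheme.Opens.ι_appIso] at h
  exact h

/-- free rank one sections of the restriction to an open subscheme, read on the ambient scheme -/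
noncomputable def equivOfRestrict (M : X.Modules) (W : X.Opens) (V' : W.toScheme.Opens)
    (e : Γ(M.restrict W.ι, V') ≃ₗ[Γ(W.toScheme, V')] Γ(W.toScheme, V')) :
    Γ(M, W.ι ''ᵁ V') ≃ₗ[Γ(X, W.ι ''ᵁ V')] Γ(X, W.ι ''ᵁ V') where
  toFun x := e x
  invFun y := e.symm y
  map_add' x y := e.map_add x y
  map_smul' r x := by
    have h1 := e.map_smul (show Γ(W.toScheme, V') from r) (show Γ(M.restrict W.ι, V') from x)
    have h2 := restrict_smul M W V' r x
    exact (congrArg e h2.symm).trans h1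
  left_inv x := e.left_inv x
  right_inv x := e.right_inv x

/-- free rank one sections on the ambient scheme, read on the open subscheme -/
noncomputable def equivToRestrict (M : X.Modules) (W : X.Opens) (V' : W.toScheme.Opens)
    (e : Γ(M, W.ι ''ᵁ V') ≃ₗ[Γ(X, W.ι ''ᵁ V')] Γ(X, W.ι ''ᵁ V')) :
    Γ(M.restrict W.ι, V') ≃ₗ[Γ(W.toScheme, V')] Γ(W.toScheme, V') where
  toFun x := e x
  invFun y := e.symm y
  map_add' x y := e.map_add x y
  map_smul' r x := by
    have h1 := e.map_smul (show Γ(X, W.ι ''ᵁ V') from r) (show Γ(M, W.ι ''ᵁ V') from x)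
    have h2 := restrict_smul M W V' r x
    exact (congrArg e h2).trans h1
  left_inv x := e.left_inv x
  right_inv x := e.right_inv x

/-- a morphism of quasi-coherent modules on `Spec R` which is bijective on global sections is an
isomorphism -/
theorem isIso_of_bijective_top_Spec {R : CommRingCat.{u}} {M M' : (Spec R).Modules}
    [M.IsQuasicoherent] [M'.IsQuasicoherent] (ψ : M ⟶ M')
    (h : Function.Bijective (ψ.app ⊤)) : IsIso ψ := by
  rw [← isIso_iff_of_reflects_iso _ modulesSpecToSheaf]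
  refine isLocalizing_of_isIso_app_top ?_
    ((isIso_fromTildeΓ_iff_isLocalizing M).1 inferInstance)
    ((isIso_fromTildeΓ_iff_isLocalizing M').1 inferInstance)
  rw [ConcreteCategory.isIso_iff_bijective]
  exact h

/-- the same on an affine scheme -/
theorem isIso_of_bijective_top [IsAffine X] {M M' : X.Modules}
    (hM : (M.restrict X.isoSpec.inv).IsQuasicoherent)
    (hM' : (M'.restrict X.isoSpec.inv).IsQuasicoherent)
    (ψ : M ⟶ M') (h : Function.Bijective (ψ.app ⊤)) : IsIso ψ := by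
  have h1 : IsIso ((Scheme.Modules.restrictFunctor X.isoSpec.inv).map ψ) := by
    apply isIso_of_bijective_top_Spec
    have h0 : X.isoSpec.inv ''ᵁ ⊤ = ⊤ := by simp
    show Function.Bijective (ψ.app (X.isoSpec.inv ''ᵁ ⊤))
    rw [h0]; exact h
  rw [Scheme.Modules.Hom.isIso_iff_isIso_app]
  intro W
  have h2 := (Scheme.Modules.Hom.isIso_iff_isIso_app.1 h1) (X.isoSpec.inv ⁻¹ᵁ W)
  have h3 : X.isoSpec.inv ''ᵁ (X.isoSpec.inv ⁻¹ᵁ W) = W := by
    rw [Scheme.Hom.image_preimage_eq_opensRange_inf, Scheme.Hom.opensRange_of_isIso, top_inf_eq]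
  have h4 : IsIso (ψ.app (X.isoSpec.inv ''ᵁ (X.isoSpec.inv ⁻¹ᵁ W))) := h2
  rwa [h3] at h4

theorem isQuasicoherent_unit_Spec (R : CommRingCat.{u}) : (𝒪 (Spec R)).IsQuasicoherent :=
  inferInstanceAs (tilde (ModuleCat.of R R)).IsQuasicoherent

theorem isQuasicoherent_restrict_unit {Y : Scheme.{u}} {R : CommRingCat.{u}} (f : Spec R ⟶ Y)
    [IsOpenImmersion f] : ((𝒪 Y).restrict f).IsQuasicoherent :=
  (SheafOfModules.isQuasicoherent (Spec R).ringCatSheaf).prop_of_iso
    (Scheme.Modules.restrictUnitIso f).symm (isQuasicoherent_unit_Spec R)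

/-- the morphism `𝒪 ⟶ M` attached to a global section. -/
noncomputable def ofSection (M : X.Modules) (s : Γ(M, ⊤)) : 𝒪 X ⟶ M :=
  (SheafOfModules.unitHomEquiv M).symm
    (PresheafOfModules.sectionsMk (M := M.val)
      (fun W => M.presheaf.map (homOfLE (le_top : W.unop ≤ ⊤)).op s)
      (by
        intro W W' f
        have := (M.presheaf.map_comp_apply (homOfLE (le_top : W.unop ≤ ⊤)).op f s).symm
        exact this))

lemma ofSection_app (M : X.Modules) (s : Γ(M, ⊤)) (W : X.Opens) (r : Γ(X, W)) :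
    (ofSection M s).app W r = r • M.presheaf.map (homOfLE (le_top : W ≤ ⊤)).op s := rfl

lemma ofSection_app_top (M : X.Modules) (s : Γ(M, ⊤)) (r : Γ(X, ⊤)) :
    (ofSection M s).app ⊤ r = r • s := by
  rw [ofSection_app]
  congr 1
  have : (homOfLE (le_top : (⊤ : X.Opens) ≤ ⊤)).op = 𝟙 _ := rfl
  rw [this, M.presheaf.map_id]
  rfl

end Triv

theorem sections_equiv_of_trivial (M : X.Modules) (W V : X.Opens) (hVW : V ≤ W)
    (e : (Scheme.Modules.pullback W.ι).obj M ≅ SheafOfModules.unit W.toScheme.ringCatSheaf) :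
    Nonempty (Γ(M, V) ≃ₗ[Γ(X, V)] Γ(X, V)) := by
  have h : W.ι ''ᵁ (W.ι ⁻¹ᵁ V) = V := by
    rw [Scheme.Hom.image_preimage_eq_opensRange_inf, Scheme.Opens.opensRange_ι]
    exact inf_eq_right.2 hVW
  have := Triv.equivOfRestrict M W (W.ι ⁻¹ᵁ V)
    (Triv.appEquiv ((Scheme.Modules.restrictFunctorIsoPullback W.ι).app M ≪≫ e) (W.ι ⁻¹ᵁ V))
  rw [h] at this
  exact ⟨this⟩

theorem trivial_iff_top [IsAffine X] (M : X.Modules) [M.IsQuasicoherent] :
    Nonempty (M ≅ SheafOfModules.unit X.ringCatSheaf) ↔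
      Nonempty (Γ(M, ⊤) ≃ₗ[Γ(X, ⊤)] Γ(X, ⊤)) := by
  constructor
  · rintro ⟨e⟩
    exact ⟨Triv.appEquiv (N := Triv.𝒪 X) e ⊤⟩
  · rintro ⟨e⟩
    have hb : Function.Bijective ((Triv.ofSection M (e.symm 1)).app ⊤) := by
      have : ∀ r : Γ(X, ⊤), (Triv.ofSection M (e.symm 1)).app ⊤ r = e.symm r := by
        intro r
        rw [Triv.ofSection_app_top, ← e.symm.map_smul, smul_eq_mul, mul_one]
      have h2 : ((Triv.ofSection M (e.symm 1)).app ⊤ : Γ(X, ⊤) → Γ(M, ⊤)) = e.symm := funext this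
      exact h2.symm ▸ e.symm.bijective
    have := Triv.isIso_of_bijective_top (Triv.isQuasicoherent_restrict_unit _) inferInstance
      (Triv.ofSection M (e.symm 1)) hb
    exact ⟨(asIso (Triv.ofSection M (e.symm 1))).symm⟩

theorem trivial_of_sections_equiv (M : X.Modules) {U : X.Opens} (hU : IsAffineOpen U)
    (hM : QCOn M U) (e : Γ(M, U) ≃ₗ[Γ(X, U)] Γ(X, U)) :
    Nonempty ((Scheme.Modules.pullback U.ι).obj M ≅
      SheafOfModules.unit U.toScheme.ringCatSheaf) := by
  have : IsAffine U.toScheme := hU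
  have : (M.restrict U.ι).IsQuasicoherent := hM
  have h : U.ι ''ᵁ ⊤ = U := by simp
  have e' : Γ(M, U.ι ''ᵁ ⊤) ≃ₗ[Γ(X, U.ι ''ᵁ ⊤)] Γ(X, U.ι ''ᵁ ⊤) := by
    rw [h]; exact e
  obtain ⟨t⟩ := (trivial_iff_top (M.restrict U.ι)).2 ⟨Triv.equivToRestrict M U ⊤ e'⟩
  exact ⟨((Scheme.Modules.restrictFunctorIsoPullback U.ι).app M).symm ≪≫ t⟩

end Fermat.Agent.S25.Mod
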