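/-
S25 / block D (Dictionary), section EXT: existence of sheaves extended from an affine open.
Owner: helper86.  Statements verbatim from `WIP/DictSkeleton.lean`.
-/
import Fermat.Agent.S25.Mod.DictDefs

set_option autoImplicit false

universe u

open CategoryTheory CategoryTheory.Limits AlgebraicGeometry TopologicalSpace

namespace Fermat.Agent.S25.Mod

variable {X : Scheme.{u}}

namespace ExtSheaf

/-- Restriction along an equality of opens is bijective. -/
lemma bijective_map_of_eq (G : X.Modules) {A B : X.Opens} (h : A ≤ B) (e : A = B) :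
    Function.Bijective (G.presheaf.map (homOfLE h).op) := by
  subst e
  have : (homOfLE h).op = 𝟙 _ := Subsingleton.elim _ _
  rw [this, G.presheaf.map_id]
  exact Function.bijective_id

/-- Two out of three for restriction maps. -/
lemma bijective_map_of_comp (G : X.Modules) {A B C : X.Opens} (hAB : A ≤ B) (hBC : B ≤ C)
    (h₁ : Function.Bijective (G.presheaf.map (homOfLE (hAB.trans hBC)).op))
    (h₂ : Function.Bijective (G.presheaf.map (homOfLE hAB).op)) :
    Function.Bijective (G.presheaf.map (homOfLE hBC).op) := by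
  have key : ∀ s, G.presheaf.map (homOfLE hAB).op (G.presheaf.map (homOfLE hBC).op s) =
      G.presheaf.map (homOfLE (hAB.trans hBC)).op s := by
    intro s
    rw [← ConcreteCategory.comp_apply, ← G.presheaf.map_comp]
    rfl
  constructor
  · intro s t hst
    apply h₁.1
    rw [← key, ← key, hst]
  · intro s
    obtain ⟨t, ht⟩ := h₁.2 (G.presheaf.map (homOfLE hAB).op s)
    refine ⟨t, h₂.1 ?_⟩
    rw [key, ht]

end ExtSheaf

open ExtSheaf

theorem extFrom_pushforward {X' : Scheme.{u}} (f : X' ⟶ X) (G : X'.Modules) (U' : X'.Opens)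
    (U : X.Opens) (h : U' ≤ f ⁻¹ᵁ U) (hG : ExtFrom G U') :
    ExtFrom ((Scheme.Modules.pushforward f).obj G) U := by
  intro V
  have hle : f ⁻¹ᵁ (V ⊓ U) ≤ f ⁻¹ᵁ V := Scheme.Hom.preimage_mono f inf_le_left
  change Function.Bijective (G.presheaf.map (homOfLE hle).op)
  have e : f ⁻¹ᵁ (V ⊓ U) ⊓ U' = f ⁻¹ᵁ V ⊓ U' := by
    apply le_antisymm
    · exact inf_le_inf_right _ hle
    · refine le_inf (le_inf inf_le_left (inf_le_right.trans h)) inf_le_right
  refine bijective_map_of_comp G (A := f ⁻¹ᵁ (V ⊓ U) ⊓ U') inf_le_left hle ?_ (hG _)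
  have h1 := hG (f ⁻¹ᵁ V)
  have h2 := bijective_map_of_eq G (e.le) e
  have key : ∀ s, G.presheaf.map (homOfLE e.le).op
      (G.presheaf.map (homOfLE (inf_le_left : f ⁻¹ᵁ V ⊓ U' ≤ f ⁻¹ᵁ V)).op s) =
      G.presheaf.map (homOfLE ((inf_le_left : f ⁻¹ᵁ (V ⊓ U) ⊓ U' ≤ _).trans hle)).op s := by
    intro s
    rw [← ConcreteCategory.comp_apply, ← G.presheaf.map_comp]
    rfl
  have := h2.comp h1
  convert this using 1
  funext s
  exact (key s).symm

theorem exists_extFrom {U : X.Opens} (hU : IsAffineOpen U) (N : Type u) [AddCommGroup N]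
    [Module Γ(X, U) N] :
    ∃ G : X.Modules, ExtFrom G U ∧ QCOn G U ∧ Nonempty (Γ(G, U) ≃ₗ[Γ(X, U)] N) := by
  let T : (Spec Γ(X, U)).Modules := tilde (ModuleCat.of Γ(X, U) N)
  refine ⟨(Scheme.Modules.pushforward hU.fromSpec).obj T, ?_, ?_, ?_⟩
  · intro V
    have hle : hU.fromSpec ⁻¹ᵁ (V ⊓ U) ≤ hU.fromSpec ⁻¹ᵁ V :=
      Scheme.Hom.preimage_mono _ inf_le_left
    change Function.Bijective (T.presheaf.map (homOfLE hle).op)
    refine bijective_map_of_eq T hle ?_
    rw [Scheme.Hom.preimage_inf, hU.fromSpec_preimage_self, inf_top_eq]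
  · have e : ((Scheme.Modules.pushforward hU.fromSpec).obj T).restrict U.ι ≅
        T.restrict hU.isoSpec.hom :=
      (Scheme.Modules.restrictFunctorCongr hU.isoSpec_hom_fromSpec.symm).app _ ≪≫
        (Scheme.Modules.restrictFunctorComp hU.isoSpec.hom hU.fromSpec).app _ ≪≫
        (Scheme.Modules.restrictFunctor hU.isoSpec.hom).mapIso
          ((Scheme.Modules.restrictFunctorAdjCounitIso hU.fromSpec).app T)
    have hq : (T.restrict hU.isoSpec.hom).IsQuasicoherent := inferInstance
    exact (SheafOfModules.isQuasicoherent (U : Scheme.{u}).ringCatSheaf).prop_of_iso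
      (X := T.restrict hU.isoSpec.hom) e.symm hq
  · let W : (Spec Γ(X, U)).Opens := hU.fromSpec ⁻¹ᵁ U
    have hW : W = ⊤ := hU.fromSpec_preimage_self
    let t : N →ₗ[Γ(X, U)] Γ(T, ⊤) := (tilde.toOpen (ModuleCat.of Γ(X, U) N) ⊤).hom
    have ht : Function.Bijective t :=
      ConcreteCategory.bijective_of_isIso (tilde.toOpen (ModuleCat.of Γ(X, U) N) ⊤)
    have hb : Function.Bijective (T.presheaf.map (homOfLE (le_top : W ≤ ⊤)).op) :=
      bijective_map_of_eq T le_top hW
    let φ : N →ₗ[Γ(X, U)] Γ((Scheme.Modules.pushforward hU.fromSpec).obj T, U) :=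
      { toFun := fun n => T.presheaf.map (homOfLE (le_top : W ≤ ⊤)).op (t n)
        map_add' := fun a b => by rw [map_add, map_add]; rfl
        map_smul' := fun r n => by
          rw [map_smul, RingHom.id_apply]
          refine Eq.trans ?_ (pushforward_smul hU.fromSpec T U r _).symm
          change T.presheaf.map (homOfLE (le_top : W ≤ ⊤)).op (r • t n) =
            hU.fromSpec.app U r • T.presheaf.map (homOfLE (le_top : W ≤ ⊤)).op (t n)
          rw [Scheme.Modules.map_smul_Spec, Scheme.Modules.smul_Spec_def, hU.fromSpec_app_self]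
          rfl }
    exact ⟨(LinearEquiv.ofBijective φ (hb.comp ht)).symm⟩

end Fermat.Agent.S25.Mod
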