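/-
S25 / block D (Dictionary), section ISO: isomorphism criteria for morphisms of sheaves of modules.
-/
import Fermat.Agent.S25.Mod.DictDefs

set_option autoImplicit false

universe u

open CategoryTheory CategoryTheory.Limits AlgebraicGeometry TopologicalSpace

namespace Fermat.Agent.S25.Mod

variable {X : Scheme.{u}}

namespace IsoCrit

/-- naturality of a map of modules, on elements -/
theorem app_map_apply {M M' : X.Modules} (l : M ⟶ M') {W W' : X.Opens} (i : W' ⟶ W)
    (s : Γ(M, W)) : l.app W' (M.presheaf.map i.op s) = M'.presheaf.map i.op (l.app W s) :=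
  NatTrans.naturality_apply l.mapPresheaf i.op s

theorem bijective_congr {M M' : X.Modules} (φ : M ⟶ M') {U V : X.Opens} (h : U = V)
    (hb : Function.Bijective (φ.app U)) : Function.Bijective (φ.app V) := by
  subst h
  exact hb

/-- `φ` is bijective on `W` as soon as it is bijective on the members of a cover of `W` and
injective on their pairwise intersections. -/
theorem bijective_of_cover {M M' : X.Modules} (φ : M ⟶ M') {ι : Type*} (B : ι → X.Opens)
    (W : X.Opens) (hle : ∀ i, B i ≤ W) (hcov : W ≤ ⨆ i, B i)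
    (hb : ∀ i, Function.Bijective (φ.app (B i)))
    (hinj : ∀ i j, Function.Injective (φ.app (B i ⊓ B j))) : Function.Bijective (φ.app W) := by
  let F : TopCat.Sheaf Ab X := ⟨M.presheaf, M.isSheaf⟩
  let G : TopCat.Sheaf Ab X := ⟨M'.presheaf, M'.isSheaf⟩
  let iUV : ∀ i : ι, B i ⟶ W := fun i => homOfLE (hle i)
  constructor
  · intro s t hst
    refine F.eq_of_locally_eq' B W iUV hcov s t fun i => ?_
    apply (hb i).1
    change φ.app (B i) (M.presheaf.map (iUV i).op s) = φ.app (B i) (M.presheaf.map (iUV i).op t)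
    rw [app_map_apply, app_map_apply, hst]
  · intro t
    choose sf hsf using fun i : ι => (hb i).2 (M'.presheaf.map (iUV i).op t)
    have hcompat : TopCat.Presheaf.IsCompatible F.1 B sf := by
      intro i j
      apply hinj i j
      change φ.app (B i ⊓ B j) (M.presheaf.map (Opens.infLELeft (B i) (B j)).op (sf i)) =
        φ.app (B i ⊓ B j) (M.presheaf.map (Opens.infLERight (B i) (B j)).op (sf j))
      rw [app_map_apply, app_map_apply, hsf, hsf, ← ConcreteCategory.comp_apply,
        ← ConcreteCategory.comp_apply, ← Functor.map_comp, ← Functor.map_comp]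
      rfl
    obtain ⟨s, hs, -⟩ := F.existsUnique_gluing' B W iUV hcov sf hcompat
    refine ⟨s, ?_⟩
    refine G.eq_of_locally_eq' B W iUV hcov _ _ fun i => ?_
    change M'.presheaf.map (iUV i).op (φ.app W s) = M'.presheaf.map (iUV i).op t
    rw [← app_map_apply, ← hsf i]
    congr 1
    exact hs i

/-- the restriction of a sheaf which is quasi-coherent on the affine open `U` to
`Spec Γ(X, U)` is quasi-coherent. -/
theorem isQuasicoherent_restrict_fromSpec {M : X.Modules} {U : X.Opens} (hU : IsAffineOpen U)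
    (hM : QCOn M U) : (M.restrict hU.fromSpec).IsQuasicoherent := by
  have : (M.restrict U.ι).IsQuasicoherent := hM
  let iso : Scheme.Modules.restrictFunctor U.ι ⋙ Scheme.Modules.restrictFunctor hU.isoSpec.inv ≅
      Scheme.Modules.restrictFunctor hU.fromSpec :=
    (Scheme.Modules.restrictFunctorComp _ _).symm ≪≫
      Scheme.Modules.restrictFunctorCongr hU.isoSpec_inv_ι
  exact (SheafOfModules.isQuasicoherent (Spec Γ(X, U)).ringCatSheaf).prop_of_iso (iso.app M)
    (inferInstanceAs ((M.restrict U.ι).restrict hU.isoSpec.inv).IsQuasicoherent)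

/-- a morphism of quasi-coherent sheaves on `Spec R` which is bijective on global sections is an
isomorphism -/
theorem isIso_of_bijective_top {R : CommRingCat.{u}} {N N' : (Spec R).Modules}
    [N.IsQuasicoherent] [N'.IsQuasicoherent] (ψ : N ⟶ N')
    (h : Function.Bijective (ψ.app ⊤)) : IsIso ψ := by
  have h1 : IsIso (moduleSpecΓFunctor.map ψ) := by
    rw [ConcreteCategory.isIso_iff_bijective]
    exact h
  have h2 := (tilde.adjunction (R := R)).counit.naturality ψ
  have h3 : IsIso ((tilde.adjunction (R := R)).counit.app N) :=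
    inferInstanceAs (IsIso N.fromTildeΓ)
  have h4 : IsIso ((tilde.adjunction (R := R)).counit.app N') :=
    inferInstanceAs (IsIso N'.fromTildeΓ)
  have h5 : IsIso ((moduleSpecΓFunctor ⋙ tilde.functor R).map ψ) := by
    rw [Functor.comp_map]
    infer_instance
  have h6 : ψ = inv ((tilde.adjunction (R := R)).counit.app N) ≫
      (moduleSpecΓFunctor ⋙ tilde.functor R).map ψ ≫
        (tilde.adjunction (R := R)).counit.app N' := by
    rw [h2]
    simp
  rw [h6]
  infer_instance

end IsoCrit

theorem bijective_app_of_le {M M' : X.Modules} (φ : M ⟶ M') {U : X.Opens} (hU : IsAffineOpen U)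
    (hM : QCOn M U) (hM' : QCOn M' U) (h : Function.Bijective (φ.app U)) {W : X.Opens}
    (hW : W ≤ U) : Function.Bijective (φ.app W) := by
  have := IsoCrit.isQuasicoherent_restrict_fromSpec hU hM
  have := IsoCrit.isQuasicoherent_restrict_fromSpec hU hM'
  let ψ : M.restrict hU.fromSpec ⟶ M'.restrict hU.fromSpec :=
    (Scheme.Modules.restrictFunctor hU.fromSpec).map φ
  have hψ : IsIso ψ := by
    apply IsoCrit.isIso_of_bijective_top
    have h0 : U = hU.fromSpec ''ᵁ ⊤ := by
      rw [Scheme.Hom.image_top_eq_opensRange, hU.opensRange_fromSpec]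
    exact IsoCrit.bijective_congr φ h0 h
  have h1 : IsIso (ψ.app (hU.fromSpec ⁻¹ᵁ W)) := inferInstance
  rw [ConcreteCategory.isIso_iff_bijective] at h1
  have h2 : hU.fromSpec ''ᵁ (hU.fromSpec ⁻¹ᵁ W) = W := by
    rw [Scheme.Hom.image_preimage_eq_opensRange_inf, hU.opensRange_fromSpec]
    exact inf_eq_right.mpr hW
  exact IsoCrit.bijective_congr φ h2 h1

theorem isIso_of_cover {M M' : X.Modules} (φ : M ⟶ M') (U₁ U₂ : X.Opens) (h : U₁ ⊔ U₂ = ⊤)
    (h₁ : ∀ V ≤ U₁, Function.Bijective (φ.app V)) (h₂ : ∀ V ≤ U₂, Function.Bijective (φ.app V)) :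
    IsIso φ := by
  rw [Scheme.Modules.Hom.isIso_iff_isIso_app]
  intro V
  rw [ConcreteCategory.isIso_iff_bijective]
  refine IsoCrit.bijective_of_cover φ (fun b : Bool => if b then V ⊓ U₁ else V ⊓ U₂) V ?_ ?_ ?_ ?_
  · rintro (_ | _)
    · exact inf_le_left
    · exact inf_le_left
  · have h1 : V = (V ⊓ U₁) ⊔ (V ⊓ U₂) := by rw [← inf_sup_left, h, inf_top_eq]
    calc V = (V ⊓ U₁) ⊔ (V ⊓ U₂) := h1
      _ ≤ _ := sup_le (le_iSup (fun b : Bool => if b then V ⊓ U₁ else V ⊓ U₂) true)
        (le_iSup (fun b : Bool => if b then V ⊓ U₁ else V ⊓ U₂) false)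
  · rintro (_ | _)
    · exact h₂ _ inf_le_right
    · exact h₁ _ inf_le_right
  · rintro (_ | _) j
    · exact (h₂ _ (inf_le_left.trans inf_le_right)).1
    · exact (h₁ _ (inf_le_left.trans inf_le_right)).1

end Fermat.Agent.S25.Mod
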