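/-
S25 / block M : definitions for "cartesian maps" of sheaves of modules.   Owner: helper21.
FROZEN INTERFACE (no sorry).

For `f : Y ⟶ X`, a map `a : M ⟶ f_* N` is *cartesian* if its adjoint `f^* M ⟶ N` is an
isomorphism.  Pushforwards compose strictly on sections, so all compatibilities between
pullbacks become equations between maps into pushforwards, which are checked sectionwise.
-/
import Mathlib

set_option autoImplicit false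

universe u

open CategoryTheory AlgebraicGeometry AlgebraicGeometry.Scheme.Modules

namespace Fermat.Agent.S25.Mod

noncomputable section

variable {X Y Z : Scheme.{u}}

/-- the adjoint `f^* M ⟶ N` of `a : M ⟶ f_* N`. -/
def adj (f : Y ⟶ X) {M : X.Modules} {N : Y.Modules} (a : M ⟶ (pushforward f).obj N) :
    (Scheme.Modules.pullback f).obj M ⟶ N :=
  ((pullbackPushforwardAdjunction f).homEquiv M N).symm a

/-- the adjoint `M ⟶ f_* N` of `b : f^* M ⟶ N`. -/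
def coadj (f : Y ⟶ X) {M : X.Modules} {N : Y.Modules}
    (b : (Scheme.Modules.pullback f).obj M ⟶ N) : M ⟶ (pushforward f).obj N :=
  (pullbackPushforwardAdjunction f).homEquiv M N b

/-- `a : M ⟶ f_* N` is cartesian: it exhibits `N` as `f^* M`. -/
def IsCart (f : Y ⟶ X) {M : X.Modules} {N : Y.Modules} (a : M ⟶ (pushforward f).obj N) : Prop :=
  IsIso (adj f a)

/-- composition of maps over `g : Z ⟶ Y`, `f : Y ⟶ X`, with `k = g ≫ f`. -/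
def comp' (g : Z ⟶ Y) (f : Y ⟶ X) (k : Z ⟶ X) (h : g ≫ f = k) {M : X.Modules} {N : Y.Modules}
    {P : Z.Modules} (a : M ⟶ (pushforward f).obj N) (b : N ⟶ (pushforward g).obj P) :
    M ⟶ (pushforward k).obj P :=
  a ≫ (pushforward f).map b ≫ (pushforwardComp g f).hom.app P ≫ (pushforwardCongr h).hom.app P

/-- a cover of `X` by two open immersions, with their intersection. -/
structure Cover2 (X : Scheme.{u}) where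
  X₁ : Scheme.{u}
  X₂ : Scheme.{u}
  X₁₂ : Scheme.{u}
  j₁ : X₁ ⟶ X
  j₂ : X₂ ⟶ X
  j₁₂ : X₁₂ ⟶ X
  p₁ : X₁₂ ⟶ X₁
  p₂ : X₁₂ ⟶ X₂
  [open₁ : IsOpenImmersion j₁]
  [open₂ : IsOpenImmersion j₂]
  [open₁₂ : IsOpenImmersion j₁₂]
  [openp₁ : IsOpenImmersion p₁]
  [openp₂ : IsOpenImmersion p₂]
  h₁ : p₁ ≫ j₁ = j₁₂
  h₂ : p₂ ≫ j₂ = j₁₂
  cover : j₁.opensRange ⊔ j₂.opensRange = ⊤
  inter : j₁.opensRange ⊓ j₂.opensRange = j₁₂.opensRange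

attribute [instance] Cover2.open₁ Cover2.open₂ Cover2.open₁₂ Cover2.openp₁ Cover2.openp₂

namespace Cover2

variable (𝒰 : Cover2 X)

/-- `j₁_* M₁ ⟶ j₁₂_* M₁₂` induced by `α₁ : M₁ ⟶ p₁_* M₁₂`. -/
def push₁ {M₁ : 𝒰.X₁.Modules} {M₁₂ : 𝒰.X₁₂.Modules} (α₁ : M₁ ⟶ (pushforward 𝒰.p₁).obj M₁₂) :
    (pushforward 𝒰.j₁).obj M₁ ⟶ (pushforward 𝒰.j₁₂).obj M₁₂ :=
  (pushforward 𝒰.j₁).map α₁ ≫ (pushforwardComp 𝒰.p₁ 𝒰.j₁).hom.app M₁₂ ≫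
    (pushforwardCongr 𝒰.h₁).hom.app M₁₂

/-- `j₂_* M₂ ⟶ j₁₂_* M₁₂` induced by `α₂ : M₂ ⟶ p₂_* M₁₂`. -/
def push₂ {M₂ : 𝒰.X₂.Modules} {M₁₂ : 𝒰.X₁₂.Modules} (α₂ : M₂ ⟶ (pushforward 𝒰.p₂).obj M₁₂) :
    (pushforward 𝒰.j₂).obj M₂ ⟶ (pushforward 𝒰.j₁₂).obj M₁₂ :=
  (pushforward 𝒰.j₂).map α₂ ≫ (pushforwardComp 𝒰.p₂ 𝒰.j₂).hom.app M₁₂ ≫
    (pushforwardCongr 𝒰.h₂).hom.app M₁₂

theorem comp'_eq_push₁ {M : X.Modules} {M₁ : 𝒰.X₁.Modules} {M₁₂ : 𝒰.X₁₂.Modules}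
    (a : M ⟶ (pushforward 𝒰.j₁).obj M₁) (α₁ : M₁ ⟶ (pushforward 𝒰.p₁).obj M₁₂) :
    comp' 𝒰.p₁ 𝒰.j₁ 𝒰.j₁₂ 𝒰.h₁ a α₁ = a ≫ 𝒰.push₁ α₁ := rfl

theorem comp'_eq_push₂ {M : X.Modules} {M₂ : 𝒰.X₂.Modules} {M₁₂ : 𝒰.X₁₂.Modules}
    (a : M ⟶ (pushforward 𝒰.j₂).obj M₂) (α₂ : M₂ ⟶ (pushforward 𝒰.p₂).obj M₁₂) :
    comp' 𝒰.p₂ 𝒰.j₂ 𝒰.j₁₂ 𝒰.h₂ a α₂ = a ≫ 𝒰.push₂ α₂ := rfl

end Cover2

/-- A section `σ` of a "projection" compatible with two 2-covers. -/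
structure SectionData {T : Scheme.{u}} (𝒰 : Cover2 X) (𝒱 : Cover2 T) where
  σ : T ⟶ X
  σ₁ : 𝒱.X₁ ⟶ 𝒰.X₁
  σ₂ : 𝒱.X₂ ⟶ 𝒰.X₂
  σ₁₂ : 𝒱.X₁₂ ⟶ 𝒰.X₁₂
  π₁₂ : 𝒰.X₁₂ ⟶ 𝒱.X₁₂
  sq₁ : σ₁ ≫ 𝒰.j₁ = 𝒱.j₁ ≫ σ
  sq₂ : σ₂ ≫ 𝒰.j₂ = 𝒱.j₂ ≫ σ
  sqp₁ : σ₁₂ ≫ 𝒰.p₁ = 𝒱.p₁ ≫ σ₁
  sqp₂ : σ₁₂ ≫ 𝒰.p₂ = 𝒱.p₂ ≫ σ₂
  sec : σ₁₂ ≫ π₁₂ = 𝟙 _

/-- the structure sheaf as a module over itself -/
abbrev unitMod (X : Scheme.{u}) : X.Modules := SheafOfModules.unit X.ringCatSheaf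

/-- the canonical map `𝒪_X ⟶ f_* 𝒪_Y`. -/
def unitMap (f : Y ⟶ X) : unitMod X ⟶ (pushforward f).obj (unitMod Y) :=
  SheafOfModules.unitToPushforwardObjUnit f.toRingCatSheafHom

/-- restriction of a global function to an open -/
abbrev resTop (a : Γ(X, ⊤)) (W : X.Opens) : Γ(X, W) := X.presheaf.map (homOfLE le_top).op a

theorem map_resTop (a : Γ(X, ⊤)) {W W' : X.Opens} (i : W' ⟶ W) :
    X.presheaf.map i.op (resTop a W) = resTop a W' := by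
  simp only [resTop]
  rw [← CommRingCat.comp_apply, ← Functor.map_comp]
  rfl

/-- multiplication by a global function, as an endomorphism of a module. -/
def smulHom (M : X.Modules) (a : Γ(X, ⊤)) : M ⟶ M :=
  ⟨PresheafOfModules.homMk
    { app := fun W => M.smul (resTop a W.unop)
      naturality := by
        intro W W' i
        have := map_comp_smul (M := M) i.unop (resTop a W.unop)
        rw [map_resTop] at this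
        exact this.symm }
    (by
      intro W r m
      obtain ⟨W⟩ := W
      exact smul_comm (M := Γ(X, W)) (N := Γ(X, W)) (α := Γ(M, W)) (resTop a W) r m)⟩

theorem smulHom_app_apply (M : X.Modules) (a : Γ(X, ⊤)) (W : X.Opens) (x : Γ(M, W)) :
    (smulHom M a).app W x = resTop a W • x := rfl

end

end Fermat.Agent.S25.Mod
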