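/- S25 / block M / C10 : the covers of `T` and `C ×ₖ T` by two opens; the rigidifying section. -/
import Fermat.Agent.S25.GeomSpec
import Fermat.Agent.S25.Mod.Defs

set_option autoImplicit false

universe u

open CategoryTheory CategoryTheory.Limits AlgebraicGeometry AlgebraicGeometry.RelPicard
  NeronModelInfra GoodReductionJacobian

namespace Fermat.Agent.S25.Mod

noncomputable section

variable {k : Type u} [Field k] {C : Scheme.{u}} (c : C ⟶ Spec (CommRingCat.of k))
  (ε : SchemeHomOver (𝟙 (Spec (CommRingCat.of k))) c)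

/-- the cover of `T` by two opens -/
def cover2Base {T : Scheme.{u}} (U V : T.Opens) (h : U ⊔ V = ⊤) : Cover2 T where
  X₁ := U
  X₂ := V
  X₁₂ := (U ⊓ V : T.Opens)
  j₁ := U.ι
  j₂ := V.ι
  j₁₂ := (U ⊓ V).ι
  p₁ := T.homOfLE inf_le_left
  p₂ := T.homOfLE inf_le_right
  h₁ := by simp
  h₂ := by simp
  cover := by simpa using h
  inter := by simp

instance isOpenImmersion_baseChangeSnd {T T' : Scheme.{u}} {t : T ⟶ Spec (CommRingCat.of k)}
    {t' : T' ⟶ Spec (CommRingCat.of k)} (s : SchemeHomOver t' t) [IsOpenImmersion s.1] :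
    IsOpenImmersion (baseChangeSnd c s) := by
  unfold baseChangeSnd
  infer_instance

instance {T : Scheme.{u}} (t : T ⟶ Spec (CommRingCat.of k)) (U : T.Opens) :
    IsOpenImmersion (opensHom t U).1 := by
  unfold opensHom
  infer_instance

instance {T : Scheme.{u}} (t : T ⟶ Spec (CommRingCat.of k)) {U V : T.Opens} (h : U ≤ V) :
    IsOpenImmersion (opensLEHom t h).1 := by
  unfold opensLEHom
  infer_instance

namespace Geom

theorem isPullback_baseChangeSnd {T T' : Scheme.{u}} {t : T ⟶ Spec (CommRingCat.of k)}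
    {t' : T' ⟶ Spec (CommRingCat.of k)} (s : SchemeHomOver t' t) :
    IsPullback (baseChangeSnd c s) (pullback.snd c t') (pullback.snd c t) s.1 := by
  have h1 : baseChangeSnd c s ≫ pullback.fst c t = pullback.fst c t' := by
    unfold baseChangeSnd
    exact (pullback.lift_fst _ _ _).trans (Category.comp_id _)
  have h2 : baseChangeSnd c s ≫ pullback.snd c t = pullback.snd c t' ≫ s.1 := by
    unfold baseChangeSnd
    exact pullback.lift_snd _ _ _
  refine IsPullback.of_right ?_ h2 (IsPullback.of_hasPullback c t)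
  rw [h1, s.2]
  exact IsPullback.of_hasPullback c t'

end Geom

theorem opensRange_baseChangeSnd_opensHom {T : Scheme.{u}} (t : T ⟶ Spec (CommRingCat.of k))
    (U : T.Opens) :
    (baseChangeSnd c (opensHom t U)).opensRange = (pullback.snd c t) ⁻¹ᵁ U := by
  have hP := Geom.isPullback_baseChangeSnd c (opensHom t U)
  have h1 : baseChangeSnd c (opensHom t U) =
      hP.isoPullback.hom ≫ pullback.fst (pullback.snd c t) (opensHom t U).1 :=
    (hP.isoPullback_hom_fst).symm
  have h2 : (baseChangeSnd c (opensHom t U)).opensRange =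
      (pullback.fst (pullback.snd c t) (opensHom t U).1).opensRange := by
    apply TopologicalSpace.Opens.ext
    simp only [Scheme.Hom.coe_opensRange]
    conv_lhs => rw [h1]
    have h3 : Set.range hP.isoPullback.hom = Set.univ :=
      Set.range_eq_univ.mpr hP.isoPullback.hom.homeomorph.surjective
    rw [Scheme.Hom.comp_base, TopCat.coe_comp, Set.range_comp, h3, Set.image_univ]
  rw [h2, Scheme.Hom.opensRange_pullbackFst]
  congr 1
  exact Scheme.Opens.opensRange_ι U

/-- the induced cover of `C ×ₖ T` -/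
def cover2Prod {T : Scheme.{u}} (t : T ⟶ Spec (CommRingCat.of k)) (U V : T.Opens)
    (h : U ⊔ V = ⊤) : Cover2 (pullback c t) where
  X₁ := pullback c (U.ι ≫ t)
  X₂ := pullback c (V.ι ≫ t)
  X₁₂ := pullback c ((U ⊓ V).ι ≫ t)
  j₁ := baseChangeSnd c (opensHom t U)
  j₂ := baseChangeSnd c (opensHom t V)
  j₁₂ := baseChangeSnd c (opensHom t (U ⊓ V))
  p₁ := baseChangeSnd c (opensLEHom t inf_le_left)
  p₂ := baseChangeSnd c (opensLEHom t inf_le_right)
  h₁ := by
    rw [baseChangeSnd_comp]
    congr 1
    apply Subtype.ext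
    simp [postComp, opensHom, opensLEHom]
  h₂ := by
    rw [baseChangeSnd_comp]
    congr 1
    apply Subtype.ext
    simp [postComp, opensHom, opensLEHom]
  cover := by
    rw [opensRange_baseChangeSnd_opensHom, opensRange_baseChangeSnd_opensHom,
      ← Scheme.Hom.preimage_sup, h, Scheme.Hom.preimage_top]
  inter := by
    rw [opensRange_baseChangeSnd_opensHom, opensRange_baseChangeSnd_opensHom,
      opensRange_baseChangeSnd_opensHom, Scheme.Hom.preimage_inf]

/-- the rigidifying section -/
def sectionData {T : Scheme.{u}} (t : T ⟶ Spec (CommRingCat.of k)) (U V : T.Opens)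
    (h : U ⊔ V = ⊤) : SectionData (cover2Prod c t U V h) (cover2Base U V h) where
  σ := rigSection c t ε
  σ₁ := rigSection c (U.ι ≫ t) ε
  σ₂ := rigSection c (V.ι ≫ t) ε
  σ₁₂ := rigSection c ((U ⊓ V).ι ≫ t) ε
  π₁₂ := pullback.snd c ((U ⊓ V).ι ≫ t)
  sq₁ := rigSection_baseChangeSnd c ε (opensHom t U)
  sq₂ := rigSection_baseChangeSnd c ε (opensHom t V)
  sqp₁ := rigSection_baseChangeSnd c ε (opensLEHom t inf_le_left)
  sqp₂ := rigSection_baseChangeSnd c ε (opensLEHom t inf_le_right)
  sec := by
    unfold rigSection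
    exact pullback.lift_snd _ _ _

end

end Fermat.Agent.S25.Mod
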