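/- S25 / block M / C7: invertibility of sheaves of modules is local for open immersions.
Owner: helper49. -/
import Fermat.Agent.S25.Mod.Defs
import Fermat.Prelude.Def_AlgebraicGeometry_RelativePicardFunctor

set_option autoImplicit false

universe u

open CategoryTheory AlgebraicGeometry AlgebraicGeometry.Scheme.Modules

namespace Fermat.Agent.S25.Mod

noncomputable section

variable {X Y Z : Scheme.{u}}

theorem isInvertible_of_iso {M M' : X.Modules} (e : M ≅ M')
    (h : Scheme.Modules.IsInvertible M) : Scheme.Modules.IsInvertible M' := by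
  refine ⟨fun x => ?_⟩
  obtain ⟨U, hx, ⟨eU⟩⟩ := h.1 x
  exact ⟨U, hx, ⟨(Scheme.Modules.pullback U.ι).mapIso e.symm ≪≫ eU⟩⟩

/-- invertibility at the points of an open immersion -/
theorem exists_trivialization_of_pullback (j : Y ⟶ X) [IsOpenImmersion j] (M : X.Modules)
    (h : Scheme.Modules.IsInvertible ((Scheme.Modules.pullback j).obj M)) (y : Y) :
    ∃ U : X.Opens, j y ∈ U ∧
      Nonempty ((Scheme.Modules.pullback U.ι).obj M ≅
        SheafOfModules.unit U.toScheme.ringCatSheaf) := by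
  obtain ⟨W, hy, ⟨eW⟩⟩ := h.1 y
  refine ⟨j ''ᵁ W, ⟨y, hy, rfl⟩, ⟨?_⟩⟩
  have hfact : (j ''ᵁ W).ι = (j.isoImage W).inv ≫ W.ι ≫ j := (j.isoImage_inv_ι W).symm
  exact
    (Scheme.Modules.pullbackCongr hfact).app M ≪≫
    ((Scheme.Modules.pullbackComp (j.isoImage W).inv (W.ι ≫ j)).app M).symm ≪≫
    (Scheme.Modules.pullback (j.isoImage W).inv).mapIso
      ((Scheme.Modules.pullbackComp W.ι j).app M).symm ≪≫
    (Scheme.Modules.pullback (j.isoImage W).inv).mapIso eW ≪≫
    Scheme.Modules.pullbackUnitIso (j.isoImage W).inv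

theorem Cover2.isInvertible_of_pullback (𝒰 : Cover2 X) (M : X.Modules)
    (h₁ : Scheme.Modules.IsInvertible ((Scheme.Modules.pullback 𝒰.j₁).obj M))
    (h₂ : Scheme.Modules.IsInvertible ((Scheme.Modules.pullback 𝒰.j₂).obj M)) :
    Scheme.Modules.IsInvertible M := by
  refine ⟨fun x => ?_⟩
  have hx : x ∈ 𝒰.j₁.opensRange ⊔ 𝒰.j₂.opensRange := by rw [𝒰.cover]; trivial
  rcases hx with ⟨y, rfl⟩ | ⟨y, rfl⟩
  · exact exists_trivialization_of_pullback 𝒰.j₁ M h₁ y
  · exact exists_trivialization_of_pullback 𝒰.j₂ M h₂ y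

end

end Fermat.Agent.S25.Mod
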