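/-
S25 / block M / C1 : calculus of cartesian maps of sheaves of modules.   Owner: helper21.
-/
import Fermat.Agent.S25.Mod.Defs

set_option autoImplicit false

universe u

open CategoryTheory AlgebraicGeometry AlgebraicGeometry.Scheme.Modules

namespace Fermat.Agent.S25.Mod

noncomputable section

variable {X Y Z : Scheme.{u}}

@[simp] theorem adj_coadj (f : Y ⟶ X) {M : X.Modules} {N : Y.Modules}
    (b : (Scheme.Modules.pullback f).obj M ⟶ N) : adj f (coadj f b) = b :=
  Equiv.symm_apply_apply _ _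

@[simp] theorem coadj_adj (f : Y ⟶ X) {M : X.Modules} {N : Y.Modules}
    (a : M ⟶ (pushforward f).obj N) : coadj f (adj f a) = a :=
  Equiv.apply_symm_apply _ _

theorem adj_injective (f : Y ⟶ X) {M : X.Modules} {N : Y.Modules}
    {a a' : M ⟶ (pushforward f).obj N} (h : adj f a = adj f a') : a = a' :=
  ((pullbackPushforwardAdjunction f).homEquiv M N).symm.injective h

theorem isCart_coadj (f : Y ⟶ X) {M : X.Modules} {N : Y.Modules}
    (b : (Scheme.Modules.pullback f).obj M ⟶ N) [IsIso b] : IsCart f (coadj f b) := by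
  unfold IsCart
  rw [adj_coadj]
  infer_instance

/-- naturality on the left -/
theorem adj_precomp (f : Y ⟶ X) {M' M : X.Modules} {N : Y.Modules} (l : M' ⟶ M)
    (a : M ⟶ (pushforward f).obj N) :
    adj f (l ≫ a) = (Scheme.Modules.pullback f).map l ≫ adj f a :=
  (pullbackPushforwardAdjunction f).homEquiv_naturality_left_symm l a

/-- naturality on the right -/
theorem adj_postcomp (f : Y ⟶ X) {M : X.Modules} {N N' : Y.Modules}
    (a : M ⟶ (pushforward f).obj N) (r : N ⟶ N') :
    adj f (a ≫ (pushforward f).map r) = adj f a ≫ r :=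
  (pullbackPushforwardAdjunction f).homEquiv_naturality_right_symm a r

theorem coadj_postcomp (f : Y ⟶ X) {M : X.Modules} {N N' : Y.Modules}
    (b : (Scheme.Modules.pullback f).obj M ⟶ N) (r : N ⟶ N') :
    coadj f (b ≫ r) = coadj f b ≫ (pushforward f).map r :=
  (pullbackPushforwardAdjunction f).homEquiv_naturality_right b r

/-- sections of a composite -/
theorem comp'_app (g : Z ⟶ Y) (f : Y ⟶ X) (k : Z ⟶ X) (h : g ≫ f = k) {M : X.Modules}
    {N : Y.Modules} {P : Z.Modules} (a : M ⟶ (pushforward f).obj N)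
    (b : N ⟶ (pushforward g).obj P) (W : X.Opens) :
    (comp' g f k h a b).app W =
      a.app W ≫ b.app (f ⁻¹ᵁ W) ≫ P.presheaf.map (eqToHom (by subst h; rfl)).op := by
  unfold comp'
  simp only [Hom.comp_app, pushforward_map_app, pushforwardComp_hom_app_app,
    pushforwardCongr_hom_app_app]
  erw [Category.id_comp]
  rfl

theorem comp'_precomp (g : Z ⟶ Y) (f : Y ⟶ X) (k : Z ⟶ X) (h : g ≫ f = k) {M' M : X.Modules}
    {N : Y.Modules} {P : Z.Modules} (l : M' ⟶ M) (a : M ⟶ (pushforward f).obj N)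
    (b : N ⟶ (pushforward g).obj P) :
    comp' g f k h (l ≫ a) b = l ≫ comp' g f k h a b := by
  simp [comp']

theorem comp'_mid (g : Z ⟶ Y) (f : Y ⟶ X) (k : Z ⟶ X) (h : g ≫ f = k) {M : X.Modules}
    {N N' : Y.Modules} {P : Z.Modules} (a : M ⟶ (pushforward f).obj N) (s : N ⟶ N')
    (b : N' ⟶ (pushforward g).obj P) :
    comp' g f k h (a ≫ (pushforward f).map s) b = comp' g f k h a (s ≫ b) := by
  simp [comp']

theorem comp'_postcomp (g : Z ⟶ Y) (f : Y ⟶ X) (k : Z ⟶ X) (h : g ≫ f = k) {M : X.Modules}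
    {N : Y.Modules} {P P' : Z.Modules} (a : M ⟶ (pushforward f).obj N)
    (b : N ⟶ (pushforward g).obj P) (r : P ⟶ P') :
    comp' g f k h a (b ≫ (pushforward g).map r) =
      comp' g f k h a b ≫ (pushforward k).map r := by
  unfold comp'
  simp only [Functor.map_comp, Category.assoc]
  congr 2
  have h1 := (pushforwardComp g f).hom.naturality r
  have h2 := (pushforwardCongr h).hom.naturality r
  simp only [Functor.comp_map] at h1
  rw [reassoc_of% h1, h2]

theorem comp'_assoc {Z' : Scheme.{u}} (e : Z' ⟶ Z) (g : Z ⟶ Y) (f : Y ⟶ X) (eg : Z' ⟶ Y)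
    (gf : Z ⟶ X) (egf : Z' ⟶ X) (h₁ : e ≫ g = eg) (h₂ : g ≫ f = gf) (h₃ : e ≫ gf = egf)
    (h₄ : eg ≫ f = egf) {M : X.Modules} {N : Y.Modules} {P : Z.Modules} {Q : Z'.Modules}
    (a : M ⟶ (pushforward f).obj N) (b : N ⟶ (pushforward g).obj P)
    (c : P ⟶ (pushforward e).obj Q) :
    comp' e gf egf h₃ (comp' g f gf h₂ a b) c = comp' eg f egf h₄ a (comp' e g eg h₁ b c) := by
  subst h₁ h₂ h₃
  ext W
  simp only [comp'_app]
  have hP : P.presheaf.map (eqToHom (rfl : g ⁻¹ᵁ f ⁻¹ᵁ W = (g ≫ f) ⁻¹ᵁ W)).op = 𝟙 _ :=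
    P.presheaf.map_id _
  have hQ : Q.presheaf.map (eqToHom (rfl : e ⁻¹ᵁ g ⁻¹ᵁ f ⁻¹ᵁ W = e ⁻¹ᵁ g ⁻¹ᵁ f ⁻¹ᵁ W)).op = 𝟙 _ :=
    Q.presheaf.map_id _
  erw [hP, hQ]
  rfl

theorem adj_eq (f : Y ⟶ X) {M : X.Modules} {N : Y.Modules} (a : M ⟶ (pushforward f).obj N) :
    adj f a = (Scheme.Modules.pullback f).map a ≫ (pullbackPushforwardAdjunction f).counit.app N :=
  (pullbackPushforwardAdjunction f).homEquiv_counit _ _ _

theorem pushforwardCongr_rfl_hom_app (f : Y ⟶ X) (N : Y.Modules) :
    (pushforwardCongr (rfl : f = f)).hom.app N = 𝟙 _ := by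
  ext W
  simp

/-- THE coherence lemma. -/
theorem adj_comp' (g : Z ⟶ Y) (f : Y ⟶ X) (k : Z ⟶ X) (h : g ≫ f = k) {M : X.Modules}
    {N : Y.Modules} {P : Z.Modules} (a : M ⟶ (pushforward f).obj N)
    (b : N ⟶ (pushforward g).obj P) :
    adj k (comp' g f k h a b) =
      (pullbackCongr h).inv.app M ≫ (pullbackComp g f).inv.app M ≫
        (Scheme.Modules.pullback g).map (adj f a) ≫ adj g b := by
  subst h
  have hc := conjugateEquiv_counit
    ((pullbackPushforwardAdjunction f).comp (pullbackPushforwardAdjunction g))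
    (pullbackPushforwardAdjunction (g ≫ f)) (pullbackComp g f).inv P
  rw [conjugateEquiv_pullbackComp_inv] at hc
  unfold comp'
  rw [pushforwardCongr_rfl_hom_app, Category.comp_id]
  simp only [pullbackCongr, eqToIso_refl, Iso.refl_inv, NatTrans.id_app, Category.id_comp]
  rw [adj_eq (g ≫ f)]
  simp only [Functor.map_comp, Category.assoc]
  rw [hc]
  simp only [Functor.comp_obj]
  have n1 := (pullbackComp g f).inv.naturality ((pushforward f).map b)
  have n2 := (pullbackComp g f).inv.naturality a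
  rw [reassoc_of% n1, reassoc_of% n2, Adjunction.comp_counit_app, adj_eq f, adj_eq g]
  simp only [Functor.map_comp, Category.assoc]
  congr 2
  have n3 := (pullbackPushforwardAdjunction f).counit.naturality b
  simp only [Functor.comp_map, Functor.id_map] at n3
  rw [← Functor.map_comp_assoc, n3, Functor.map_comp_assoc]

theorem IsCart.comp {g : Z ⟶ Y} {f : Y ⟶ X} {k : Z ⟶ X} (h : g ≫ f = k) {M : X.Modules}
    {N : Y.Modules} {P : Z.Modules} {a : M ⟶ (pushforward f).obj N}
    {b : N ⟶ (pushforward g).obj P} (ha : IsCart f a) (hb : IsCart g b) :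
    IsCart k (comp' g f k h a b) := by
  unfold IsCart at *
  rw [adj_comp']
  infer_instance

theorem IsCart.of_comp {g : Z ⟶ Y} {f : Y ⟶ X} {k : Z ⟶ X} (h : g ≫ f = k) {M : X.Modules}
    {N : Y.Modules} {P : Z.Modules} {a : M ⟶ (pushforward f).obj N}
    {b : N ⟶ (pushforward g).obj P} (ha : IsCart f a) (hab : IsCart k (comp' g f k h a b)) :
    IsCart g b := by
  unfold IsCart at *
  rw [adj_comp'] at hab
  have h1 := IsIso.of_isIso_comp_left ((pullbackCongr h).inv.app M)
    ((pullbackComp g f).inv.app M ≫ (Scheme.Modules.pullback g).map (adj f a) ≫ adj g b)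
  have h2 := IsIso.of_isIso_comp_left ((pullbackComp g f).inv.app M)
    ((Scheme.Modules.pullback g).map (adj f a) ≫ adj g b)
  exact IsIso.of_isIso_comp_left ((Scheme.Modules.pullback g).map (adj f a)) _

theorem isIso_pullback_map_adj_of_comp {g : Z ⟶ Y} {f : Y ⟶ X} {k : Z ⟶ X} (h : g ≫ f = k)
    {M : X.Modules} {N : Y.Modules} {P : Z.Modules} {a : M ⟶ (pushforward f).obj N}
    {b : N ⟶ (pushforward g).obj P} (hb : IsCart g b) (hab : IsCart k (comp' g f k h a b)) :
    IsIso ((Scheme.Modules.pullback g).map (adj f a)) := by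
  unfold IsCart at *
  rw [adj_comp'] at hab
  have h1 := IsIso.of_isIso_comp_left ((pullbackCongr h).inv.app M)
    ((pullbackComp g f).inv.app M ≫ (Scheme.Modules.pullback g).map (adj f a) ≫ adj g b)
  have h2 := IsIso.of_isIso_comp_left ((pullbackComp g f).inv.app M)
    ((Scheme.Modules.pullback g).map (adj f a) ≫ adj g b)
  exact IsIso.of_isIso_comp_right _ (adj g b)

/-- universal property of a cartesian map -/
theorem IsCart.existsUnique_lift {g : Z ⟶ Y} {f : Y ⟶ X} {k : Z ⟶ X} (h : g ≫ f = k)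
    {M : X.Modules} {N : Y.Modules} {P : Z.Modules} {a : M ⟶ (pushforward f).obj N}
    (ha : IsCart f a) (c : M ⟶ (pushforward k).obj P) :
    ∃! b : N ⟶ (pushforward g).obj P, comp' g f k h a b = c := by
  unfold IsCart at ha
  refine ⟨coadj g (inv ((Scheme.Modules.pullback g).map (adj f a)) ≫
    (pullbackComp g f).hom.app M ≫ (pullbackCongr h).hom.app M ≫ adj k c), ?_, ?_⟩
  · apply adj_injective
    simp [adj_comp']
  · intro b hb
    subst hb
    simp [adj_comp']

/-- two cartesian maps with the same source differ by an isomorphism of the targets -/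
theorem IsCart.exists_iso {f : Y ⟶ X} {M : X.Modules} {N N' : Y.Modules}
    {a : M ⟶ (pushforward f).obj N} {a' : M ⟶ (pushforward f).obj N'}
    (ha : IsCart f a) (ha' : IsCart f a') :
    ∃ e : N ≅ N', a ≫ (pushforward f).map e.hom = a' := by
  unfold IsCart at *
  refine ⟨(asIso (adj f a)).symm ≪≫ asIso (adj f a'), ?_⟩
  apply adj_injective
  rw [adj_postcomp]
  simp

theorem IsCart.postcomp_iso {f : Y ⟶ X} {M : X.Modules} {N N' : Y.Modules}
    {a : M ⟶ (pushforward f).obj N} (ha : IsCart f a) (e : N ⟶ N') [IsIso e] :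
    IsCart f (a ≫ (pushforward f).map e) := by
  unfold IsCart at *
  rw [adj_postcomp]
  infer_instance

theorem IsCart.precomp_iso {f : Y ⟶ X} {M' M : X.Modules} {N : Y.Modules}
    {a : M ⟶ (pushforward f).obj N} (ha : IsCart f a) (e : M' ⟶ M) [IsIso e] :
    IsCart f (e ≫ a) := by
  unfold IsCart at *
  rw [adj_precomp]
  infer_instance

/-- if `l ≫ a` and `a` are cartesian then `f^* l` is an isomorphism -/
theorem isIso_pullback_map_of_isCart {f : Y ⟶ X} {M' M : X.Modules} {N : Y.Modules}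
    {a : M ⟶ (pushforward f).obj N} (ha : IsCart f a) (l : M' ⟶ M) (hl : IsCart f (l ≫ a)) :
    IsIso ((Scheme.Modules.pullback f).map l) := by
  unfold IsCart at *
  rw [adj_precomp] at hl
  exact IsIso.of_isIso_comp_right _ (adj f a)

end

end Fermat.Agent.S25.Mod
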