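/- S25 / block M / C6  Mod/Smul.lean: multiplication by global functions.
   Statements by helper21 (skeleton Mod/WIP/Smul.lean), proofs by helper145 (task 510). -/
import Fermat.Agent.S25.Mod.Defs

set_option autoImplicit false

universe u

open CategoryTheory AlgebraicGeometry AlgebraicGeometry.Scheme.Modules

namespace Fermat.Agent.S25.Mod

noncomputable section

variable {X Y Z : Scheme.{u}}

@[simp] theorem smulHom_one (M : X.Modules) : smulHom M 1 = 𝟙 M := by
  apply Scheme.Modules.hom_ext
  intro W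
  ext x
  rw [smulHom_app_apply]
  simp [resTop]

theorem smulHom_mul (M : X.Modules) (a b : Γ(X, ⊤)) :
    smulHom M (a * b) = smulHom M a ≫ smulHom M b := by
  apply Scheme.Modules.hom_ext
  intro W
  ext x
  rw [smulHom_app_apply, Hom.comp_app]
  show _ = (smulHom M b).app W ((smulHom M a).app W x)
  rw [smulHom_app_apply, smulHom_app_apply, smul_smul, mul_comm a b]
  simp [resTop]

theorem isIso_smulHom (M : X.Modules) {a : Γ(X, ⊤)} (ha : IsUnit a) : IsIso (smulHom M a) := by
  obtain ⟨u, rfl⟩ := ha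
  refine ⟨smulHom M (↑u⁻¹ : Γ(X, ⊤)), ?_, ?_⟩
  · rw [← smulHom_mul, Units.mul_inv, smulHom_one]
  · rw [← smulHom_mul, Units.inv_mul, smulHom_one]

/-- every morphism is linear -/
theorem smulHom_comm {M N : X.Modules} (b : M ⟶ N) (a : Γ(X, ⊤)) :
    smulHom M a ≫ b = b ≫ smulHom N a := by
  apply Scheme.Modules.hom_ext
  intro W
  ext x
  rw [Hom.comp_app, Hom.comp_app]
  show b.app W ((smulHom M a).app W x) = (smulHom N a).app W (b.app W x)
  rw [smulHom_app_apply, smulHom_app_apply, Hom.app_smul]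

theorem Smul.pushforward_smul (f : Y ⟶ X) (N : Y.Modules) (W : X.Opens) (r : Γ(X, W))
    (x : Γ(N, f ⁻¹ᵁ W)) :
    (r • (show Γ((pushforward f).obj N, W) from x) : Γ((pushforward f).obj N, W)) =
      (f.app W r • x : Γ(N, f ⁻¹ᵁ W)) := rfl

theorem Smul.app_resTop (f : Y ⟶ X) (a : Γ(X, ⊤)) (W : X.Opens) :
    f.app W (resTop a W) = resTop (f.appTop a) (f ⁻¹ᵁ W) := by
  simp only [resTop]
  have := f.naturality (homOfLE (le_top : W ≤ ⊤)).op
  exact congr($this a)

theorem smulHom_pushforward (f : Y ⟶ X) (N : Y.Modules) (a : Γ(X, ⊤)) :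
    smulHom ((pushforward f).obj N) a = (pushforward f).map (smulHom N (f.appTop a)) := by
  apply Scheme.Modules.hom_ext
  intro W
  ext x
  rw [smulHom_app_apply, pushforward_map_app]
  erw [smulHom_app_apply]
  rw [← Smul.app_resTop]
  rfl

/-- PULLSMUL -/
theorem pullback_map_smulHom (f : Y ⟶ X) (M : X.Modules) (a : Γ(X, ⊤)) :
    (Scheme.Modules.pullback f).map (smulHom M a) =
      smulHom ((Scheme.Modules.pullback f).obj M) (f.appTop a) := by
  apply ((pullbackPushforwardAdjunction f).homEquiv M _).injective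
  rw [Adjunction.homEquiv_unit, Adjunction.homEquiv_unit, ← smulHom_pushforward]
  have h1 := (pullbackPushforwardAdjunction f).unit.naturality (smulHom M a)
  have h2 : smulHom M a ≫ (pullbackPushforwardAdjunction f).unit.app M =
      (pullbackPushforwardAdjunction f).unit.app M ≫ smulHom _ a :=
    smulHom_comm (M := M) (N := (pushforward f).obj ((Scheme.Modules.pullback f).obj M))
      ((pullbackPushforwardAdjunction f).unit.app M) a
  exact h1.symm.trans h2

namespace Smul

/-- a function seen as a section of the structure sheaf -/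
def toMod {W : X.Opens} (r : Γ(X, W)) : Γ(unitMod X, W) := r

/-- a section of the structure sheaf seen as a function -/
def ofMod {W : X.Opens} (r : Γ(unitMod X, W)) : Γ(X, W) := r

theorem toMod_ofMod {W : X.Opens} (r : Γ(unitMod X, W)) : toMod (ofMod r) = r := rfl

theorem ofMod_toMod {W : X.Opens} (r : Γ(X, W)) : ofMod (toMod r) = r := rfl

theorem smul_toMod {W : X.Opens} (r s : Γ(X, W)) : r • toMod s = toMod (r * s) := rfl

theorem map_toMod {W W' : X.Opens} (i : W' ⟶ W) (r : Γ(X, W)) :
    (unitMod X).presheaf.map i.op (toMod r) = toMod (X.presheaf.map i.op r) := rfl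

theorem app_naturality {M N : X.Modules} (u : M ⟶ N) {W W' : X.Opens} (i : W' ⟶ W) (x : Γ(M, W)) :
    u.app W' (M.presheaf.map i.op x) = N.presheaf.map i.op (u.app W x) := by
  have := u.mapPresheaf.naturality i.op
  exact congr($this x)

end Smul

open Smul in
/-- endomorphisms of the structure sheaf are multiplications -/
theorem exists_eq_smulHom (u : unitMod X ⟶ unitMod X) :
    ∃ a : Γ(X, ⊤), u = smulHom (unitMod X) a := by
  refine ⟨ofMod (u.app ⊤ (toMod 1)), ?_⟩
  apply Scheme.Modules.hom_ext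
  intro W
  ext x
  rw [smulHom_app_apply]
  have h1 : x = ofMod x • toMod (1 : Γ(X, W)) := by
    rw [smul_toMod, mul_one, toMod_ofMod]
  have h2 : u.app W (toMod (1 : Γ(X, W))) =
      toMod (resTop (ofMod (u.app ⊤ (toMod 1))) W) := by
    have h3 := app_naturality u (homOfLE (le_top : W ≤ ⊤)) (toMod 1)
    rw [map_toMod, map_one] at h3
    rw [h3]
    rfl
  conv_lhs => rw [h1]
  rw [Hom.app_smul, h2, smul_toMod, mul_comm, ← smul_toMod, toMod_ofMod]

open Smul in
theorem smulHom_unitMod_injective {a b : Γ(X, ⊤)}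
    (h : smulHom (unitMod X) a = smulHom (unitMod X) b) : a = b := by
  have h1 := congr(($h).app ⊤ (toMod 1))
  rw [smulHom_app_apply, smulHom_app_apply, smul_toMod, smul_toMod, mul_one, mul_one] at h1
  have h2 : resTop a ⊤ = resTop b ⊤ := h1
  simpa [resTop] using h2

theorem exists_isUnit_eq_smulHom (u : unitMod X ⟶ unitMod X) [IsIso u] :
    ∃ a : Γ(X, ⊤), IsUnit a ∧ u = smulHom (unitMod X) a := by
  obtain ⟨a, ha⟩ := exists_eq_smulHom u
  obtain ⟨b, hb⟩ := exists_eq_smulHom (inv u)
  refine ⟨a, ?_, ha⟩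
  have h : smulHom (unitMod X) (a * b) = smulHom (unitMod X) 1 := by
    rw [smulHom_mul, ← ha, ← hb, smulHom_one, IsIso.hom_inv_id]
  exact IsUnit.of_mul_eq_one b (smulHom_unitMod_injective h)

end
end Fermat.Agent.S25.Mod
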