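/- S25 / block M / C5: the canonical map from the structure sheaf to its pushforward is cartesian. -/
import Fermat.Agent.S25.Mod.Defs
import Fermat.Prelude.Def_AlgebraicGeometry_RelativePicardFunctor

set_option autoImplicit false

universe u

open CategoryTheory AlgebraicGeometry AlgebraicGeometry.Scheme.Modules

namespace Fermat.Agent.S25.Mod

noncomputable section

variable {X Y Z : Scheme.{u}}

theorem adj_unitMap (f : Y ⟶ X) :
    adj f (unitMap f) = (Scheme.Modules.pullbackUnitIso f).hom := by
  rfl

theorem isCart_unitMap (f : Y ⟶ X) : IsCart f (unitMap f) := by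
  unfold IsCart
  rw [adj_unitMap]
  infer_instance

theorem unitMap_comp' (g : Z ⟶ Y) (f : Y ⟶ X) (k : Z ⟶ X) (h : g ≫ f = k) :
    comp' g f k h (unitMap f) (unitMap g) = unitMap k := by
  subst h
  apply Scheme.Modules.hom_ext
  intro W
  unfold comp'
  simp only [Hom.comp_app, pushforward_map_app, pushforwardComp_hom_app_app,
    pushforwardCongr_hom_app_app]
  rw [eqToHom_refl, op_id, CategoryTheory.Functor.map_id]
  ext x
  rfl

end

end Fermat.Agent.S25.Mod
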