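/- S25 / block M / C9a : Mod/Normalise.lean (helper120). -/
import Fermat.Agent.S25.Mod.Cart
import Fermat.Agent.S25.Mod.UnitCart
import Fermat.Agent.S25.Mod.Smul

set_option autoImplicit false

universe u

open CategoryTheory AlgebraicGeometry AlgebraicGeometry.Scheme.Modules

namespace Fermat.Agent.S25.Mod

noncomputable section

variable {X Y Z : Scheme.{u}}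

/-- step 1: normalisation of the gluing isomorphism. -/
theorem SectionData.exists_normalised {T : Scheme.{u}} {𝒰 : Cover2 X} {𝒱 : Cover2 T}
    (S : SectionData 𝒰 𝒱) (δ₁ : 𝒱.X₁₂ ⟶ 𝒰.X₁) (δ₂ : 𝒱.X₁₂ ⟶ 𝒰.X₂)
    (hδ₁ : S.σ₁₂ ≫ 𝒰.p₁ = δ₁) (hδ₁' : 𝒱.p₁ ≫ S.σ₁ = δ₁)
    (hδ₂ : S.σ₁₂ ≫ 𝒰.p₂ = δ₂) (hδ₂' : 𝒱.p₂ ≫ S.σ₂ = δ₂)
    {M₁ : 𝒰.X₁.Modules} {M₂ : 𝒰.X₂.Modules} {M₁₂ : 𝒰.X₁₂.Modules}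
    (α₁ : M₁ ⟶ (pushforward 𝒰.p₁).obj M₁₂) (α₂ : M₂ ⟶ (pushforward 𝒰.p₂).obj M₁₂)
    (hα₁ : IsCart 𝒰.p₁ α₁) (hα₂ : IsCart 𝒰.p₂ α₂)
    (ρ₁ : M₁ ⟶ (pushforward S.σ₁).obj (unitMod 𝒱.X₁))
    (ρ₂ : M₂ ⟶ (pushforward S.σ₂).obj (unitMod 𝒱.X₂))
    (hρ₁ : IsCart S.σ₁ ρ₁) (hρ₂ : IsCart S.σ₂ ρ₂) :
    ∃ (α₁' : M₁ ⟶ (pushforward 𝒰.p₁).obj M₁₂)
      (β : M₁₂ ⟶ (pushforward S.σ₁₂).obj (unitMod 𝒱.X₁₂)), IsCart 𝒰.p₁ α₁' ∧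
      comp' S.σ₁₂ 𝒰.p₁ δ₁ hδ₁ α₁' β = comp' 𝒱.p₁ S.σ₁ δ₁ hδ₁' ρ₁ (unitMap 𝒱.p₁) ∧
      comp' S.σ₁₂ 𝒰.p₂ δ₂ hδ₂ α₂ β = comp' 𝒱.p₂ S.σ₂ δ₂ hδ₂' ρ₂ (unitMap 𝒱.p₂) := by
  have hc₁ : IsCart δ₁ (comp' 𝒱.p₁ S.σ₁ δ₁ hδ₁' ρ₁ (unitMap 𝒱.p₁)) :=
    IsCart.comp hδ₁' hρ₁ (isCart_unitMap _)
  have hc₂ : IsCart δ₂ (comp' 𝒱.p₂ S.σ₂ δ₂ hδ₂' ρ₂ (unitMap 𝒱.p₂)) :=
    IsCart.comp hδ₂' hρ₂ (isCart_unitMap _)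
  obtain ⟨β₁, hβ₁, -⟩ := hα₁.existsUnique_lift hδ₁ (comp' 𝒱.p₁ S.σ₁ δ₁ hδ₁' ρ₁ (unitMap 𝒱.p₁))
  obtain ⟨β₂, hβ₂, -⟩ := hα₂.existsUnique_lift hδ₂ (comp' 𝒱.p₂ S.σ₂ δ₂ hδ₂' ρ₂ (unitMap 𝒱.p₂))
  have hβ₁c : IsCart S.σ₁₂ β₁ := IsCart.of_comp hδ₁ hα₁ (by rw [hβ₁]; exact hc₁)
  have hβ₂c : IsCart S.σ₁₂ β₂ := IsCart.of_comp hδ₂ hα₂ (by rw [hβ₂]; exact hc₂)
  obtain ⟨e, he⟩ := IsCart.exists_iso hβ₁c hβ₂c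
  obtain ⟨a, ha, hea⟩ := exists_isUnit_eq_smulHom e.hom
  set w : Γ(𝒰.X₁₂, ⊤) := S.π₁₂.appTop a with hw
  have hwa : S.σ₁₂.appTop w = a := by
    have h1 : (S.σ₁₂ ≫ S.π₁₂).appTop a = a := by rw [S.sec]; simp
    rw [Scheme.Hom.comp_appTop] at h1
    exact h1
  have hwu : IsUnit w := ha.map S.π₁₂.appTop.hom
  have hiso : IsIso (smulHom M₁₂ w) := isIso_smulHom M₁₂ hwu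
  have hβ : β₂ = smulHom M₁₂ w ≫ β₁ := by
    rw [smulHom_comm, smulHom_pushforward, hwa, ← hea, he]
  refine ⟨α₁ ≫ (pushforward 𝒰.p₁).map (inv (smulHom M₁₂ w)), β₂, hα₁.postcomp_iso _, ?_, hβ₂⟩
  rw [comp'_mid, hβ, IsIso.inv_hom_id_assoc, hβ₁]

end

end Fermat.Agent.S25.Mod
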