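/- S25 / block M / C2 : cartesian maps along open immersions (statements helper21, proofs helper187). -/
import Fermat.Agent.S25.Mod.Defs

set_option autoImplicit false

universe u

open CategoryTheory AlgebraicGeometry AlgebraicGeometry.Scheme.Modules

namespace Fermat.Agent.S25.Mod

noncomputable section

variable {X Y Z : Scheme.{u}}

namespace CartOpen

theorem inv_app_counit (f : Y ⟶ X) [IsOpenImmersion f] (N : Y.Modules) :
    (restrictFunctorIsoPullback f).inv.app ((pushforward f).obj N) ≫
      (restrictAdjunction f).counit.app N = (pullbackPushforwardAdjunction f).counit.app N :=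
  Adjunction.leftAdjointUniq_hom_app_counit (pullbackPushforwardAdjunction f)
    (restrictAdjunction f) N

theorem image_preimage_of_le (f : Y ⟶ X) [IsOpenImmersion f] {W : X.Opens}
    (hW : W ≤ f.opensRange) : f ''ᵁ (f ⁻¹ᵁ W) = W := by
  rw [Scheme.Hom.image_preimage_eq_opensRange_inf, inf_eq_right]
  exact hW

theorem isIso_restrict_map_iff (f : Y ⟶ X) [IsOpenImmersion f] {M M' : X.Modules} (l : M ⟶ M') :
    IsIso ((restrictFunctor f).map l) ↔ ∀ W : X.Opens, W ≤ f.opensRange → IsIso (l.app W) := by
  rw [Hom.isIso_iff_isIso_app]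
  constructor
  · intro h W hW
    have h1 : IsIso (l.app (f ''ᵁ (f ⁻¹ᵁ W))) := h (f ⁻¹ᵁ W)
    rwa [image_preimage_of_le f hW] at h1
  · intro h V
    exact h (f ''ᵁ V) (f.image_le_opensRange V)

end CartOpen

/-- comparison of the two adjunctions for an open immersion -/
theorem adj_eq_restrict (f : Y ⟶ X) [IsOpenImmersion f] {M : X.Modules} {N : Y.Modules}
    (a : M ⟶ (pushforward f).obj N) :
    adj f a = (restrictFunctorIsoPullback f).inv.app M ≫ (restrictFunctor f).map a ≫
      (restrictAdjunction f).counit.app N := by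
  unfold adj
  rw [Adjunction.homEquiv_counit, ← CartOpen.inv_app_counit, ← Category.assoc, ← Category.assoc,
    (restrictFunctorIsoPullback f).inv.naturality a]

theorem isCart_iff_isIso_restrict (f : Y ⟶ X) [IsOpenImmersion f] {M : X.Modules} {N : Y.Modules}
    (a : M ⟶ (pushforward f).obj N) :
    IsCart f a ↔ IsIso ((restrictFunctor f).map a) := by
  unfold IsCart
  rw [adj_eq_restrict, isIso_comp_left_iff, isIso_comp_right_iff]

/-- sectionwise criterion -/
theorem isCart_iff_of_isOpenImmersion (f : Y ⟶ X) [IsOpenImmersion f] {M : X.Modules}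
    {N : Y.Modules} (a : M ⟶ (pushforward f).obj N) :
    IsCart f a ↔ ∀ W : X.Opens, W ≤ f.opensRange → IsIso (a.app W) := by
  rw [isCart_iff_isIso_restrict, CartOpen.isIso_restrict_map_iff]

theorem isIso_pullback_map_iff (f : Y ⟶ X) [IsOpenImmersion f] {M M' : X.Modules} (l : M ⟶ M') :
    IsIso ((Scheme.Modules.pullback f).map l) ↔
      ∀ W : X.Opens, W ≤ f.opensRange → IsIso (l.app W) := by
  rw [← CartOpen.isIso_restrict_map_iff]
  exact (NatIso.isIso_map_iff (restrictFunctorIsoPullback f) l).symm

end

end Fermat.Agent.S25.Mod
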