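/- S25 / block M / C4 : Mod/Glue2.lean.  Owner: helper230. -/
import Fermat.Agent.S25.Mod.CartOpen

set_option autoImplicit false

universe u

open CategoryTheory AlgebraicGeometry AlgebraicGeometry.Scheme.Modules Opposite

namespace Fermat.Agent.S25.Mod

noncomputable section

variable {X Y Z : Scheme.{u}}

namespace Glue2

/-- sections over `W`, as a functor to abelian groups -/
abbrev secFunctor (X : Scheme.{u}) (W : X.Opens) : X.Modules ⥤ Ab :=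
  toPresheaf X ⋙ (evaluation _ _).obj (op W)

theorem secFunctor_map (W : X.Opens) {M N : X.Modules} (φ : M ⟶ N) :
    (secFunctor X W).map φ = φ.app W := rfl

/-- sectionwise pullback squares -/
theorem isPullback_app {M A B C : X.Modules} {a₁ : M ⟶ A} {a₂ : M ⟶ B} {f : A ⟶ C} {g : B ⟶ C}
    (sq : IsPullback a₁ a₂ f g) (W : X.Opens) :
    IsPullback (a₁.app W) (a₂.app W) (f.app W) (g.app W) :=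
  (sq.map (toPresheaf X)).map ((evaluation (TopologicalSpace.Opens X)ᵒᵖ Ab).obj (op W))

end Glue2

namespace Cover2

variable (𝒰 : Cover2 X)

theorem preimage_le_opensRange₂ {W : X.Opens} (hW : W ≤ 𝒰.j₁.opensRange) :
    𝒰.j₂ ⁻¹ᵁ W ≤ 𝒰.p₂.opensRange := by
  intro x hx
  have hx1 : 𝒰.j₂ x ∈ 𝒰.j₁.opensRange := hW hx
  have hx2 : 𝒰.j₂ x ∈ 𝒰.j₂.opensRange := ⟨x, rfl⟩
  have hx3 : 𝒰.j₂ x ∈ 𝒰.j₁₂.opensRange := by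
    rw [← 𝒰.inter]; exact ⟨hx1, hx2⟩
  obtain ⟨y, hy⟩ := hx3
  refine ⟨y, ?_⟩
  apply 𝒰.j₂.isOpenEmbedding.injective
  rw [← hy, ← 𝒰.h₂]
  rfl

theorem preimage_le_opensRange₁ {W : X.Opens} (hW : W ≤ 𝒰.j₂.opensRange) :
    𝒰.j₁ ⁻¹ᵁ W ≤ 𝒰.p₁.opensRange := by
  intro x hx
  have hx1 : 𝒰.j₁ x ∈ 𝒰.j₂.opensRange := hW hx
  have hx2 : 𝒰.j₁ x ∈ 𝒰.j₁.opensRange := ⟨x, rfl⟩
  have hx3 : 𝒰.j₁ x ∈ 𝒰.j₁₂.opensRange := by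
    rw [← 𝒰.inter]; exact ⟨hx2, hx1⟩
  obtain ⟨y, hy⟩ := hx3
  refine ⟨y, ?_⟩
  apply 𝒰.j₁.isOpenEmbedding.injective
  rw [← hy, ← 𝒰.h₁]
  rfl

theorem isIso_push₂_app {M₂ : 𝒰.X₂.Modules} {M₁₂ : 𝒰.X₁₂.Modules}
    {α₂ : M₂ ⟶ (pushforward 𝒰.p₂).obj M₁₂} (hα₂ : IsCart 𝒰.p₂ α₂) {W : X.Opens}
    (hW : W ≤ 𝒰.j₁.opensRange) : IsIso ((𝒰.push₂ α₂).app W) := by
  have h1 : IsIso (α₂.app (𝒰.j₂ ⁻¹ᵁ W)) :=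
    (isCart_iff_of_isOpenImmersion 𝒰.p₂ α₂).1 hα₂ _ (𝒰.preimage_le_opensRange₂ hW)
  have h2 : (𝒰.push₂ α₂).app W = α₂.app (𝒰.j₂ ⁻¹ᵁ W) ≫
      ((pushforwardComp 𝒰.p₂ 𝒰.j₂).hom.app M₁₂ ≫ (pushforwardCongr 𝒰.h₂).hom.app M₁₂).app W := rfl
  have h3 : IsIso (((pushforwardComp 𝒰.p₂ 𝒰.j₂).hom.app M₁₂ ≫
      (pushforwardCongr 𝒰.h₂).hom.app M₁₂).app W) := inferInstance
  rw [h2]
  exact IsIso.comp_isIso' h1 h3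

theorem isIso_push₁_app {M₁ : 𝒰.X₁.Modules} {M₁₂ : 𝒰.X₁₂.Modules}
    {α₁ : M₁ ⟶ (pushforward 𝒰.p₁).obj M₁₂} (hα₁ : IsCart 𝒰.p₁ α₁) {W : X.Opens}
    (hW : W ≤ 𝒰.j₂.opensRange) : IsIso ((𝒰.push₁ α₁).app W) := by
  have h1 : IsIso (α₁.app (𝒰.j₁ ⁻¹ᵁ W)) :=
    (isCart_iff_of_isOpenImmersion 𝒰.p₁ α₁).1 hα₁ _ (𝒰.preimage_le_opensRange₁ hW)
  have h2 : (𝒰.push₁ α₁).app W = α₁.app (𝒰.j₁ ⁻¹ᵁ W) ≫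
      ((pushforwardComp 𝒰.p₁ 𝒰.j₁).hom.app M₁₂ ≫ (pushforwardCongr 𝒰.h₁).hom.app M₁₂).app W := rfl
  have h3 : IsIso (((pushforwardComp 𝒰.p₁ 𝒰.j₁).hom.app M₁₂ ≫
      (pushforwardCongr 𝒰.h₁).hom.app M₁₂).app W) := inferInstance
  rw [h2]
  exact IsIso.comp_isIso' h1 h3

/-- KEY: in a pullback square over `push₁ α₁`, `push₂ α₂` with `α₂` cartesian the first
projection is cartesian. -/
theorem isCart_fst_of_isPullback {M : X.Modules} {M₁ : 𝒰.X₁.Modules} {M₂ : 𝒰.X₂.Modules}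
    {M₁₂ : 𝒰.X₁₂.Modules} {α₁ : M₁ ⟶ (pushforward 𝒰.p₁).obj M₁₂}
    {α₂ : M₂ ⟶ (pushforward 𝒰.p₂).obj M₁₂} {a₁ : M ⟶ (pushforward 𝒰.j₁).obj M₁}
    {a₂ : M ⟶ (pushforward 𝒰.j₂).obj M₂} (sq : IsPullback a₁ a₂ (𝒰.push₁ α₁) (𝒰.push₂ α₂))
    (hα₂ : IsCart 𝒰.p₂ α₂) : IsCart 𝒰.j₁ a₁ := by
  rw [isCart_iff_of_isOpenImmersion]
  intro W hW
  have := 𝒰.isIso_push₂_app hα₂ hW
  exact (Glue2.isPullback_app sq W).isIso_fst_of_isIso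

theorem isCart_snd_of_isPullback {M : X.Modules} {M₁ : 𝒰.X₁.Modules} {M₂ : 𝒰.X₂.Modules}
    {M₁₂ : 𝒰.X₁₂.Modules} {α₁ : M₁ ⟶ (pushforward 𝒰.p₁).obj M₁₂}
    {α₂ : M₂ ⟶ (pushforward 𝒰.p₂).obj M₁₂} {a₁ : M ⟶ (pushforward 𝒰.j₁).obj M₁}
    {a₂ : M ⟶ (pushforward 𝒰.j₂).obj M₂} (sq : IsPullback a₁ a₂ (𝒰.push₁ α₁) (𝒰.push₂ α₂))
    (hα₁ : IsCart 𝒰.p₁ α₁) : IsCart 𝒰.j₂ a₂ := by
  rw [isCart_iff_of_isOpenImmersion]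
  intro W hW
  have := 𝒰.isIso_push₁_app hα₁ hW
  exact (Glue2.isPullback_app sq W).isIso_snd_of_isIso

/-- existence of the glued module -/
theorem exists_glue {M₁ : 𝒰.X₁.Modules} {M₂ : 𝒰.X₂.Modules}
    {M₁₂ : 𝒰.X₁₂.Modules} (α₁ : M₁ ⟶ (pushforward 𝒰.p₁).obj M₁₂)
    (α₂ : M₂ ⟶ (pushforward 𝒰.p₂).obj M₁₂) (hα₁ : IsCart 𝒰.p₁ α₁) (hα₂ : IsCart 𝒰.p₂ α₂) :
    ∃ (M : X.Modules) (a₁ : M ⟶ (pushforward 𝒰.j₁).obj M₁) (a₂ : M ⟶ (pushforward 𝒰.j₂).obj M₂),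
      IsPullback a₁ a₂ (𝒰.push₁ α₁) (𝒰.push₂ α₂) ∧ IsCart 𝒰.j₁ a₁ ∧ IsCart 𝒰.j₂ a₂ := by
  have sq := IsPullback.of_hasPullback (𝒰.push₁ α₁) (𝒰.push₂ α₂)
  exact ⟨_, _, _, sq, 𝒰.isCart_fst_of_isPullback sq hα₂, 𝒰.isCart_snd_of_isPullback sq hα₁⟩

end Cover2

end

end Fermat.Agent.S25.Mod
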