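/- S25 / block M / C3 : a map of modules which is locally an isomorphism is an isomorphism. -/
import Fermat.Agent.S25.Mod.CartOpen

set_option autoImplicit false

universe u

open CategoryTheory AlgebraicGeometry AlgebraicGeometry.Scheme.Modules Opposite TopologicalSpace

namespace Fermat.Agent.S25.Mod

noncomputable section

variable {X Y Z : Scheme.{u}}

namespace LocIso

/-- naturality of a map of modules, on elements -/
theorem app_map_apply {M M' : X.Modules} (l : M ⟶ M') {W W' : X.Opens} (i : W' ⟶ W)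
    (s : Γ(M, W)) : l.app W' (M.presheaf.map i.op s) = M'.presheaf.map i.op (l.app W s) :=
  NatTrans.naturality_apply l.mapPresheaf i.op s

theorem bijective_of_isIso {M M' : X.Modules} (l : M ⟶ M') (W : X.Opens) (h : IsIso (l.app W)) :
    Function.Bijective (l.app W) :=
  (ConcreteCategory.isIso_iff_bijective (l.app W)).mp h

/-- general form: `l` is bijective on a downward closed family of opens which covers -/
theorem isIso_of_family {M M' : X.Modules} (l : M ⟶ M') (P : X.Opens → Prop)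
    (hdown : ∀ W W' : X.Opens, W' ≤ W → P W → P W')
    (hcov : ∀ W : X.Opens, W ≤ ⨆ i : {W' : X.Opens // W' ≤ W ∧ P W'}, i.1)
    (hP : ∀ W : X.Opens, P W → IsIso (l.app W)) : IsIso l := by
  rw [Hom.isIso_iff_isIso_app]
  intro W
  rw [ConcreteCategory.isIso_iff_bijective]
  let F : TopCat.Sheaf Ab X := ⟨M.presheaf, M.isSheaf⟩
  let G : TopCat.Sheaf Ab X := ⟨M'.presheaf, M'.isSheaf⟩
  let ι := {W' : X.Opens // W' ≤ W ∧ P W'}
  let Uf : ι → X.Opens := fun i => i.1
  let iUV : ∀ i : ι, Uf i ⟶ W := fun i => homOfLE i.2.1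
  have hbij : ∀ W' : X.Opens, P W' → Function.Bijective (l.app W') :=
    fun W' h => bijective_of_isIso l W' (hP W' h)
  constructor
  · intro s t hst
    refine F.eq_of_locally_eq' Uf W iUV (hcov W) s t fun i => ?_
    apply (hbij _ i.2.2).1
    change l.app (Uf i) (M.presheaf.map (iUV i).op s) = l.app (Uf i) (M.presheaf.map (iUV i).op t)
    rw [app_map_apply, app_map_apply, hst]
  · intro t
    choose sf hsf using fun i : ι => (hbij _ i.2.2).2 (M'.presheaf.map (iUV i).op t)
    have hcompat : TopCat.Presheaf.IsCompatible F.1 Uf sf := by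
      intro i j
      apply (hbij (Uf i ⊓ Uf j) (hdown _ _ inf_le_left i.2.2)).1
      change l.app (Uf i ⊓ Uf j) (M.presheaf.map (Opens.infLELeft (Uf i) (Uf j)).op (sf i)) =
        l.app (Uf i ⊓ Uf j) (M.presheaf.map (Opens.infLERight (Uf i) (Uf j)).op (sf j))
      rw [app_map_apply, app_map_apply, hsf, hsf, ← ConcreteCategory.comp_apply,
        ← ConcreteCategory.comp_apply, ← Functor.map_comp, ← Functor.map_comp]
      rfl
    obtain ⟨s, hs, -⟩ := F.existsUnique_gluing' Uf W iUV (hcov W) sf hcompat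
    refine ⟨s, ?_⟩
    refine G.eq_of_locally_eq' Uf W iUV (hcov W) _ _ fun i => ?_
    change M'.presheaf.map (iUV i).op (l.app W s) = M'.presheaf.map (iUV i).op t
    rw [← app_map_apply, ← hsf i]
    congr 1
    exact hs i

end LocIso

/-- a map of modules which is an isomorphism on all small opens is an isomorphism -/
theorem isIso_of_isIso_app_of_cover {M M' : X.Modules} (l : M ⟶ M') (U V : X.Opens)
    (hUV : U ⊔ V = ⊤) (hU : ∀ W : X.Opens, W ≤ U → IsIso (l.app W))
    (hV : ∀ W : X.Opens, W ≤ V → IsIso (l.app W)) : IsIso l := by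
  refine LocIso.isIso_of_family l (fun W => W ≤ U ∨ W ≤ V) ?_ ?_ ?_
  · rintro W W' h (h' | h')
    · exact Or.inl (h.trans h')
    · exact Or.inr (h.trans h')
  · intro W
    have h1 : W = (W ⊓ U) ⊔ (W ⊓ V) := by
      rw [← inf_sup_left, hUV, inf_top_eq]
    calc W = (W ⊓ U) ⊔ (W ⊓ V) := h1
      _ ≤ _ := sup_le
        (le_iSup (fun i : {W' : X.Opens // W' ≤ W ∧ (W' ≤ U ∨ W' ≤ V)} => i.1)
          ⟨W ⊓ U, inf_le_left, Or.inl inf_le_right⟩)
        (le_iSup (fun i : {W' : X.Opens // W' ≤ W ∧ (W' ≤ U ∨ W' ≤ V)} => i.1)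
          ⟨W ⊓ V, inf_le_left, Or.inr inf_le_right⟩)
  · rintro W (h | h)
    · exact hU W h
    · exact hV W h

theorem isIso_of_isIso_pullback_map {X₁ X₂ : Scheme.{u}} (j₁ : X₁ ⟶ X) (j₂ : X₂ ⟶ X)
    [IsOpenImmersion j₁] [IsOpenImmersion j₂] (hcov : j₁.opensRange ⊔ j₂.opensRange = ⊤)
    {M M' : X.Modules} (l : M ⟶ M') (h₁ : IsIso ((Scheme.Modules.pullback j₁).map l))
    (h₂ : IsIso ((Scheme.Modules.pullback j₂).map l)) : IsIso l :=
  isIso_of_isIso_app_of_cover l _ _ hcov ((isIso_pullback_map_iff j₁ l).mp h₁)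
    ((isIso_pullback_map_iff j₂ l).mp h₂)

end

end Fermat.Agent.S25.Mod
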