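/- S25 / block M / C8 : Mod/GlueMap.lean.  (landed by helper21 as fallback; task owner helper193) -/
import Fermat.Agent.S25.Mod.Cart
import Fermat.Agent.S25.Mod.Glue2
import Fermat.Agent.S25.Mod.LocIso

set_option autoImplicit false

universe u

open CategoryTheory AlgebraicGeometry AlgebraicGeometry.Scheme.Modules

namespace Fermat.Agent.S25.Mod

noncomputable section

variable {X Y Z : Scheme.{u}}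

namespace Cover2

variable (𝒰 : Cover2 X)

/-- converse (= the sheaf property, = gluing of morphisms): a commutative square of cartesian maps
is a pullback square. -/
theorem isPullback_of_isCart {M : X.Modules} {M₁ : 𝒰.X₁.Modules} {M₂ : 𝒰.X₂.Modules}
    {M₁₂ : 𝒰.X₁₂.Modules} {α₁ : M₁ ⟶ (pushforward 𝒰.p₁).obj M₁₂}
    {α₂ : M₂ ⟶ (pushforward 𝒰.p₂).obj M₁₂} {a₁ : M ⟶ (pushforward 𝒰.j₁).obj M₁}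
    {a₂ : M ⟶ (pushforward 𝒰.j₂).obj M₂} (w : a₁ ≫ 𝒰.push₁ α₁ = a₂ ≫ 𝒰.push₂ α₂)
    (hα₁ : IsCart 𝒰.p₁ α₁) (hα₂ : IsCart 𝒰.p₂ α₂) (ha₁ : IsCart 𝒰.j₁ a₁)
    (ha₂ : IsCart 𝒰.j₂ a₂) : IsPullback a₁ a₂ (𝒰.push₁ α₁) (𝒰.push₂ α₂) := by
  obtain ⟨P, b₁, b₂, sq, hb₁, hb₂⟩ := 𝒰.exists_glue α₁ α₂ hα₁ hα₂
  have h1 : sq.lift a₁ a₂ w ≫ b₁ = a₁ := sq.lift_fst _ _ _
  have h2 : sq.lift a₁ a₂ w ≫ b₂ = a₂ := sq.lift_snd _ _ _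
  have i1 : IsIso ((Scheme.Modules.pullback 𝒰.j₁).map (sq.lift a₁ a₂ w)) :=
    isIso_pullback_map_of_isCart hb₁ _ (by rw [h1]; exact ha₁)
  have i2 : IsIso ((Scheme.Modules.pullback 𝒰.j₂).map (sq.lift a₁ a₂ w)) :=
    isIso_pullback_map_of_isCart hb₂ _ (by rw [h2]; exact ha₂)
  have i : IsIso (sq.lift a₁ a₂ w) := isIso_of_isIso_pullback_map 𝒰.j₁ 𝒰.j₂ 𝒰.cover _ i1 i2
  exact IsPullback.of_iso sq (asIso (sq.lift a₁ a₂ w)).symm (Iso.refl _) (Iso.refl _) (Iso.refl _)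
    (by
      simp only [Iso.symm_hom, asIso_inv, Iso.refl_hom, Category.comp_id]
      rw [IsIso.eq_inv_comp, h1])
    (by
      simp only [Iso.symm_hom, asIso_inv, Iso.refl_hom, Category.comp_id]
      rw [IsIso.eq_inv_comp, h2]) (by simp) (by simp)

/-- the version with pullback functors and an isomorphism on the overlap. -/
theorem exists_glue_of_iso (M₁ : 𝒰.X₁.Modules) (M₂ : 𝒰.X₂.Modules)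
    (φ : (Scheme.Modules.pullback 𝒰.p₁).obj M₁ ≅ (Scheme.Modules.pullback 𝒰.p₂).obj M₂) :
    ∃ (M : X.Modules) (e₁ : (Scheme.Modules.pullback 𝒰.j₁).obj M ≅ M₁)
      (e₂ : (Scheme.Modules.pullback 𝒰.j₂).obj M ≅ M₂),
      coadj 𝒰.j₁ e₁.hom ≫ 𝒰.push₁ (coadj 𝒰.p₁ φ.hom) =
        coadj 𝒰.j₂ e₂.hom ≫ 𝒰.push₂ (coadj 𝒰.p₂ (𝟙 _)) := by
  obtain ⟨M, a₁, a₂, sq, ha₁, ha₂⟩ := 𝒰.exists_glue (coadj 𝒰.p₁ φ.hom)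
    (coadj 𝒰.p₂ (𝟙 ((Scheme.Modules.pullback 𝒰.p₂).obj M₂))) (isCart_coadj _ _) (isCart_coadj _ _)
  unfold IsCart at ha₁ ha₂
  refine ⟨M, asIso (adj 𝒰.j₁ a₁), asIso (adj 𝒰.j₂ a₂), ?_⟩
  simpa using sq.w

/-- gluing maps into a pushforward: `T` covered by `𝒱`, `σ : T ⟶ X`, `Q` on `T` presented by a
cartesian square. -/
theorem existsUnique_lift_pushforward {T : Scheme.{u}} (𝒱 : Cover2 T) (σ : T ⟶ X)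
    (κ₁ : 𝒱.X₁ ⟶ X) (κ₂ : 𝒱.X₂ ⟶ X) (κ₁₂ : 𝒱.X₁₂ ⟶ X) (hκ₁ : 𝒱.j₁ ≫ σ = κ₁)
    (hκ₂ : 𝒱.j₂ ≫ σ = κ₂) (hκ₁₂ : 𝒱.p₁ ≫ κ₁ = κ₁₂) (hκ₁₂' : 𝒱.p₂ ≫ κ₂ = κ₁₂)
    {M : X.Modules} {Q : T.Modules} {Q₁ : 𝒱.X₁.Modules} {Q₂ : 𝒱.X₂.Modules}
    {Q₁₂ : 𝒱.X₁₂.Modules} {d₁ : Q₁ ⟶ (pushforward 𝒱.p₁).obj Q₁₂}
    {d₂ : Q₂ ⟶ (pushforward 𝒱.p₂).obj Q₁₂} {c₁ : Q ⟶ (pushforward 𝒱.j₁).obj Q₁}
    {c₂ : Q ⟶ (pushforward 𝒱.j₂).obj Q₂} (sq : IsPullback c₁ c₂ (𝒱.push₁ d₁) (𝒱.push₂ d₂))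
    (b₁ : M ⟶ (pushforward κ₁).obj Q₁) (b₂ : M ⟶ (pushforward κ₂).obj Q₂)
    (w : comp' 𝒱.p₁ κ₁ κ₁₂ hκ₁₂ b₁ d₁ = comp' 𝒱.p₂ κ₂ κ₁₂ hκ₁₂' b₂ d₂) :
    ∃! ρ : M ⟶ (pushforward σ).obj Q,
      comp' 𝒱.j₁ σ κ₁ hκ₁ ρ c₁ = b₁ ∧ comp' 𝒱.j₂ σ κ₂ hκ₂ ρ c₂ = b₂ := by
  have hη : IsCart σ (coadj σ (𝟙 ((Scheme.Modules.pullback σ).obj M))) := isCart_coadj _ _
  set η := coadj σ (𝟙 ((Scheme.Modules.pullback σ).obj M)) with hηdef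
  obtain ⟨b₁', hb₁', u₁⟩ := hη.existsUnique_lift hκ₁ b₁
  obtain ⟨b₂', hb₂', u₂⟩ := hη.existsUnique_lift hκ₂ b₂
  have hσ₁₂ : 𝒱.j₁₂ ≫ σ = κ₁₂ := by rw [← 𝒱.h₁, Category.assoc, hκ₁, hκ₁₂]
  have hw' : b₁' ≫ 𝒱.push₁ d₁ = b₂' ≫ 𝒱.push₂ d₂ := by
    apply (hη.existsUnique_lift hσ₁₂ (comp' 𝒱.p₁ κ₁ κ₁₂ hκ₁₂ b₁ d₁)).unique
    · rw [← Cover2.comp'_eq_push₁, ← comp'_assoc 𝒱.p₁ 𝒱.j₁ σ 𝒱.j₁₂ κ₁ κ₁₂ 𝒱.h₁ hκ₁ hκ₁₂ hσ₁₂, hb₁']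
    · rw [← Cover2.comp'_eq_push₂, ← comp'_assoc 𝒱.p₂ 𝒱.j₂ σ 𝒱.j₁₂ κ₂ κ₁₂ 𝒱.h₂ hκ₂ hκ₁₂' hσ₁₂,
        hb₂', w]
  have key : ∀ ρ' : (Scheme.Modules.pullback σ).obj M ⟶ Q, coadj σ ρ' = η ≫ (pushforward σ).map ρ' := by
    intro ρ'
    rw [hηdef, ← coadj_postcomp, Category.id_comp]
  refine ⟨coadj σ (sq.lift b₁' b₂' hw'), ⟨?_, ?_⟩, ?_⟩
  · rw [key, comp'_mid, sq.lift_fst, hb₁']
  · rw [key, comp'_mid, sq.lift_snd, hb₂']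
  · rintro ρ ⟨h1, h2⟩
    apply adj_injective
    rw [adj_coadj]
    have hρ : ρ = η ≫ (pushforward σ).map (adj σ ρ) := by rw [← key, coadj_adj]
    apply sq.hom_ext
    · rw [sq.lift_fst]
      apply u₁
      rw [← comp'_mid, ← hρ, h1]
    · rw [sq.lift_snd]
      apply u₂
      rw [← comp'_mid, ← hρ, h2]

end Cover2

end

end Fermat.Agent.S25.Mod
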