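/-
S25 / block M / C9b : the glued module of normalised data is rigidified.   Owner: helper234.
-/
import Fermat.Agent.S25.Mod.GlueMap
import Fermat.Agent.S25.Mod.UnitCart

set_option autoImplicit false

universe u

open CategoryTheory AlgebraicGeometry AlgebraicGeometry.Scheme.Modules

namespace Fermat.Agent.S25.Mod

noncomputable section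

variable {X Y Z : Scheme.{u}}

namespace Rigidify

/-- the structure sheaf of `T` is presented by the cartesian square of unit maps. -/
theorem isPullback_unit {T : Scheme.{u}} (𝒱 : Cover2 T) :
    IsPullback (unitMap 𝒱.j₁) (unitMap 𝒱.j₂) (𝒱.push₁ (unitMap 𝒱.p₁))
      (𝒱.push₂ (unitMap 𝒱.p₂)) := by
  refine 𝒱.isPullback_of_isCart ?_ (isCart_unitMap _) (isCart_unitMap _) (isCart_unitMap _)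
    (isCart_unitMap _)
  rw [← Cover2.comp'_eq_push₁, ← Cover2.comp'_eq_push₂, unitMap_comp', unitMap_comp']

end Rigidify

/-- step 2: the glued module of normalised data is rigidified. -/
theorem SectionData.exists_rigidification {T : Scheme.{u}} {𝒰 : Cover2 X} {𝒱 : Cover2 T}
    (S : SectionData 𝒰 𝒱) (δ₁ : 𝒱.X₁₂ ⟶ 𝒰.X₁) (δ₂ : 𝒱.X₁₂ ⟶ 𝒰.X₂)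
    (hδ₁ : S.σ₁₂ ≫ 𝒰.p₁ = δ₁) (hδ₁' : 𝒱.p₁ ≫ S.σ₁ = δ₁)
    (hδ₂ : S.σ₁₂ ≫ 𝒰.p₂ = δ₂) (hδ₂' : 𝒱.p₂ ≫ S.σ₂ = δ₂)
    {M : X.Modules} {M₁ : 𝒰.X₁.Modules} {M₂ : 𝒰.X₂.Modules} {M₁₂ : 𝒰.X₁₂.Modules}
    (α₁ : M₁ ⟶ (pushforward 𝒰.p₁).obj M₁₂) (α₂ : M₂ ⟶ (pushforward 𝒰.p₂).obj M₁₂)
    (a₁ : M ⟶ (pushforward 𝒰.j₁).obj M₁) (a₂ : M ⟶ (pushforward 𝒰.j₂).obj M₂)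
    (w : a₁ ≫ 𝒰.push₁ α₁ = a₂ ≫ 𝒰.push₂ α₂) (ha₁ : IsCart 𝒰.j₁ a₁) (ha₂ : IsCart 𝒰.j₂ a₂)
    (ρ₁ : M₁ ⟶ (pushforward S.σ₁).obj (unitMod 𝒱.X₁))
    (ρ₂ : M₂ ⟶ (pushforward S.σ₂).obj (unitMod 𝒱.X₂))
    (hρ₁ : IsCart S.σ₁ ρ₁) (hρ₂ : IsCart S.σ₂ ρ₂)
    (β : M₁₂ ⟶ (pushforward S.σ₁₂).obj (unitMod 𝒱.X₁₂))
    (hβ₁ : comp' S.σ₁₂ 𝒰.p₁ δ₁ hδ₁ α₁ β = comp' 𝒱.p₁ S.σ₁ δ₁ hδ₁' ρ₁ (unitMap 𝒱.p₁))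
    (hβ₂ : comp' S.σ₁₂ 𝒰.p₂ δ₂ hδ₂ α₂ β = comp' 𝒱.p₂ S.σ₂ δ₂ hδ₂' ρ₂ (unitMap 𝒱.p₂)) :
    ∃ ρ : M ⟶ (pushforward S.σ).obj (unitMod T), IsCart S.σ ρ := by
  -- the structure maps to `X`
  have hκ₁₂' : 𝒱.p₂ ≫ (𝒱.j₂ ≫ S.σ) = 𝒱.p₁ ≫ (𝒱.j₁ ≫ S.σ) := by
    rw [← Category.assoc, ← Category.assoc, 𝒱.h₁, 𝒱.h₂]
  have e₁ : δ₁ ≫ 𝒰.j₁ = 𝒱.p₁ ≫ (𝒱.j₁ ≫ S.σ) := by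
    rw [← hδ₁', Category.assoc, S.sq₁]
  have e₂ : δ₂ ≫ 𝒰.j₂ = 𝒱.p₁ ≫ (𝒱.j₁ ≫ S.σ) := by
    rw [← hδ₂', Category.assoc, S.sq₂, hκ₁₂']
  have e₁₂ : S.σ₁₂ ≫ 𝒰.j₁₂ = 𝒱.p₁ ≫ (𝒱.j₁ ≫ S.σ) := by
    rw [← 𝒰.h₁, ← Category.assoc, hδ₁, e₁]
  -- the two local rigidifications
  have hb₁ : IsCart (𝒱.j₁ ≫ S.σ) (comp' S.σ₁ 𝒰.j₁ (𝒱.j₁ ≫ S.σ) S.sq₁ a₁ ρ₁) :=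
    IsCart.comp S.sq₁ ha₁ hρ₁
  have hb₂ : IsCart (𝒱.j₂ ≫ S.σ) (comp' S.σ₂ 𝒰.j₂ (𝒱.j₂ ≫ S.σ) S.sq₂ a₂ ρ₂) :=
    IsCart.comp S.sq₂ ha₂ hρ₂
  -- compatibility on the overlap
  have c₁ : comp' 𝒱.p₁ (𝒱.j₁ ≫ S.σ) (𝒱.p₁ ≫ (𝒱.j₁ ≫ S.σ)) rfl
        (comp' S.σ₁ 𝒰.j₁ (𝒱.j₁ ≫ S.σ) S.sq₁ a₁ ρ₁) (unitMap 𝒱.p₁) =
      comp' S.σ₁₂ 𝒰.j₁₂ (𝒱.p₁ ≫ (𝒱.j₁ ≫ S.σ)) e₁₂ (a₁ ≫ 𝒰.push₁ α₁) β := by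
    rw [comp'_assoc 𝒱.p₁ S.σ₁ 𝒰.j₁ δ₁ (𝒱.j₁ ≫ S.σ) (𝒱.p₁ ≫ (𝒱.j₁ ≫ S.σ)) hδ₁' S.sq₁ rfl e₁,
      ← hβ₁, ← Cover2.comp'_eq_push₁,
      comp'_assoc S.σ₁₂ 𝒰.p₁ 𝒰.j₁ δ₁ 𝒰.j₁₂ (𝒱.p₁ ≫ (𝒱.j₁ ≫ S.σ)) hδ₁ 𝒰.h₁ e₁₂ e₁]
  have c₂ : comp' 𝒱.p₂ (𝒱.j₂ ≫ S.σ) (𝒱.p₁ ≫ (𝒱.j₁ ≫ S.σ)) hκ₁₂'
        (comp' S.σ₂ 𝒰.j₂ (𝒱.j₂ ≫ S.σ) S.sq₂ a₂ ρ₂) (unitMap 𝒱.p₂) =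
      comp' S.σ₁₂ 𝒰.j₁₂ (𝒱.p₁ ≫ (𝒱.j₁ ≫ S.σ)) e₁₂ (a₂ ≫ 𝒰.push₂ α₂) β := by
    rw [comp'_assoc 𝒱.p₂ S.σ₂ 𝒰.j₂ δ₂ (𝒱.j₂ ≫ S.σ) (𝒱.p₁ ≫ (𝒱.j₁ ≫ S.σ)) hδ₂' S.sq₂ hκ₁₂' e₂,
      ← hβ₂, ← Cover2.comp'_eq_push₂,
      comp'_assoc S.σ₁₂ 𝒰.p₂ 𝒰.j₂ δ₂ 𝒰.j₁₂ (𝒱.p₁ ≫ (𝒱.j₁ ≫ S.σ)) hδ₂ 𝒰.h₂ e₁₂ e₂]
  -- glue
  obtain ⟨ρ, ⟨hρ₁', hρ₂'⟩, -⟩ := Cover2.existsUnique_lift_pushforward 𝒱 S.σ (𝒱.j₁ ≫ S.σ)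
    (𝒱.j₂ ≫ S.σ) (𝒱.p₁ ≫ (𝒱.j₁ ≫ S.σ)) rfl rfl rfl hκ₁₂' (Rigidify.isPullback_unit 𝒱)
    (comp' S.σ₁ 𝒰.j₁ (𝒱.j₁ ≫ S.σ) S.sq₁ a₁ ρ₁) (comp' S.σ₂ 𝒰.j₂ (𝒱.j₂ ≫ S.σ) S.sq₂ a₂ ρ₂)
    (by rw [c₁, c₂, w])
  refine ⟨ρ, ?_⟩
  exact isIso_of_isIso_pullback_map 𝒱.j₁ 𝒱.j₂ 𝒱.cover (adj S.σ ρ)
    (isIso_pullback_map_adj_of_comp (h := rfl) (isCart_unitMap 𝒱.j₁) (by rw [hρ₁']; exact hb₁))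
    (isIso_pullback_map_adj_of_comp (h := rfl) (isCart_unitMap 𝒱.j₂) (by rw [hρ₂']; exact hb₂))

end

end Fermat.Agent.S25.Mod
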