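/-
S25 / block M / C9c : gluing of rigidified modules over a 2-cover (abstract form).
Owner: helper21.
-/
import Fermat.Agent.S25.Mod.Normalise
import Fermat.Agent.S25.Mod.Rigidify

set_option autoImplicit false

universe u

open CategoryTheory AlgebraicGeometry AlgebraicGeometry.Scheme.Modules

namespace Fermat.Agent.S25.Mod

noncomputable section

variable {X Y Z : Scheme.{u}}

/-- MAIN abstract theorem of block M-B. -/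
theorem SectionData.exists_rigidified_glue {T : Scheme.{u}} {𝒰 : Cover2 X} {𝒱 : Cover2 T}
    (S : SectionData 𝒰 𝒱) (M₁ : 𝒰.X₁.Modules) (M₂ : 𝒰.X₂.Modules)
    (φ : (Scheme.Modules.pullback 𝒰.p₁).obj M₁ ≅ (Scheme.Modules.pullback 𝒰.p₂).obj M₂)
    (r₁ : (Scheme.Modules.pullback S.σ₁).obj M₁ ≅ unitMod 𝒱.X₁)
    (r₂ : (Scheme.Modules.pullback S.σ₂).obj M₂ ≅ unitMod 𝒱.X₂) :
    ∃ M : X.Modules, Nonempty ((Scheme.Modules.pullback 𝒰.j₁).obj M ≅ M₁) ∧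
      Nonempty ((Scheme.Modules.pullback 𝒰.j₂).obj M ≅ M₂) ∧
      Nonempty ((Scheme.Modules.pullback S.σ).obj M ≅ unitMod T) := by
  have hα₁ : IsCart 𝒰.p₁ (coadj 𝒰.p₁ φ.hom) := isCart_coadj _ _
  have hα₂ : IsCart 𝒰.p₂ (coadj 𝒰.p₂ (𝟙 ((Scheme.Modules.pullback 𝒰.p₂).obj M₂))) :=
    isCart_coadj _ _
  have hρ₁ : IsCart S.σ₁ (coadj S.σ₁ r₁.hom) := isCart_coadj _ _
  have hρ₂ : IsCart S.σ₂ (coadj S.σ₂ r₂.hom) := isCart_coadj _ _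
  obtain ⟨α₁', β, hα₁', hβ₁, hβ₂⟩ := S.exists_normalised _ _ rfl S.sqp₁.symm rfl S.sqp₂.symm
    _ _ hα₁ hα₂ _ _ hρ₁ hρ₂
  obtain ⟨M, a₁, a₂, sq, ha₁, ha₂⟩ := 𝒰.exists_glue α₁' _ hα₁' hα₂
  obtain ⟨ρ, hρ⟩ := S.exists_rigidification _ _ rfl S.sqp₁.symm rfl S.sqp₂.symm α₁' _ a₁ a₂ sq.w
    ha₁ ha₂ _ _ hρ₁ hρ₂ β hβ₁ hβ₂
  unfold IsCart at ha₁ ha₂ hρ
  exact ⟨M, ⟨asIso (adj 𝒰.j₁ a₁)⟩, ⟨asIso (adj 𝒰.j₂ a₂)⟩, ⟨asIso (adj S.σ ρ)⟩⟩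

end

end Fermat.Agent.S25.Mod
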