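/-
S25, block M-A, node A2 (`Mod/Bridge.lean`).  Owner: helper159.

* `rigSection_snd`               : the rigidifying section is a section of the projection.
* (`isOpenImmersion_baseChangeSnd`: base change of an open of the base is an open immersion;
   this instance lives in `Mod/Geom.lean`, imported here) ...
* `opensRange_baseChangeSnd`     : ... with range the preimage of that open.
* `PiStar.exists_app_eq`         : `PiStar` on all opens of the base.
-/
import Fermat.Agent.S25.GeomSpec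
import Fermat.Agent.S25.Mod.Geom

set_option autoImplicit false

universe u

open CategoryTheory CategoryTheory.Limits AlgebraicGeometry AlgebraicGeometry.RelPicard
  NeronModelInfra TopologicalSpace

noncomputable section

namespace Fermat.Agent.S25.Mod

section bridge

variable {k : Type u} [Field k] {C : Scheme.{u}} (c : C ⟶ Spec (CommRingCat.of k))
  (ε : SchemeHomOver (𝟙 (Spec (CommRingCat.of k))) c) {T : Scheme.{u}}
  (t : T ⟶ Spec (CommRingCat.of k))

theorem rigSection_snd : rigSection c t ε ≫ pullback.snd c t = 𝟙 T := by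
  unfold rigSection
  exact pullback.lift_snd _ _ _

theorem baseChangeSnd_opensHom_fst (U : T.Opens) :
    baseChangeSnd c (opensHom t U) ≫ pullback.fst c t = pullback.fst c (U.ι ≫ t) := by
  unfold baseChangeSnd
  rw [pullback.lift_fst, Category.comp_id]

theorem baseChangeSnd_opensHom_snd (U : T.Opens) :
    baseChangeSnd c (opensHom t U) ≫ pullback.snd c t = pullback.snd c (U.ι ≫ t) ≫ U.ι := by
  unfold baseChangeSnd
  rw [pullback.lift_snd]
  rfl

/- The instance `IsOpenImmersion (baseChangeSnd c (opensHom t U))` is provided by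
`Mod/Geom.lean` (`isOpenImmersion_baseChangeSnd`, stated there for every open immersion of the
base); the name is therefore not redeclared here. -/
example (U : T.Opens) : IsOpenImmersion (baseChangeSnd c (opensHom t U)) := inferInstance

theorem opensRange_baseChangeSnd (U : T.Opens) :
    (baseChangeSnd c (opensHom t U)).opensRange = pullback.snd c t ⁻¹ᵁ U :=
  opensRange_baseChangeSnd_opensHom c t U

theorem exists_app_eq_of_isOpenImmersion {P P' T : Scheme.{u}} (π : P ⟶ T) (U : T.Opens)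
    (π' : P' ⟶ U.toScheme) (b : P' ⟶ P) [IsOpenImmersion b] (hcomm : b ≫ π = π' ≫ U.ι)
    (hrange : b.opensRange = π ⁻¹ᵁ U) (hsurj : Function.Surjective π'.appTop)
    (a : Γ(P, π ⁻¹ᵁ U)) : ∃ a' : Γ(T, U), π.app U a' = a := by
  have e : (⊤ : P'.Opens) ≤ b ⁻¹ᵁ (π ⁻¹ᵁ U) := by
    rw [← hrange]
    intro x _
    exact ⟨x, rfl⟩
  have hiso : IsIso (b.appLE (π ⁻¹ᵁ U) ⊤ e) := by
    have h1 := b.isIso_app (π ⁻¹ᵁ U) hrange.ge
    have h2 : IsIso (homOfLE e) := ⟨homOfLE le_top, rfl, rfl⟩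
    unfold Scheme.Hom.appLE
    infer_instance
  obtain ⟨a0, ha0⟩ := hsurj (b.appLE (π ⁻¹ᵁ U) ⊤ e a)
  refine ⟨U.topIso.hom a0, ?_⟩
  have hinj : Function.Injective (b.appLE (π ⁻¹ᵁ U) ⊤ e) :=
    (ConcreteCategory.bijective_of_isIso _).1
  apply hinj
  rw [← ha0]
  have e' : (⊤ : P'.Opens) ≤ (b ≫ π) ⁻¹ᵁ U := e
  have e'' : (⊤ : P'.Opens) ≤ (π' ≫ U.ι) ⁻¹ᵁ U := hcomm ▸ e'
  have k1 : π.app U ≫ b.appLE (π ⁻¹ᵁ U) ⊤ e = (b ≫ π).appLE U ⊤ e' :=
    (Scheme.Hom.comp_appLE b π U ⊤ e').symm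
  have k2 : (b ≫ π).appLE U ⊤ e' = (π' ≫ U.ι).appLE U ⊤ e'' := by
    congr 1
  have k3 : (π' ≫ U.ι).appLE U ⊤ e'' = U.topIso.inv ≫ π'.appTop := by
    have e3 : (⊤ : U.toScheme.Opens) ≤ U.ι ⁻¹ᵁ U := by
      intro x _
      exact x.2
    rw [← Scheme.Hom.appLE_comp_appLE π' U.ι U ⊤ ⊤ e3 le_top]
    congr 1
    · simp [Scheme.Opens.topIso]
      rfl
    · exact Scheme.Hom.appLE_eq_app π'
  have key : U.topIso.hom ≫ π.app U ≫ b.appLE (π ⁻¹ᵁ U) ⊤ e = π'.appTop := by
    rw [k1, k2, k3, Iso.hom_inv_id_assoc]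
  have := congrArg (fun f => f a0) key
  simpa only [CommRingCat.comp_apply] using this

theorem PiStar.exists_app_eq (h : PiStar c) (U : T.Opens)
    (a : Γ(pullback c t, pullback.snd c t ⁻¹ᵁ U)) :
    ∃ a' : Γ(T, U), (pullback.snd c t).app U a' = a :=
  exists_app_eq_of_isOpenImmersion (pullback.snd c t) U (pullback.snd c (U.ι ≫ t))
    (baseChangeSnd c (opensHom t U)) (baseChangeSnd_opensHom_snd c t U)
    (opensRange_baseChangeSnd c t U) (h (U.ι ≫ t)).2 a

end bridge

end Fermat.Agent.S25.Mod
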