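/-
S25, block M: section-level local homomorphisms of sheaves of modules on a scheme.
Owner: helper168.

`LocHom M N V` is a homomorphism `M|_V ⟶ N|_V` given by its action on the sections over all
opens `W ≤ V`.  They restrict, compose, glue; `LocHom M N ⊤` is the same as `M ⟶ N`.
-/
import Mathlib

set_option autoImplicit false

universe u

open CategoryTheory AlgebraicGeometry TopologicalSpace

noncomputable section

namespace Fermat.Agent.S25.Mod

variable {X : Scheme.{u}}

/-- restriction of sections of a module -/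
noncomputable abbrev res (M : X.Modules) {W' W : X.Opens} (h : W' ≤ W) (x : Γ(M, W)) : Γ(M, W') :=
  M.presheaf.map (homOfLE h).op x

/-- restriction of functions -/
noncomputable abbrev resO {W' W : X.Opens} (h : W' ≤ W) (x : Γ(X, W)) : Γ(X, W') :=
  X.presheaf.map (homOfLE h).op x

section res

variable (M : X.Modules)

@[simp] lemma res_self {W : X.Opens} (h : W ≤ W) (x : Γ(M, W)) : res M h x = x := by
  simp [res]

@[simp] lemma res_res {W'' W' W : X.Opens} (h' : W'' ≤ W') (h : W' ≤ W) (x : Γ(M, W)) :
    res M h' (res M h x) = res M (h'.trans h) x := by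
  have : (homOfLE (h'.trans h)).op = (homOfLE h).op ≫ (homOfLE h').op := rfl
  simp [res, this]

@[simp] lemma resO_self {W : X.Opens} (h : W ≤ W) (x : Γ(X, W)) : resO h x = x := by
  simp [resO]

@[simp] lemma resO_resO {W'' W' W : X.Opens} (h' : W'' ≤ W') (h : W' ≤ W) (x : Γ(X, W)) :
    resO h' (resO h x) = resO (h'.trans h) x := by
  have : (homOfLE (h'.trans h)).op = (homOfLE h).op ≫ (homOfLE h').op := rfl
  simp [resO, this]

lemma res_smul {W' W : X.Opens} (h : W' ≤ W) (a : Γ(X, W)) (x : Γ(M, W)) :
    res M h (a • x) = resO h a • res M h x :=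
  Scheme.Modules.map_smul M (homOfLE h) a x

lemma res_add {W' W : X.Opens} (h : W' ≤ W) (x y : Γ(M, W)) :
    res M h (x + y) = res M h x + res M h y := map_add _ _ _

lemma res_zero {W' W : X.Opens} (h : W' ≤ W) : res M h (0 : Γ(M, W)) = 0 := map_zero _

/-- sections are determined locally -/
lemma section_ext {J : Type*} {W : X.Opens} (V : J → X.Opens) (hle : ∀ j, V j ≤ W)
    (hV : W ≤ ⨆ j, V j) (x y : Γ(M, W)) (h : ∀ j, res M (hle j) x = res M (hle j) y) : x = y :=
  TopCat.Sheaf.eq_of_locally_eq' ⟨M.presheaf, M.isSheaf⟩ V W (fun j => homOfLE (hle j)) hV x y h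

/-- sections glue -/
lemma section_glue {J : Type*} {W : X.Opens} (V : J → X.Opens) (hle : ∀ j, V j ≤ W)
    (hV : W ≤ ⨆ j, V j) (x : ∀ j, Γ(M, V j))
    (h : ∀ i j, res M (inf_le_left : V i ⊓ V j ≤ V i) (x i) =
      res M (inf_le_right : V i ⊓ V j ≤ V j) (x j)) :
    ∃ y : Γ(M, W), ∀ j, res M (hle j) y = x j := by
  obtain ⟨y, hy, -⟩ := TopCat.Sheaf.existsUnique_gluing' ⟨M.presheaf, M.isSheaf⟩ V W
    (fun j => homOfLE (hle j)) hV x h
  exact ⟨y, hy⟩

/-- functions are determined locally -/
lemma function_ext {J : Type*} {W : X.Opens} (V : J → X.Opens) (hle : ∀ j, V j ≤ W)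
    (hV : W ≤ ⨆ j, V j) (x y : Γ(X, W)) (h : ∀ j, resO (hle j) x = resO (hle j) y) : x = y :=
  TopCat.Sheaf.eq_of_locally_eq' X.sheaf V W (fun j => homOfLE (hle j)) hV x y h

/-- functions glue -/
lemma function_glue {J : Type*} {W : X.Opens} (V : J → X.Opens) (hle : ∀ j, V j ≤ W)
    (hV : W ≤ ⨆ j, V j) (x : ∀ j, Γ(X, V j))
    (h : ∀ i j, resO (inf_le_left : V i ⊓ V j ≤ V i) (x i) =
      resO (inf_le_right : V i ⊓ V j ≤ V j) (x j)) :
    ∃ y : Γ(X, W), ∀ j, resO (hle j) y = x j := by
  obtain ⟨y, hy, -⟩ := TopCat.Sheaf.existsUnique_gluing' X.sheaf V W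
    (fun j => homOfLE (hle j)) hV x h
  exact ⟨y, hy⟩

end res

/-- A homomorphism `M|_V ⟶ N|_V`, given on sections. -/
@[ext]
structure LocHom (M N : X.Modules) (V : X.Opens) where
  app : ∀ W : X.Opens, W ≤ V → (Γ(M, W) →+ Γ(N, W))
  nat : ∀ (W W' : X.Opens) (h : W ≤ V) (h' : W' ≤ W) (x : Γ(M, W)),
    res N h' (app W h x) = app W' (h'.trans h) (res M h' x)
  smul : ∀ (W : X.Opens) (h : W ≤ V) (a : Γ(X, W)) (x : Γ(M, W)),
    app W h (a • x) = a • app W h x

namespace LocHom

variable {M N P : X.Modules} {V V' : X.Opens}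

lemma ext' {f g : LocHom M N V} (h : ∀ W hW x, f.app W hW x = g.app W hW x) : f = g := by
  ext W hW x
  exact h W hW x

/-- identity -/
def id (M : X.Modules) (V : X.Opens) : LocHom M M V where
  app _ _ := AddMonoidHom.id _
  nat _ _ _ _ _ := rfl
  smul _ _ _ _ := rfl

@[simp] lemma id_app (W : X.Opens) (h : W ≤ V) (x : Γ(M, W)) : (id M V).app W h x = x := rfl

/-- composition (diagrammatic order) -/
def comp (f : LocHom M N V) (g : LocHom N P V) : LocHom M P V where
  app W h := (g.app W h).comp (f.app W h)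
  nat W W' h h' x := by
    simp only [AddMonoidHom.comp_apply]
    rw [g.nat, f.nat]
  smul W h a x := by
    simp only [AddMonoidHom.comp_apply]
    rw [f.smul, g.smul]

@[simp] lemma comp_app (f : LocHom M N V) (g : LocHom N P V) (W : X.Opens) (h : W ≤ V)
    (x : Γ(M, W)) : (f.comp g).app W h x = g.app W h (f.app W h x) := rfl

/-- restriction to a smaller open -/
def restrict (f : LocHom M N V) (hV : V' ≤ V) : LocHom M N V' where
  app W h := f.app W (h.trans hV)
  nat W W' h h' x := f.nat W W' _ h' x
  smul W h a x := f.smul W _ a x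

@[simp] lemma restrict_app (f : LocHom M N V) (hV : V' ≤ V) (W : X.Opens) (h : W ≤ V')
    (x : Γ(M, W)) : (f.restrict hV).app W h x = f.app W (h.trans hV) x := rfl

/-- multiplication by a function -/
noncomputable def smulFun (a : Γ(X, V)) (f : LocHom M N V) : LocHom M N V where
  app W h :=
    { toFun := fun x => resO h a • f.app W h x
      map_zero' := by simp
      map_add' := fun x y => by simp [smul_add] }
  nat W W' h h' x := by
    simp only [AddMonoidHom.coe_mk, ZeroHom.coe_mk]
    rw [res_smul, f.nat, resO_resO]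
  smul W h b x := by
    simp only [AddMonoidHom.coe_mk, ZeroHom.coe_mk]
    rw [f.smul, smul_smul, smul_smul, mul_comm]

@[simp] lemma smulFun_app (a : Γ(X, V)) (f : LocHom M N V) (W : X.Opens) (h : W ≤ V)
    (x : Γ(M, W)) : (smulFun a f).app W h x = resO h a • f.app W h x := rfl

/-- a global homomorphism gives a local one -/
noncomputable def ofHom (f : M ⟶ N) (V : X.Opens) : LocHom M N V where
  app W _ := (f.app W).hom
  nat W W' h h' x := by
    have := congr($(f.mapPresheaf.naturality (homOfLE h').op) x)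
    simpa using this.symm
  smul W h a x := Scheme.Modules.Hom.app_smul f a x

@[simp] lemma ofHom_app (f : M ⟶ N) (W : X.Opens) (h : W ≤ V) (x : Γ(M, W)) :
    (ofHom f V).app W h x = f.app W x := rfl

/-- a local homomorphism on the whole space is a homomorphism -/
noncomputable def toHom (f : LocHom M N ⊤) : M ⟶ N :=
  ⟨PresheafOfModules.homMk
    { app := fun W => AddCommGrpCat.ofHom (f.app W.unop le_top)
      naturality := fun W W' i => by
        ext x
        exact (f.nat W.unop W'.unop le_top (leOfHom i.unop) x).symm }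
    (fun W a x => f.smul W.unop le_top a x)⟩

@[simp] lemma toHom_app (f : LocHom M N ⊤) (W : X.Opens) (x : Γ(M, W)) :
    f.toHom.app W x = f.app W le_top x := rfl

lemma ofHom_toHom (f : LocHom M N ⊤) : ofHom f.toHom ⊤ = f := rfl

lemma toHom_ofHom (f : M ⟶ N) : (ofHom f ⊤).toHom = f := by
  ext W x
  rfl

lemma toHom_id : (id M ⊤).toHom = 𝟙 M := by
  ext W x
  rfl

lemma toHom_comp (f : LocHom M N ⊤) (g : LocHom N P ⊤) :
    (f.comp g).toHom = f.toHom ≫ g.toHom := by
  ext W x
  rfl

/-- local homomorphisms are determined locally -/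
lemma ext_of_cover {J : Type*} (U : J → X.Opens) (hU : V ≤ ⨆ j, U j) {f g : LocHom M N V}
    (h : ∀ j, f.restrict (inf_le_left : V ⊓ U j ≤ V) = g.restrict inf_le_left) : f = g := by
  apply ext'
  intro W hW x
  apply section_ext N (fun j => W ⊓ U j) (fun j => inf_le_left)
  · rw [← inf_iSup_eq]
    exact le_inf le_rfl (hW.trans hU)
  · intro j
    rw [f.nat, g.nat]
    have := congr(($(h j)).app (W ⊓ U j) (inf_le_inf_right _ hW) (res M inf_le_left x))
    simpa using this

section glue

variable {J : Type*} (U : J → X.Opens) (f : ∀ j, LocHom M N (U j))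
  (hf : ∀ i j, (f i).restrict (inf_le_left : U i ⊓ U j ≤ U i) = (f j).restrict inf_le_right)

include hf in
lemma glue_aux (W : X.Opens) (hW : W ≤ ⨆ j, U j) (x : Γ(M, W)) :
    ∃! y : Γ(N, W), ∀ j, res N (inf_le_left : W ⊓ U j ≤ W) y =
      (f j).app (W ⊓ U j) inf_le_right (res M inf_le_left x) := by
  have hcov : W ≤ ⨆ j, W ⊓ U j := by
    rw [← inf_iSup_eq]
    exact le_inf le_rfl hW
  obtain ⟨y, hy⟩ := section_glue N (fun j => W ⊓ U j) (fun j => inf_le_left) hcov
    (fun j => (f j).app (W ⊓ U j) inf_le_right (res M inf_le_left x)) (by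
      intro i j
      rw [(f i).nat, (f j).nat, res_res, res_res]
      have := congr(($(hf i j)).app ((W ⊓ U i) ⊓ (W ⊓ U j))
        (le_inf (inf_le_left.trans inf_le_right) (inf_le_right.trans inf_le_right))
        (res M (inf_le_left.trans inf_le_left) x))
      simpa using this)
  refine ⟨y, hy, fun y' hy' => ?_⟩
  apply section_ext N (fun j => W ⊓ U j) (fun j => inf_le_left) hcov
  intro j
  rw [hy j, hy' j]

/-- gluing of local homomorphisms -/
def glue : LocHom M N (⨆ j, U j) where
  app W hW :=
    { toFun := fun x => (glue_aux U f hf W hW x).choose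
      map_zero' := by
        symm
        apply (glue_aux U f hf W hW 0).choose_spec.2
        intro j
        simp
      map_add' := fun x y => by
        symm
        apply (glue_aux U f hf W hW (x + y)).choose_spec.2
        intro j
        rw [res_add, res_add, map_add, (glue_aux U f hf W hW x).choose_spec.1 j,
          (glue_aux U f hf W hW y).choose_spec.1 j] }
  nat W W' hW h' x := by
    simp only [AddMonoidHom.coe_mk, ZeroHom.coe_mk]
    apply (glue_aux U f hf W' (h'.trans hW) (res M h' x)).choose_spec.2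
    intro j
    rw [res_res]
    have h1 := (glue_aux U f hf W hW x).choose_spec.1 j
    have h2 := congr(res N (inf_le_inf_right (U j) h') $h1)
    rw [res_res, (f j).nat, res_res] at h2
    rw [res_res]
    exact h2
  smul W hW a x := by
    simp only [AddMonoidHom.coe_mk, ZeroHom.coe_mk]
    symm
    apply (glue_aux U f hf W hW (a • x)).choose_spec.2
    intro j
    rw [res_smul, res_smul, (f j).smul, (glue_aux U f hf W hW x).choose_spec.1 j]

lemma glue_spec (W : X.Opens) (hW : W ≤ ⨆ j, U j) (x : Γ(M, W)) (j : J) :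
    res N (inf_le_left : W ⊓ U j ≤ W) ((glue U f hf).app W hW x) =
      (f j).app (W ⊓ U j) inf_le_right (res M inf_le_left x) :=
  (glue_aux U f hf W hW x).choose_spec.1 j

lemma glue_restrict (j : J) : (glue U f hf).restrict (le_iSup U j) = f j := by
  apply ext'
  intro W hW x
  have h1 := glue_spec U f hf W (hW.trans (le_iSup U j)) x j
  have h2 := congr(res N (le_inf le_rfl hW : W ≤ W ⊓ U j) $h1)
  rw [res_res, (f j).nat, res_res, res_self, res_self] at h2
  exact h2

end glue

section ofRestrict

variable {Y : Scheme.{u}}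

lemma image_preimage_of_le (b : Y ⟶ X) [IsOpenImmersion b] {W : X.Opens} (h : W ≤ b.opensRange) :
    b ''ᵁ (b ⁻¹ᵁ W) = W := by
  rw [Scheme.Hom.image_preimage_eq_opensRange_inf]
  exact inf_eq_right.mpr h

/-- sections of a restriction, seen as sections of the module -/
def toImg (b : Y ⟶ X) [IsOpenImmersion b] (M : X.Modules) {U : Y.Opens}
    (x : Γ(M.restrict b, U)) : Γ(M, b ''ᵁ U) := x

/-- sections of the module, seen as sections of a restriction -/
def ofImg (b : Y ⟶ X) [IsOpenImmersion b] (M : X.Modules) {U : Y.Opens}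
    (x : Γ(M, b ''ᵁ U)) : Γ(M.restrict b, U) := x

section
variable (b : Y ⟶ X) [IsOpenImmersion b] (M : X.Modules) {U U' : Y.Opens}

@[simp] lemma toImg_ofImg (x : Γ(M, b ''ᵁ U)) : toImg b M (ofImg b M x) = x := rfl
@[simp] lemma ofImg_toImg (x : Γ(M.restrict b, U)) : ofImg b M (toImg b M x) = x := rfl
lemma toImg_add (x y : Γ(M.restrict b, U)) : toImg b M (x + y) = toImg b M x + toImg b M y := rfl
lemma ofImg_add (x y : Γ(M, b ''ᵁ U)) : ofImg b M (x + y) = ofImg b M x + ofImg b M y := rfl
lemma toImg_zero : toImg b M (0 : Γ(M.restrict b, U)) = 0 := rfl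
lemma ofImg_zero : ofImg b M (0 : Γ(M, b ''ᵁ U)) = 0 := rfl
lemma toImg_res (h : U' ≤ U) (x : Γ(M.restrict b, U)) :
    toImg b M (res (M.restrict b) h x) = res M (b.image_mono h) (toImg b M x) := rfl
lemma ofImg_res (h : U' ≤ U) (x : Γ(M, b ''ᵁ U)) :
    ofImg b M (res M (b.image_mono h) x) = res (M.restrict b) h (ofImg b M x) := rfl
lemma toImg_smul (r : Γ(Y, U)) (x : Γ(M.restrict b, U)) :
    toImg b M (r • x) = (b.appIso U).inv r • toImg b M x := rfl
lemma ofImg_smul (r : Γ(X, b ''ᵁ U)) (x : Γ(M, b ''ᵁ U)) :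
    ofImg b M (r • x) = (b.appIso U).hom r • ofImg b M x := by
  apply_fun toImg b M using (fun _ _ h => h)
  rw [toImg_smul]
  simp
end

/-- a homomorphism between restrictions along an open immersion gives a local homomorphism on the
range. -/
def ofRestrict (b : Y ⟶ X) [IsOpenImmersion b] (g : M.restrict b ⟶ N.restrict b) :
    LocHom M N b.opensRange where
  app W h :=
    { toFun := fun x => res N (image_preimage_of_le b h).ge
        (toImg b N (g.app (b ⁻¹ᵁ W) (ofImg b M (res M (image_preimage_of_le b h).le x))))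
      map_zero' := by
        rw [res_zero, ofImg_zero, map_zero, toImg_zero, res_zero]
      map_add' := fun x y => by
        rw [res_add, ofImg_add, map_add, toImg_add, res_add] }
  nat W W' h h' x := by
    simp only [AddMonoidHom.coe_mk, ZeroHom.coe_mk]
    have hpre : b ⁻¹ᵁ W' ≤ b ⁻¹ᵁ W := b.preimage_mono h'
    have h1 := (ofHom g ⊤).nat (b ⁻¹ᵁ W) (b ⁻¹ᵁ W') le_top hpre
      (ofImg b M (res M (image_preimage_of_le b h).le x))
    simp only [ofHom_app] at h1
    rw [← ofImg_res, res_res] at h1
    rw [res_res, res_res]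
    have h2 := congr(res N (image_preimage_of_le b (h'.trans h)).ge (toImg b N $h1))
    rw [toImg_res, res_res] at h2
    exact h2
  smul W h a x := by
    simp only [AddMonoidHom.coe_mk, ZeroHom.coe_mk]
    rw [res_smul, ofImg_smul, Scheme.Modules.Hom.app_smul, toImg_smul, res_smul]
    congr 1
    simp

@[simp] lemma ofRestrict_app (b : Y ⟶ X) [IsOpenImmersion b] (g : M.restrict b ⟶ N.restrict b)
    (W : X.Opens) (h : W ≤ b.opensRange) (x : Γ(M, W)) :
    (ofRestrict b g).app W h x = res N (image_preimage_of_le b h).ge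
        (toImg b N (g.app (b ⁻¹ᵁ W) (ofImg b M (res M (image_preimage_of_le b h).le x)))) := rfl

lemma ofRestrict_id (b : Y ⟶ X) [IsOpenImmersion b] :
    ofRestrict b (𝟙 (M.restrict b)) = id M b.opensRange := by
  apply ext'
  intro W h x
  simp

lemma ofRestrict_comp (b : Y ⟶ X) [IsOpenImmersion b] (g : M.restrict b ⟶ N.restrict b)
    (g' : N.restrict b ⟶ P.restrict b) :
    ofRestrict b (g ≫ g') = (ofRestrict b g).comp (ofRestrict b g') := by
  apply ext'
  intro W h x
  simp


end ofRestrict

end LocHom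

/-- An isomorphism `M|_V ≅ N|_V`, given on sections. -/
structure LocIso (M N : X.Modules) (V : X.Opens) where
  hom : LocHom M N V
  inv : LocHom N M V
  hom_inv : hom.comp inv = LocHom.id M V
  inv_hom : inv.comp hom = LocHom.id N V

namespace LocIso

variable {M N P : X.Modules} {V V' : X.Opens} {Y : Scheme.{u}}

/-- the inverse -/
def symm (e : LocIso M N V) : LocIso N M V := ⟨e.inv, e.hom, e.inv_hom, e.hom_inv⟩

/-- restriction -/
def restrict (e : LocIso M N V) (h : V' ≤ V) : LocIso M N V' where
  hom := e.hom.restrict h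
  inv := e.inv.restrict h
  hom_inv := by
    have := congr(LocHom.restrict $(e.hom_inv) h)
    exact this
  inv_hom := by
    have := congr(LocHom.restrict $(e.inv_hom) h)
    exact this

@[simp] lemma inv_hom_app (e : LocIso M N V) (W : X.Opens) (h : W ≤ V) (x : Γ(N, W)) :
    e.hom.app W h (e.inv.app W h x) = x :=
  congr(($(e.inv_hom)).app W h x)

@[simp] lemma hom_inv_app (e : LocIso M N V) (W : X.Opens) (h : W ≤ V) (x : Γ(M, W)) :
    e.inv.app W h (e.hom.app W h x) = x :=
  congr(($(e.hom_inv)).app W h x)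

/-- an isomorphism of restrictions along an open immersion gives a local isomorphism -/
def ofRestrictIso (b : Y ⟶ X) [IsOpenImmersion b] (e : M.restrict b ≅ N.restrict b) :
    LocIso M N b.opensRange where
  hom := LocHom.ofRestrict b e.hom
  inv := LocHom.ofRestrict b e.inv
  hom_inv := by rw [← LocHom.ofRestrict_comp, e.hom_inv_id, LocHom.ofRestrict_id]
  inv_hom := by rw [← LocHom.ofRestrict_comp, e.inv_hom_id, LocHom.ofRestrict_id]

/-- an isomorphism of pullbacks along an open immersion gives a local isomorphism -/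
def ofPullbackIso (b : Y ⟶ X) [IsOpenImmersion b]
    (e : (Scheme.Modules.pullback b).obj M ≅ (Scheme.Modules.pullback b).obj N) :
    LocIso M N b.opensRange :=
  ofRestrictIso b ((Scheme.Modules.restrictFunctorIsoPullback b).app M ≪≫ e ≪≫
    ((Scheme.Modules.restrictFunctorIsoPullback b).app N).symm)

/-- a local isomorphism on the whole space is an isomorphism -/
def toIso (e : LocIso M N ⊤) : M ≅ N where
  hom := e.hom.toHom
  inv := e.inv.toHom
  hom_inv_id := by rw [← LocHom.toHom_comp, e.hom_inv, LocHom.toHom_id]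
  inv_hom_id := by rw [← LocHom.toHom_comp, e.inv_hom, LocHom.toHom_id]

/-- an isomorphism gives a local isomorphism -/
def ofIso (e : M ≅ N) (V : X.Opens) : LocIso M N V where
  hom := LocHom.ofHom e.hom V
  inv := LocHom.ofHom e.inv V
  hom_inv := by
    apply LocHom.ext'
    intro W h x
    have h1 : (e.hom ≫ e.inv).app W x = (𝟙 M : M ⟶ M).app W x := by rw [e.hom_inv_id]
    exact h1
  inv_hom := by
    apply LocHom.ext'
    intro W h x
    have h1 : (e.inv ≫ e.hom).app W x = (𝟙 N : N ⟶ N).app W x := by rw [e.inv_hom_id]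
    exact h1

end LocIso

end Fermat.Agent.S25.Mod
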