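/-
S25, block M: the structure sheaf as a module, sections of pushforwards, generators.
Definitions + `rfl`-lemmas.  Owner: helper168.
-/
import Fermat.Agent.S25.Mod.LocHom

set_option autoImplicit false

universe u

open CategoryTheory AlgebraicGeometry TopologicalSpace

noncomputable section

namespace Fermat.Agent.S25.Mod

variable {X T : Scheme.{u}}

/-- the structure sheaf as a module -/
abbrev OO (T : Scheme.{u}) : T.Modules := SheafOfModules.unit T.ringCatSheaf

/-- sections of the structure sheaf (as a module) are functions -/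
def toFn {U : T.Opens} (x : Γ(OO T, U)) : Γ(T, U) := x

/-- functions are sections of the structure sheaf (as a module) -/
def ofFn {U : T.Opens} (x : Γ(T, U)) : Γ(OO T, U) := x

section
variable {U U' : T.Opens}
@[simp] lemma toFn_ofFn (x : Γ(T, U)) : toFn (ofFn x) = x := rfl
@[simp] lemma ofFn_toFn (x : Γ(OO T, U)) : ofFn (toFn x) = x := rfl
lemma toFn_injective : Function.Injective (toFn (U := U)) := fun _ _ h => h
lemma ofFn_injective : Function.Injective (ofFn (U := U)) := fun _ _ h => h
lemma toFn_smul (a : Γ(T, U)) (x : Γ(OO T, U)) : toFn (a • x) = a * toFn x := rfl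
lemma ofFn_mul (a x : Γ(T, U)) : ofFn (a * x) = a • ofFn x := rfl
lemma toFn_add (x y : Γ(OO T, U)) : toFn (x + y) = toFn x + toFn y := rfl
lemma ofFn_add (x y : Γ(T, U)) : ofFn (x + y) = ofFn x + ofFn y := rfl
lemma toFn_zero : toFn (0 : Γ(OO T, U)) = 0 := rfl
lemma ofFn_zero : ofFn (0 : Γ(T, U)) = 0 := rfl
lemma toFn_res (h : U' ≤ U) (x : Γ(OO T, U)) : toFn (res (OO T) h x) = resO h (toFn x) := rfl
lemma ofFn_resO (h : U' ≤ U) (x : Γ(T, U)) : ofFn (resO h x) = res (OO T) h (ofFn x) := rfl
end

section push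
variable (s : T ⟶ X) (N : T.Modules) {W W' : X.Opens}

/-- sections of a pushforward -/
def toPre (x : Γ((Scheme.Modules.pushforward s).obj N, W)) : Γ(N, s ⁻¹ᵁ W) := x

/-- sections of a pushforward -/
def ofPre (x : Γ(N, s ⁻¹ᵁ W)) : Γ((Scheme.Modules.pushforward s).obj N, W) := x

@[simp] lemma toPre_ofPre (x : Γ(N, s ⁻¹ᵁ W)) : toPre s N (ofPre s N x) = x := rfl
@[simp] lemma ofPre_toPre (x : Γ((Scheme.Modules.pushforward s).obj N, W)) :
    ofPre s N (toPre s N x) = x := rfl
lemma toPre_injective : Function.Injective (toPre s N (W := W)) := fun _ _ h => h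
lemma toPre_smul (a : Γ(X, W)) (x : Γ((Scheme.Modules.pushforward s).obj N, W)) :
    toPre s N (a • x) = s.app W a • toPre s N x := rfl
lemma toPre_add (x y : Γ((Scheme.Modules.pushforward s).obj N, W)) :
    toPre s N (x + y) = toPre s N x + toPre s N y := rfl
lemma ofPre_add (x y : Γ(N, s ⁻¹ᵁ W)) : ofPre s N (x + y) = ofPre s N x + ofPre s N y := rfl
lemma toPre_zero : toPre s N (0 : Γ((Scheme.Modules.pushforward s).obj N, W)) = 0 := rfl
lemma ofPre_zero : ofPre s N (0 : Γ(N, s ⁻¹ᵁ W)) = 0 := rfl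
lemma toPre_res (h : W' ≤ W) (x : Γ((Scheme.Modules.pushforward s).obj N, W)) :
    toPre s N (res _ h x) = res N (s.preimage_mono h) (toPre s N x) := rfl
lemma ofPre_res (h : W' ≤ W) (x : Γ(N, s ⁻¹ᵁ W)) :
    ofPre s N (res N (s.preimage_mono h) x) = res _ h (ofPre s N x) := rfl
lemma ofPre_smul (a : Γ(X, W)) (x : Γ(N, s ⁻¹ᵁ W)) :
    ofPre s N (s.app W a • x) = a • ofPre s N x := rfl

variable {s N} {M : X.Modules} {V : X.Opens}

/-- multiplication of a local homomorphism into a pushforward by a function on the source of `s` -/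
def LocHom.mulT (u : Γ(T, s ⁻¹ᵁ V)) (l : LocHom M ((Scheme.Modules.pushforward s).obj N) V) :
    LocHom M ((Scheme.Modules.pushforward s).obj N) V where
  app W h :=
    { toFun := fun m => ofPre s N (resO (s.preimage_mono h) u • toPre s N (l.app W h m))
      map_zero' := by rw [map_zero, toPre_zero, smul_zero, ofPre_zero]
      map_add' := fun x y => by rw [map_add, toPre_add, smul_add, ofPre_add] }
  nat W W' h h' x := by
    simp only [AddMonoidHom.coe_mk, ZeroHom.coe_mk]
    rw [← ofPre_res, res_smul, resO_resO, ← toPre_res, l.nat]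
  smul W h a x := by
    simp only [AddMonoidHom.coe_mk, ZeroHom.coe_mk]
    rw [l.smul, toPre_smul, smul_smul, mul_comm, ← smul_smul, ofPre_smul]

@[simp] lemma LocHom.mulT_app (u : Γ(T, s ⁻¹ᵁ V))
    (l : LocHom M ((Scheme.Modules.pushforward s).obj N) V) (W : X.Opens) (h : W ≤ V)
    (m : Γ(M, W)) :
    (LocHom.mulT u l).app W h m =
      ofPre s N (resO (s.preimage_mono h) u • toPre s N (l.app W h m)) := rfl

end push

/-- `m` is a basis of `M` over `W` (and over all smaller opens). -/
def IsGen (M : X.Modules) {W : X.Opens} (m : Γ(M, W)) : Prop :=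
  ∀ (W' : X.Opens) (h : W' ≤ W) (y : Γ(M, W')), ∃! a : Γ(X, W'), y = a • res M h m

end Fermat.Agent.S25.Mod
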