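/-
S25, block M-A: local generators of invertible modules, and the endomorphisms of an invertible
module are the functions (ENDINV).
-/
import Fermat.Agent.S25.Mod.Basic
import Fermat.Prelude.Def_AlgebraicGeometry_RelativePicardFunctor

set_option autoImplicit false

universe u

open CategoryTheory AlgebraicGeometry TopologicalSpace

noncomputable section

namespace Fermat.Agent.S25.Mod

variable {X : Scheme.{u}}

theorem resO_one {W' W : X.Opens} (h : W' ≤ W) : resO h (1 : Γ(X, W)) = 1 := map_one _

/-- the function `1` is a generator of the structure sheaf -/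
theorem isGen_one (W : X.Opens) : IsGen (OO X) (ofFn (1 : Γ(X, W))) := by
  intro W' h y
  refine ⟨toFn y, ?_, ?_⟩
  · apply toFn_injective
    rw [toFn_smul, toFn_res, toFn_ofFn, resO_one, mul_one]
  · intro a ha
    have h1 := congrArg toFn ha
    rw [toFn_smul, toFn_res, toFn_ofFn, resO_one, mul_one] at h1
    exact h1.symm

/-- generators restrict -/
theorem IsGen.res {M : X.Modules} {W W' : X.Opens} {m : Γ(M, W)} (hm : IsGen M m) (h : W' ≤ W) :
    IsGen M (Mod.res M h m) := by
  intro W'' h' y
  rw [res_res]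
  exact hm W'' (h'.trans h) y

/-- generators are transported by local isomorphisms -/
theorem IsGen.map_locIso {M N : X.Modules} {V W : X.Opens} (e : LocIso M N V) (hW : W ≤ V)
    {m : Γ(M, W)} (hm : IsGen M m) : IsGen N (e.hom.app W hW m) := by
  intro W' h y
  obtain ⟨a, ha, hu⟩ := hm W' h (e.inv.app W' (h.trans hW) y)
  refine ⟨a, ?_, ?_⟩
  · have h1 := congrArg (e.hom.app W' (h.trans hW)) ha
    rw [e.inv_hom_app, e.hom.smul, ← e.hom.nat] at h1
    exact h1
  · intro b hb
    apply hu
    rw [hb, e.hom.nat, e.inv.smul, e.hom_inv_app]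

/-- the coefficient of a generator is unique -/
theorem IsGen.smul_left_cancel {M : X.Modules} {W : X.Opens} {m : Γ(M, W)} (hm : IsGen M m)
    {a b : Γ(X, W)} (h : a • m = b • m) : a = b := by
  obtain ⟨c, -, hu⟩ := hm W le_rfl (a • m)
  rw [hu a (by rw [res_self]), hu b (by rw [res_self, h])]

theorem exists_isGen {M : X.Modules} (hM : Scheme.Modules.IsInvertible M) (x : X) :
    ∃ (W : X.Opens) (m : Γ(M, W)), x ∈ W ∧ IsGen M m := by
  obtain ⟨U, hxU, ⟨e⟩⟩ := hM.1 x
  let e' : LocIso M (OO X) U.ι.opensRange :=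
    LocIso.ofPullbackIso U.ι (e ≪≫ (Scheme.Modules.pullbackUnitIso U.ι).symm)
  refine ⟨U.ι.opensRange, e'.inv.app _ le_rfl (ofFn 1), ?_,
    (isGen_one _).map_locIso e'.symm le_rfl⟩
  rw [Scheme.Opens.opensRange_ι]
  exact hxU

/-- on an open with a generator, an endomorphism is the multiplication by a function -/
theorem LocHom.exists_smul_of_isGen {M : X.Modules} {V W : X.Opens} (α : LocHom M M V)
    (hW : W ≤ V) {m : Γ(M, W)} (hm : IsGen M m) :
    ∃ a : Γ(X, W), ∀ (W' : X.Opens) (h : W' ≤ W) (y : Γ(M, W')),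
      α.app W' (h.trans hW) y = resO h a • y := by
  obtain ⟨a, ha, -⟩ := hm W le_rfl (α.app W hW m)
  rw [res_self] at ha
  refine ⟨a, fun W' h y => ?_⟩
  obtain ⟨b, hb, -⟩ := hm W' h y
  rw [hb, α.smul, ← α.nat W W' hW h, ha, res_smul, smul_smul, smul_smul, mul_comm]

/-- ENDINV -/
theorem LocHom.existsUnique_smulFun {M : X.Modules} (hM : Scheme.Modules.IsInvertible M)
    {V : X.Opens} (α : LocHom M M V) :
    ∃! a : Γ(X, V), α = LocHom.smulFun a (LocHom.id M V) := by
  choose W m hxW hm using exists_isGen hM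
  let U : V → X.Opens := fun x => W x ⊓ V
  have hle : ∀ x, U x ≤ V := fun x => inf_le_right
  have hcov : V ≤ ⨆ x, U x := by
    intro x hx
    exact Opens.mem_iSup.mpr ⟨⟨x, hx⟩, hxW x, hx⟩
  have hm' : ∀ x : V, IsGen M (res M (inf_le_left : U x ≤ W x) (m x)) := fun x => (hm x).res _
  choose a ha using fun x : V => LocHom.exists_smul_of_isGen α (hle x) (hm' x)
  obtain ⟨A, hA⟩ := function_glue U hle hcov a (by
    intro x y
    apply ((hm' x).res (inf_le_left : U x ⊓ U y ≤ U x)).smul_left_cancel
    rw [← ha x _ inf_le_left, ← ha y _ inf_le_right])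
  refine ⟨A, ?_, ?_⟩
  · apply LocHom.ext'
    intro W' hW' y
    rw [LocHom.smulFun_app, LocHom.id_app]
    apply section_ext M (fun x : V => W' ⊓ U x) (fun x => inf_le_left)
    · rw [← inf_iSup_eq]
      exact le_inf le_rfl (hW'.trans hcov)
    · intro x
      rw [α.nat, res_smul, resO_resO, ha x _ inf_le_right, ← hA x, resO_resO]
  · intro B hB
    apply function_ext U hle hcov
    intro x
    apply (hm' x).smul_left_cancel
    rw [hA x]
    have h1 := ha x _ le_rfl (res M (inf_le_left : U x ≤ W x) (m x))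
    rw [resO_self] at h1
    rw [← h1, hB, LocHom.smulFun_app, LocHom.id_app]

end Fermat.Agent.S25.Mod
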