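/-
S25, block M: a rigidification `r : s^* M ≅ 𝒪_T` encoded by its transpose `R : M ⟶ s_* 𝒪_T`.
KEY LEMMA `existsUnique_mulT`: every local homomorphism `M|_V ⟶ (s_* 𝒪_T)|_V` is `u * R` for a
unique function `u` on `s⁻¹ V`.   Owner: helper168.
-/
import Fermat.Agent.S25.Mod.Basic

set_option autoImplicit false

universe u

open CategoryTheory AlgebraicGeometry TopologicalSpace

noncomputable section

namespace Fermat.Agent.S25.Mod

variable {X T : Scheme.{u}}

open LocHom

/-- pullback of functions commutes with restriction -/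
lemma app_resO (s : T ⟶ X) {W' W : X.Opens} (h : W' ≤ W) (a : Γ(X, W)) :
    s.app W' (resO h a) = resO (s.preimage_mono h) (s.app W a) := by
  have h2 := congr($(s.naturality (homOfLE h).op) a)
  simp only [CommRingCat.comp_apply] at h2
  exact h2

/-! ### The module `j_* j^* N` for an open `U` -/

/-- `j_* j^* N` for the inclusion `j` of an open `U` -/
abbrev extU (N : T.Modules) (U : T.Opens) : T.Modules :=
  (Scheme.Modules.pushforward U.ι).obj (N.restrict U.ι)

lemma ι_image_preimage (U U'' : T.Opens) : U.ι ''ᵁ (U.ι ⁻¹ᵁ U'') = U'' ⊓ U := by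
  rw [Scheme.Hom.image_preimage_eq_opensRange_inf, Scheme.Opens.opensRange_ι, inf_comm]

section extU

variable (N : T.Modules) (U : T.Opens) {U₁ U₂ : T.Opens}

/-- sections of `extU N U` over `U₁` are sections of `N` over `U₁ ⊓ U` -/
def secE (y : Γ(extU N U, U₁)) : Γ(N, U₁ ⊓ U) :=
  res N (ι_image_preimage U U₁).ge (toImg U.ι N (toPre U.ι (N.restrict U.ι) y))

/-- sections of `extU N U` over `U₁` are sections of `N` over `U₁ ⊓ U` -/
def mkE (y : Γ(N, U₁ ⊓ U)) : Γ(extU N U, U₁) :=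
  ofPre U.ι (N.restrict U.ι) (ofImg U.ι N (res N (ι_image_preimage U U₁).le y))

@[simp] lemma secE_mkE (y : Γ(N, U₁ ⊓ U)) : secE N U (mkE N U y) = y := by
  simp [secE, mkE]

@[simp] lemma mkE_secE (y : Γ(extU N U, U₁)) : mkE N U (secE N U y) = y := by
  unfold secE mkE
  rw [res_res, res_self]
  rfl

lemma secE_injective : Function.Injective (secE N U (U₁ := U₁)) :=
  Function.LeftInverse.injective (mkE_secE N U)

lemma secE_add (x y : Γ(extU N U, U₁)) : secE N U (x + y) = secE N U x + secE N U y := by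
  unfold secE
  rw [toPre_add, toImg_add, res_add]

lemma secE_zero : secE N U (0 : Γ(extU N U, U₁)) = 0 := by
  unfold secE
  rw [toPre_zero, toImg_zero, res_zero]

lemma mkE_add (x y : Γ(N, U₁ ⊓ U)) : mkE N U (x + y) = mkE N U x + mkE N U y := by
  apply secE_injective
  rw [secE_add]
  simp

lemma mkE_zero : mkE N U (0 : Γ(N, U₁ ⊓ U)) = 0 := by
  apply secE_injective
  rw [secE_zero]
  simp

lemma secE_res (h : U₂ ≤ U₁) (y : Γ(extU N U, U₁)) :
    secE N U (res (extU N U) h y) = res N (inf_le_inf_right U h) (secE N U y) := by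
  unfold secE
  have h1 : toPre U.ι (N.restrict U.ι) (res (extU N U) h y) =
      res (N.restrict U.ι) (U.ι.preimage_mono h) (toPre U.ι (N.restrict U.ι) y) := rfl
  rw [h1, toImg_res, res_res, res_res]

lemma secE_smul (a : Γ(T, U₁)) (y : Γ(extU N U, U₁)) :
    secE N U (a • y) = resO (inf_le_left : U₁ ⊓ U ≤ U₁) a • secE N U y := by
  unfold secE
  have h1 : toPre U.ι (N.restrict U.ι) (a • y) =
      U.ι.app U₁ a • toPre U.ι (N.restrict U.ι) y := rfl
  rw [h1, toImg_smul, res_smul]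
  congr 1
  have h2 := congr($(U.ι.app_appIso_inv U₁) a)
  simp only [CommRingCat.comp_apply] at h2
  rw [h2]
  exact resO_resO _ _ a

lemma mkE_res (h : U₂ ≤ U₁) (y : Γ(N, U₁ ⊓ U)) :
    mkE N U (res N (inf_le_inf_right U h) y) = res (extU N U) h (mkE N U y) := by
  apply secE_injective
  rw [secE_res]
  simp

lemma mkE_smul (a : Γ(T, U₁)) (y : Γ(N, U₁ ⊓ U)) :
    mkE N U (resO (inf_le_left : U₁ ⊓ U ≤ U₁) a • y) = a • mkE N U y := by
  apply secE_injective
  rw [secE_smul]
  simp

end extU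

/-! ### The homomorphisms `N ⟶ j_* j^* N`, `x ↦ u * x|_U` -/

/-- the homomorphism `N ⟶ j_* j^* N`, `x ↦ u * x|_U` -/
def kap (N : T.Modules) (U : T.Opens) (u : Γ(T, U)) : N ⟶ extU N U :=
  LocHom.toHom
    { app := fun U₁ _ =>
        { toFun := fun x => mkE N U (resO (inf_le_right : U₁ ⊓ U ≤ U) u •
            res N (inf_le_left : U₁ ⊓ U ≤ U₁) x)
          map_zero' := by rw [res_zero, smul_zero, mkE_zero]
          map_add' := fun x y => by rw [res_add, smul_add, mkE_add] }
      nat := fun U₁ U₂ _ h x => by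
        simp only [AddMonoidHom.coe_mk, ZeroHom.coe_mk]
        rw [← mkE_res, res_smul, resO_resO, res_res, res_res]
      smul := fun U₁ _ a x => by
        simp only [AddMonoidHom.coe_mk, ZeroHom.coe_mk]
        rw [← mkE_smul, res_smul, smul_smul, smul_smul, mul_comm] }

lemma secE_kap_app (N : T.Modules) (U : T.Opens) (u : Γ(T, U)) (U₁ : T.Opens) (x : Γ(N, U₁)) :
    secE N U ((kap N U u).app U₁ x) =
      resO (inf_le_right : U₁ ⊓ U ≤ U) u • res N (inf_le_left : U₁ ⊓ U ≤ U₁) x := by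
  unfold kap
  rw [LocHom.toHom_app]
  exact secE_mkE N U _

lemma kap_injective (U : T.Opens) : Function.Injective (kap (OO T) U) := by
  intro u u' h
  have h1 := congr(toFn (secE (OO T) U (($h).app ⊤ (ofFn 1))))
  rw [secE_kap_app, secE_kap_app, toFn_smul, toFn_smul, toFn_res] at h1
  simp only [toFn_ofFn, map_one, mul_one] at h1
  have h2 := congr(resO (le_inf le_top le_rfl : U ≤ ⊤ ⊓ U) $h1)
  simpa using h2

lemma eq_kap (U : T.Opens) (κ : OO T ⟶ extU (OO T) U) : ∃ u : Γ(T, U), κ = kap (OO T) U u := by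
  refine ⟨resO (le_inf le_top le_rfl : U ≤ ⊤ ⊓ U) (toFn (secE (OO T) U (κ.app ⊤ (ofFn 1)))), ?_⟩
  ext U₁ x
  apply secE_injective
  rw [secE_kap_app]
  have hx : x = toFn x • res (OO T) (le_top : U₁ ≤ ⊤) (ofFn 1) := by
    apply toFn_injective
    rw [toFn_smul, toFn_res]
    simp
  conv_lhs => rw [hx]
  rw [Scheme.Modules.Hom.app_smul]
  have hnat := (LocHom.ofHom κ ⊤).nat ⊤ U₁ le_top le_top (ofFn 1)
  simp only [LocHom.ofHom_app] at hnat
  rw [← hnat, secE_smul, secE_res]
  apply toFn_injective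
  rw [toFn_smul, toFn_smul, toFn_res, toFn_res, resO_resO, mul_comm]

/-! ### Extending a local homomorphism into a pushforward -/

section lam

variable (s : T ⟶ X) {N : T.Modules} {M : X.Modules} {V : X.Opens}

lemma preimage_inf_le (W V : X.Opens) : s ⁻¹ᵁ W ⊓ s ⁻¹ᵁ V ≤ s ⁻¹ᵁ (W ⊓ V) := le_rfl

/-- a local homomorphism `M|_V ⟶ (s_* N)|_V` as a global one `M ⟶ s_* j_* j^* N` -/
def lam (l : LocHom M ((Scheme.Modules.pushforward s).obj N) V) :
    M ⟶ (Scheme.Modules.pushforward s).obj (extU N (s ⁻¹ᵁ V)) :=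
  LocHom.toHom
    { app := fun W _ =>
        { toFun := fun m => ofPre s (extU N (s ⁻¹ᵁ V)) (mkE N (s ⁻¹ᵁ V) (U₁ := s ⁻¹ᵁ W)
            (res N (preimage_inf_le s W V)
              (toPre s N (l.app (W ⊓ V) inf_le_right (res M inf_le_left m)))))
          map_zero' := by rw [res_zero, map_zero, toPre_zero, res_zero, mkE_zero, ofPre_zero]
          map_add' := fun x y => by
            rw [res_add, map_add, toPre_add, res_add, mkE_add, ofPre_add] }
      nat := fun W W' _ h x => by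
        simp only [AddMonoidHom.coe_mk, ZeroHom.coe_mk]
        rw [← ofPre_res, ← mkE_res, res_res, res_res]
        have h1 := l.nat (W ⊓ V) (W' ⊓ V) inf_le_right (inf_le_inf_right V h)
          (res M inf_le_left x)
        rw [res_res] at h1
        rw [← h1, toPre_res, res_res]
      smul := fun W _ a x => by
        simp only [AddMonoidHom.coe_mk, ZeroHom.coe_mk]
        rw [res_smul, l.smul, toPre_smul, res_smul, ← ofPre_smul, ← mkE_smul]
        congr 3
        rw [app_resO, resO_resO] }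

lemma secE_lam_app (l : LocHom M ((Scheme.Modules.pushforward s).obj N) V) (W : X.Opens)
    (m : Γ(M, W)) :
    secE N (s ⁻¹ᵁ V) (toPre s (extU N (s ⁻¹ᵁ V)) ((lam s l).app W m)) =
      res N (preimage_inf_le s W V)
        (toPre s N (l.app (W ⊓ V) inf_le_right (res M inf_le_left m))) := by
  unfold lam
  rw [LocHom.toHom_app]
  exact secE_mkE N (s ⁻¹ᵁ V) _

lemma lam_injective : Function.Injective (lam s (N := N) (M := M) (V := V)) := by
  intro l l' h
  apply LocHom.ext'
  intro W hW m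
  have h1 := congr(secE N (s ⁻¹ᵁ V) (toPre s (extU N (s ⁻¹ᵁ V)) (($h).app W m)))
  rw [secE_lam_app, secE_lam_app] at h1
  have hle : W ≤ W ⊓ V := le_inf le_rfl hW
  have h2 := congr(res N (le_inf le_rfl (s.preimage_mono hW) : s ⁻¹ᵁ W ≤ s ⁻¹ᵁ W ⊓ s ⁻¹ᵁ V) $h1)
  rw [res_res, res_res] at h2
  have h3 : ∀ l₀ : LocHom M ((Scheme.Modules.pushforward s).obj N) V,
      res N (s.preimage_mono hle)
        (toPre s N (l₀.app (W ⊓ V) inf_le_right (res M inf_le_left m))) =
      toPre s N (l₀.app W hW m) := by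
    intro l₀
    rw [← toPre_res s N hle, l₀.nat, res_res, res_self]
  apply toPre_injective s N
  rw [← h3 l, ← h3 l']
  exact h2

lemma lam_mulT (f : M ⟶ (Scheme.Modules.pushforward s).obj N) (u : Γ(T, s ⁻¹ᵁ V)) :
    lam s (LocHom.mulT u (LocHom.ofHom f V)) =
      f ≫ (Scheme.Modules.pushforward s).map (kap N (s ⁻¹ᵁ V) u) := by
  ext W m
  apply toPre_injective s (extU N (s ⁻¹ᵁ V))
  apply secE_injective
  rw [secE_lam_app]
  have h1 : toPre s (extU N (s ⁻¹ᵁ V))
      ((f ≫ (Scheme.Modules.pushforward s).map (kap N (s ⁻¹ᵁ V) u)).app W m) =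
      (kap N (s ⁻¹ᵁ V) u).app (s ⁻¹ᵁ W) (toPre s N (f.app W m)) := rfl
  rw [h1, secE_kap_app, LocHom.mulT_app, toPre_ofPre, res_smul, resO_resO, LocHom.ofHom_app]
  congr 1
  have h2 := (LocHom.ofHom f ⊤).nat W (W ⊓ V) le_top inf_le_left m
  simp only [LocHom.ofHom_app] at h2
  rw [← h2, toPre_res, res_res]

end lam

/-! ### The key lemma -/

/-- the transpose of a rigidification -/
def rigHom (s : T ⟶ X) {M : X.Modules} (r : (Scheme.Modules.pullback s).obj M ⟶ OO T) :
    M ⟶ (Scheme.Modules.pushforward s).obj (OO T) :=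
  (Scheme.Modules.pullbackPushforwardAdjunction s).homEquiv M (OO T) r

theorem existsUnique_mulT (s : T ⟶ X) {M : X.Modules}
    (r : (Scheme.Modules.pullback s).obj M ≅ OO T) {V : X.Opens}
    (l : LocHom M ((Scheme.Modules.pushforward s).obj (OO T)) V) :
    ∃! u : Γ(T, s ⁻¹ᵁ V), l = LocHom.mulT u (LocHom.ofHom (rigHom s r.hom) V) := by
  let adj := Scheme.Modules.pullbackPushforwardAdjunction s
  have hnat : ∀ κ : OO T ⟶ extU (OO T) (s ⁻¹ᵁ V),
      rigHom s r.hom ≫ (Scheme.Modules.pushforward s).map κ = adj.homEquiv _ _ (r.hom ≫ κ) := by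
    intro κ
    exact (adj.homEquiv_naturality_right r.hom κ).symm
  obtain ⟨u, hu⟩ := eq_kap (s ⁻¹ᵁ V) (r.inv ≫ (adj.homEquiv _ _).symm (lam s l))
  have hex : l = LocHom.mulT u (LocHom.ofHom (rigHom s r.hom) V) := by
    apply lam_injective s
    rw [lam_mulT, ← hu, hnat]
    simp
  refine ⟨u, hex, ?_⟩
  intro u' hu'
  apply kap_injective (s ⁻¹ᵁ V)
  rw [← cancel_epi r.hom]
  apply (adj.homEquiv _ _).injective
  rw [← hnat, ← hnat, ← lam_mulT, ← lam_mulT, ← hu', ← hex]

end Fermat.Agent.S25.Mod
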