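/-
S25, block M-A3: abstract separatedness (normalise local isomorphisms, glue): the core, with the
two inputs ENDINV and the universal property of the rigidifications as hypotheses.
Owner: helper296.
-/
import Fermat.Agent.S25.Mod.Basic

set_option autoImplicit false

universe u

open CategoryTheory AlgebraicGeometry TopologicalSpace

noncomputable section

namespace Fermat.Agent.S25.Mod

namespace SepAbs

variable {X T : Scheme.{u}}

/-! ### (L0) algebra of `mulT`, `smulFun`, `comp` -/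

section L0

variable {M M' M'' : X.Modules} {V V' : X.Opens}

lemma resO_mul {W' W : X.Opens} (h : W' ≤ W) (a b : Γ(X, W)) :
    resO h (a * b) = resO h a * resO h b := map_mul _ _ _

lemma resO_one {W' W : X.Opens} (h : W' ≤ W) : resO h (1 : Γ(X, W)) = 1 := map_one _

lemma comp_assoc {M''' : X.Modules} (f : LocHom M M' V) (g : LocHom M' M'' V)
    (k : LocHom M'' M''' V) : (f.comp g).comp k = f.comp (g.comp k) := rfl

lemma id_comp (f : LocHom M M' V) : (LocHom.id M V).comp f = f := rfl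

lemma comp_id (f : LocHom M M' V) : f.comp (LocHom.id M' V) = f := rfl

lemma restrict_comp (f : LocHom M M' V) (g : LocHom M' M'' V) (h : V' ≤ V) :
    (f.comp g).restrict h = (f.restrict h).comp (g.restrict h) := rfl

lemma restrict_id (h : V' ≤ V) : (LocHom.id M V).restrict h = LocHom.id M V' := rfl

lemma restrict_ofHom (f : M ⟶ M') (h : V' ≤ V) :
    (LocHom.ofHom f V).restrict h = LocHom.ofHom f V' := rfl

lemma restrict_restrict {V'' : X.Opens} (f : LocHom M M' V) (h : V' ≤ V) (h' : V'' ≤ V') :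
    (f.restrict h).restrict h' = f.restrict (h'.trans h) := rfl

lemma smulFun_smulFun (a b : Γ(X, V)) (f : LocHom M M' V) :
    LocHom.smulFun a (LocHom.smulFun b f) = LocHom.smulFun (a * b) f := by
  apply LocHom.ext'
  intro W h x
  simp only [LocHom.smulFun_app]
  rw [smul_smul, resO_mul]

lemma smulFun_one (f : LocHom M M' V) : LocHom.smulFun 1 f = f := by
  apply LocHom.ext'
  intro W h x
  simp only [LocHom.smulFun_app]
  rw [resO_one, one_smul]

lemma smulFun_comp_smulFun (a b : Γ(X, V)) (f : LocHom M M' V) (g : LocHom M' M'' V) :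
    (LocHom.smulFun a f).comp (LocHom.smulFun b g) = LocHom.smulFun (a * b) (f.comp g) := by
  apply LocHom.ext'
  intro W h x
  simp only [LocHom.smulFun_app, LocHom.comp_app]
  rw [g.smul, smul_smul, resO_mul, mul_comm]

variable {s : T ⟶ X} {N : T.Modules}

lemma app_resO {W' W : X.Opens} (h : W' ≤ W) (a : Γ(X, W)) :
    s.app W' (resO h a) = resO (s.preimage_mono h) (s.app W a) := by
  have := s.naturality (homOfLE h).op
  exact congr($this a)

lemma smulFun_comp (a : Γ(X, V)) (f : LocHom M M' V)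
    (l : LocHom M' ((Scheme.Modules.pushforward s).obj N) V) :
    (LocHom.smulFun a f).comp l = LocHom.mulT (s.app V a) (f.comp l) := by
  apply LocHom.ext'
  intro W h x
  simp only [LocHom.smulFun_app, LocHom.comp_app, LocHom.mulT_app]
  rw [l.smul, ← app_resO, ofPre_smul, ofPre_toPre]

lemma comp_mulT (u : Γ(T, s ⁻¹ᵁ V)) (f : LocHom M M' V)
    (l : LocHom M' ((Scheme.Modules.pushforward s).obj N) V) :
    f.comp (LocHom.mulT u l) = LocHom.mulT u (f.comp l) := rfl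

lemma mulT_mulT (u v : Γ(T, s ⁻¹ᵁ V)) (l : LocHom M ((Scheme.Modules.pushforward s).obj N) V) :
    LocHom.mulT u (LocHom.mulT v l) = LocHom.mulT (u * v) l := by
  apply LocHom.ext'
  intro W h x
  simp only [LocHom.mulT_app, toPre_ofPre]
  rw [smul_smul, resO_mul]

lemma mulT_one (l : LocHom M ((Scheme.Modules.pushforward s).obj N) V) :
    LocHom.mulT 1 l = l := by
  apply LocHom.ext'
  intro W h x
  simp only [LocHom.mulT_app]
  rw [resO_one, one_smul, ofPre_toPre]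

end L0

/-! ### (L1), (L2): functions on `π ⁻¹ᵁ U` and on `U` -/

section L12

variable (π : X ⟶ T) (s : T ⟶ X) (hs : s ≫ π = 𝟙 T)

include hs

lemma preimage_preimage (U : T.Opens) : s ⁻¹ᵁ (π ⁻¹ᵁ U) = U := by
  rw [← Scheme.Hom.comp_preimage, hs, Scheme.Hom.id_preimage]

lemma app_app (U : T.Opens) (x : Γ(T, U)) :
    s.app (π ⁻¹ᵁ U) (π.app U x) = resO (preimage_preimage π s hs U).le x := by
  have h1 := Scheme.Hom.congr_app hs U
  exact congr($h1 x)

/-- (L1) -/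
lemma exists_app_eq (U : T.Opens) (u : Γ(T, s ⁻¹ᵁ (π ⁻¹ᵁ U))) :
    ∃ a : Γ(X, π ⁻¹ᵁ U), s.app (π ⁻¹ᵁ U) a = u := by
  refine ⟨π.app U (resO (preimage_preimage π s hs U).ge u), ?_⟩
  rw [app_app π s hs, resO_resO, resO_self]

/-- (L2) -/
lemma eq_one_of_app_eq_one
    (hπ : ∀ (U : T.Opens) (a : Γ(X, π ⁻¹ᵁ U)), ∃ a' : Γ(T, U), π.app U a' = a)
    (U : T.Opens) (a : Γ(X, π ⁻¹ᵁ U)) (ha : s.app (π ⁻¹ᵁ U) a = 1) : a = 1 := by
  obtain ⟨a', rfl⟩ := hπ U a
  rw [app_app π s hs] at ha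
  have h2 := congr(resO (preimage_preimage π s hs U).ge $ha)
  rw [resO_resO, resO_self, resO_one] at h2
  rw [h2, map_one]

end L12

/-! ### uniqueness and normalisation -/

section UQ

variable {s : T ⟶ X} {M M' : X.Modules} {V : X.Opens}
  {R : M ⟶ (Scheme.Modules.pushforward s).obj (OO T)}
  {R' : M' ⟶ (Scheme.Modules.pushforward s).obj (OO T)}

/-- (UQ) -/
lemma eq_of_normalised
    (hEnd : ∀ α : LocHom M M V, ∃ a : Γ(X, V), α = LocHom.smulFun a (LocHom.id M V))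
    (hR : ∀ u u' : Γ(T, s ⁻¹ᵁ V), LocHom.mulT u (LocHom.ofHom R V) =
      LocHom.mulT u' (LocHom.ofHom R V) → u = u')
    (hL2 : ∀ a : Γ(X, V), s.app V a = 1 → a = 1)
    (φ φ' : LocHom M M' V) (ψ' : LocHom M' M V) (h1 : ψ'.comp φ' = LocHom.id M' V)
    (h2 : φ.comp (LocHom.ofHom R' V) = LocHom.ofHom R V)
    (h3 : ψ'.comp (LocHom.ofHom R V) = LocHom.ofHom R' V) : φ = φ' := by
  obtain ⟨a, ha⟩ := hEnd (φ.comp ψ')
  have h4 : (φ.comp ψ').comp (LocHom.ofHom R V) = LocHom.ofHom R V := by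
    rw [comp_assoc, h3, h2]
  rw [ha, smulFun_comp, id_comp] at h4
  have h5 : s.app V a = 1 := hR _ _ (by rw [h4, mulT_one])
  have h6 : a = 1 := hL2 a h5
  rw [h6, smulFun_one] at ha
  calc φ = φ.comp (ψ'.comp φ') := by rw [h1, comp_id]
    _ = (φ.comp ψ').comp φ' := rfl
    _ = φ' := by rw [ha, id_comp]

/-- (NORM) -/
lemma exists_normalised
    (hR : ∀ l : LocHom M ((Scheme.Modules.pushforward s).obj (OO T)) V,
      ∃! u : Γ(T, s ⁻¹ᵁ V), l = LocHom.mulT u (LocHom.ofHom R V))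
    (hR' : ∀ l : LocHom M' ((Scheme.Modules.pushforward s).obj (OO T)) V,
      ∃! u : Γ(T, s ⁻¹ᵁ V), l = LocHom.mulT u (LocHom.ofHom R' V))
    (hL1 : ∀ u : Γ(T, s ⁻¹ᵁ V), ∃ a : Γ(X, V), s.app V a = u)
    (hL2 : ∀ a : Γ(X, V), s.app V a = 1 → a = 1)
    (e : LocIso M M' V) :
    ∃ (φ : LocHom M M' V) (ψ : LocHom M' M V), φ.comp ψ = LocHom.id M V ∧
      ψ.comp φ = LocHom.id M' V ∧ φ.comp (LocHom.ofHom R' V) = LocHom.ofHom R V ∧
      ψ.comp (LocHom.ofHom R V) = LocHom.ofHom R' V := by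
  obtain ⟨u, hu, -⟩ := hR (e.hom.comp (LocHom.ofHom R' V))
  obtain ⟨u', hu', -⟩ := hR' (e.inv.comp (LocHom.ofHom R V))
  have h1 : LocHom.ofHom R V = LocHom.mulT (u' * u) (LocHom.ofHom R V) := by
    calc LocHom.ofHom R V = (e.hom.comp e.inv).comp (LocHom.ofHom R V) := by
          rw [e.hom_inv, id_comp]
      _ = e.hom.comp (e.inv.comp (LocHom.ofHom R V)) := rfl
      _ = LocHom.mulT (u' * u) (LocHom.ofHom R V) := by
          rw [hu', comp_mulT, hu, mulT_mulT]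
  have h2 : u' * u = 1 := by
    obtain ⟨w, -, hw⟩ := hR (LocHom.ofHom R V)
    rw [hw _ h1, hw 1 (mulT_one _).symm]
  obtain ⟨a, ha⟩ := hL1 u'
  obtain ⟨b, hb⟩ := hL1 u
  have hab : a * b = 1 := hL2 _ (by rw [map_mul, ha, hb, h2])
  refine ⟨LocHom.smulFun a e.hom, LocHom.smulFun b e.inv, ?_, ?_, ?_, ?_⟩
  · rw [smulFun_comp_smulFun, hab, smulFun_one, e.hom_inv]
  · rw [smulFun_comp_smulFun, mul_comm, hab, smulFun_one, e.inv_hom]
  · rw [smulFun_comp, ha, hu, mulT_mulT, h2, mulT_one]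
  · rw [smulFun_comp, hb, hu', mulT_mulT, mul_comm, h2, mulT_one]

end UQ

/-! ### gluing -/

/-- the core of `nonempty_iso_of_locIso`. -/
theorem nonempty_iso_core (π : X ⟶ T) (s : T ⟶ X) (hs : s ≫ π = 𝟙 T)
    (hπ : ∀ (U : T.Opens) (a : Γ(X, π ⁻¹ᵁ U)), ∃ a' : Γ(T, U), π.app U a' = a)
    {M M' : X.Modules}
    (hEnd : ∀ (V : X.Opens) (α : LocHom M M V),
      ∃! a : Γ(X, V), α = LocHom.smulFun a (LocHom.id M V))
    (R : M ⟶ (Scheme.Modules.pushforward s).obj (OO T))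
    (R' : M' ⟶ (Scheme.Modules.pushforward s).obj (OO T))
    (hR : ∀ (V : X.Opens) (l : LocHom M ((Scheme.Modules.pushforward s).obj (OO T)) V),
      ∃! u : Γ(T, s ⁻¹ᵁ V), l = LocHom.mulT u (LocHom.ofHom R V))
    (hR' : ∀ (V : X.Opens) (l : LocHom M' ((Scheme.Modules.pushforward s).obj (OO T)) V),
      ∃! u : Γ(T, s ⁻¹ᵁ V), l = LocHom.mulT u (LocHom.ofHom R' V))
    {J : Type*} (U : J → T.Opens) (hU : (⨆ j, U j) = ⊤)
    (e : ∀ j, LocIso M M' (π ⁻¹ᵁ U j)) : Nonempty (M ≅ M') := by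
  have hnorm := fun j => exists_normalised (hR (π ⁻¹ᵁ U j)) (hR' (π ⁻¹ᵁ U j))
    (exists_app_eq π s hs (U j)) (eq_one_of_app_eq_one π s hs hπ (U j)) (e j)
  choose φ ψ h1 h2 h3 h4 using hnorm
  have hinj : ∀ (V : X.Opens) (u u' : Γ(T, s ⁻¹ᵁ V)), LocHom.mulT u (LocHom.ofHom R V) =
      LocHom.mulT u' (LocHom.ofHom R V) → u = u' := by
    intro V u u' h
    obtain ⟨w, -, hw⟩ := hR V (LocHom.mulT u (LocHom.ofHom R V))
    rw [hw u rfl, hw u' h]
  have hφ : ∀ i j, (φ i).restrict (inf_le_left : π ⁻¹ᵁ U i ⊓ π ⁻¹ᵁ U j ≤ π ⁻¹ᵁ U i) =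
      (φ j).restrict inf_le_right := by
    intro i j
    refine eq_of_normalised (V := π ⁻¹ᵁ U i ⊓ π ⁻¹ᵁ U j) (R := R) (R' := R')
      (fun α => (hEnd _ α).exists) (hinj _)
      (eq_one_of_app_eq_one π s hs hπ (U i ⊓ U j)) _ _ ((ψ j).restrict inf_le_right) ?_ ?_ ?_
    · rw [← restrict_comp, h2, restrict_id]
    · rw [← restrict_ofHom R' (inf_le_left : π ⁻¹ᵁ U i ⊓ π ⁻¹ᵁ U j ≤ π ⁻¹ᵁ U i), ← restrict_comp,
        h3, restrict_ofHom]
    · rw [← restrict_ofHom R (inf_le_right : π ⁻¹ᵁ U i ⊓ π ⁻¹ᵁ U j ≤ π ⁻¹ᵁ U j), ← restrict_comp,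
        h4, restrict_ofHom]
  have hψ : ∀ i j, (ψ i).restrict (inf_le_left : π ⁻¹ᵁ U i ⊓ π ⁻¹ᵁ U j ≤ π ⁻¹ᵁ U i) =
      (ψ j).restrict inf_le_right := by
    intro i j
    calc (ψ i).restrict (inf_le_left : π ⁻¹ᵁ U i ⊓ π ⁻¹ᵁ U j ≤ π ⁻¹ᵁ U i)
        = ((ψ i).restrict inf_le_left).comp
            (((φ j).restrict inf_le_right).comp ((ψ j).restrict inf_le_right)) := by
          rw [← restrict_comp, h1, restrict_id, comp_id]
      _ = (((ψ i).restrict inf_le_left).comp ((φ i).restrict inf_le_left)).comp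
            ((ψ j).restrict inf_le_right) := by
          rw [← hφ i j]; rfl
      _ = (ψ j).restrict inf_le_right := by
          rw [← restrict_comp, h2, restrict_id, id_comp]
  have htop : (⊤ : X.Opens) ≤ ⨆ j, π ⁻¹ᵁ U j := (π.iSup_preimage_eq_top hU).ge
  let Φ : LocHom M M' ⊤ := (LocHom.glue (fun j => π ⁻¹ᵁ U j) φ hφ).restrict htop
  let Ψ : LocHom M' M ⊤ := (LocHom.glue (fun j => π ⁻¹ᵁ U j) ψ hψ).restrict htop
  have hΦ : ∀ j, Φ.restrict (inf_le_left : ⊤ ⊓ π ⁻¹ᵁ U j ≤ ⊤) = (φ j).restrict inf_le_right := by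
    intro j
    rw [← LocHom.glue_restrict (fun j => π ⁻¹ᵁ U j) φ hφ j]
    rfl
  have hΨ : ∀ j, Ψ.restrict (inf_le_left : ⊤ ⊓ π ⁻¹ᵁ U j ≤ ⊤) = (ψ j).restrict inf_le_right := by
    intro j
    rw [← LocHom.glue_restrict (fun j => π ⁻¹ᵁ U j) ψ hψ j]
    rfl
  refine ⟨LocIso.toIso ⟨Φ, Ψ, ?_, ?_⟩⟩
  · apply LocHom.ext_of_cover (fun j => π ⁻¹ᵁ U j) htop
    intro j
    rw [restrict_comp, hΦ, hΨ, ← restrict_comp, h1]
    rfl
  · apply LocHom.ext_of_cover (fun j => π ⁻¹ᵁ U j) htop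
    intro j
    rw [restrict_comp, hΦ, hΨ, ← restrict_comp, h2]
    rfl

end SepAbs

end Fermat.Agent.S25.Mod
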