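/-
S25, block M-A: abstract separatedness (wrapper around `SepAbsCore`).
Core by helper296, key lemmas `Gen` (helper146), `Rig` (helper168).
-/
import Fermat.Agent.S25.Mod.SepAbsCore
import Fermat.Agent.S25.Mod.Gen
import Fermat.Agent.S25.Mod.Rig

set_option autoImplicit false

universe u

open CategoryTheory AlgebraicGeometry TopologicalSpace

noncomputable section

namespace Fermat.Agent.S25.Mod

variable {X T : Scheme.{u}}

theorem nonempty_iso_of_locIso (π : X ⟶ T) (s : T ⟶ X) (hs : s ≫ π = 𝟙 T)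
    (hπ : ∀ (U : T.Opens) (a : Γ(X, π ⁻¹ᵁ U)), ∃ a' : Γ(T, U), π.app U a' = a)
    {M M' : X.Modules} (hM : Scheme.Modules.IsInvertible M)
    (r : (Scheme.Modules.pullback s).obj M ≅ OO T)
    (r' : (Scheme.Modules.pullback s).obj M' ≅ OO T)
    {J : Type*} (U : J → T.Opens) (hU : (⨆ j, U j) = ⊤)
    (e : ∀ j, LocIso M M' (π ⁻¹ᵁ U j)) : Nonempty (M ≅ M') :=
  SepAbs.nonempty_iso_core π s hs hπ (fun _ α => LocHom.existsUnique_smulFun hM α)
    (rigHom s r.hom) (rigHom s r'.hom) (fun _ l => existsUnique_mulT s r l)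
    (fun _ l => existsUnique_mulT s r' l) U hU e

end Fermat.Agent.S25.Mod
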